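import Fermat.Prelude.Def_ModularCurve_ArithmeticGalois
import Fermat.Prelude.Def_ModularCurve_HeckeOperator
import Fermat.Agent.CarayolFF.NormProd

/-!
# Kummer classes killed by the quartic of Frobenius

`QuadRoot M q σ n` says that `(σ² - q²) (σ² - 1)` kills the Kummer class of a function of level
`M * q` whose two norms to level `M` are `n`-th powers up to constants.
-/

set_option autoImplicit false

noncomputable section

open ModularCurve AlgebraicCurve

namespace Fermat.Agent.TwoComp

local notation "ℚbar" => AlgebraicClosure ℚ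

/-- `(σ² - q²) (σ² - 1)` kills the Kummer classes with trivial norms to level `M`. -/
def QuadRoot (M q : ℕ) [NeZero M] [NeZero q] (σ : ℚbar ≃ₐ[ℚ] ℚbar) (n : ℕ) : Prop :=
  ∀ f : modularFunctionFieldBar (M * q), f ≠ 0 →
    (∀ v : Place ℚbar (modularFunctionFieldBar (M * q)), (n : ℤ) ∣ v.ord f) →
    (∃ (c : ℚbar) (h : modularFunctionFieldBar M),
      CarayolFF.normAlong (heckeAlphaBar ℚbar M q) f =
        algebraMap ℚbar (modularFunctionFieldBar M) c * h ^ n) →
    (∃ (c : ℚbar) (h : modularFunctionFieldBar M),
      CarayolFF.normAlong (heckeBetaBar ℚbar M q) f =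
        algebraMap ℚbar (modularFunctionFieldBar M) c * h ^ n) →
    ∃ s : modularFunctionFieldBar (M * q),
      s ^ n * (arithmeticRingAut (modularFunctionFieldFull (M * q)) (σ * σ)
          (arithmeticRingAut (modularFunctionFieldFull (M * q)) (σ * σ) f * f ^ (n - 1)) *
        (arithmeticRingAut (modularFunctionFieldFull (M * q)) (σ * σ) f * f ^ (n - 1)) ^
          ((n - 1) * (q * q))) = 1

end Fermat.Agent.TwoComp
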