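import Fermat.Prelude.Def_ModularCurve_ArithmeticGalois

/-!
# The twice twisted Kummer classes

`TwistRoot M σ n` says that the Kummer class of a function on `X₀(M)` with divisor divisible by
`n`, twisted twice by `σ - 1`, is trivial.
-/

set_option autoImplicit false

noncomputable section

open ModularCurve AlgebraicCurve

namespace Fermat.Agent.TwoComp

local notation "ℚbar" => AlgebraicClosure ℚ

/-- `(σ - 1) ^ 2` kills the Kummer classes of level `M`. -/
def TwistRoot (M : ℕ) (σ : ℚbar ≃ₐ[ℚ] ℚbar) (n : ℕ) : Prop :=
  ∀ f : modularFunctionFieldBar M, f ≠ 0 →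
    (∀ v : Place ℚbar (modularFunctionFieldBar M), (n : ℤ) ∣ v.ord f) →
    ∃ s : modularFunctionFieldBar M,
      s ^ n * (arithmeticRingAut (modularFunctionFieldFull M) σ
          (arithmeticRingAut (modularFunctionFieldFull M) σ f * f ^ (n - 1)) *
        (arithmeticRingAut (modularFunctionFieldFull M) σ f * f ^ (n - 1)) ^ (n - 1)) = 1

end Fermat.Agent.TwoComp
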