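import Fermat.Agent.TwoComp.SeriesGauss
import Fermat.Agent.MazurPoint.PhiShape
import Mathlib.RingTheory.RootsOfUnity.AlgebraicallyClosed

/-!
# The constant coefficient of the modular equation at `j(qτ)`, reduced

It is up to sign the product of the conjugates, so it reduces to `± j ^ (q² + q)`.
-/

set_option autoImplicit false

noncomputable section

open ModularCurve Fermat.Agent.GaloisBasics Fermat.Agent.CarayolFF
open Fermat.Agent.ModularFunctionField (jRoot evalPhi modularPoly twist)

namespace Fermat.Agent.TwoComp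

variable {A : ValuationSubring Qbar} {q : ℕ} [NeZero q]

local notation "k" => IsLocalRing.ResidueField A

theorem gres_neg {x : LaurentSeries Qbar} (hx : x ∈ gaussRing A) :
    -x ∈ gaussRing A ∧ gres A (-x) = -gres A x :=
  ⟨neg_mem hx, by rw [← zero_sub, gres_sub (zero_mem _) hx, gres_zero, zero_sub]⟩

/-- Gauss residues commute with finite products. -/
theorem gres_prod {ι : Type*} (s : Finset ι) (f : ι → LaurentSeries Qbar)
    (r : ι → LaurentSeries k) (h : ∀ i ∈ s, f i ∈ gaussRing A ∧ gres A (f i) = r i) :
    ∏ i ∈ s, f i ∈ gaussRing A ∧ gres A (∏ i ∈ s, f i) = ∏ i ∈ s, r i := by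
  classical
  induction s using Finset.induction_on with
  | empty => simp [one_mem, gres_one]
  | insert a t ha ih =>
    obtain ⟨h₁, e₁⟩ := h a (Finset.mem_insert_self a t)
    obtain ⟨h₂, e₂⟩ := ih fun i hi => h i (Finset.mem_insert_of_mem hi)
    rw [Finset.prod_insert ha, Finset.prod_insert ha]
    exact ⟨mul_mem h₁ h₂, by rw [gres_mul h₁ h₂, e₁, e₂]⟩

/-- The reduced constant coefficient of `Φ_q` at `j(qτ)`. -/
theorem gres_phiConst (hq : q.Prime) (hA : A.LiesOverPrime q) :
    ((modularPoly q).coeff 0).eval₂ (Int.castRingHom _) (qExpand Qbar q (jqModC Qbar))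
        ∈ gaussRing A ∧
      gres A (((modularPoly q).coeff 0).eval₂ (Int.castRingHom _)
          (qExpand Qbar q (jqModC Qbar))) =
        (-1) ^ (q + 1) * jqModC k ^ (q * q + q) := by
  classical
  have : NeZero ((q : ℕ) : Qbar) := ⟨Nat.cast_ne_zero.mpr hq.ne_zero⟩
  obtain ⟨z, hz⟩ := HasEnoughRootsOfUnity.exists_primitiveRoot Qbar q
  set u := (hz.isUnit hq.ne_zero).unit
  have hu : IsPrimitiveRoot u q :=
    IsPrimitiveRoot.coe_units_iff.mp (by rwa [IsUnit.unit_spec])
  have he : ((modularPoly q).coeff 0).eval₂ (Int.castRingHom _) (qExpand Qbar q (jqModC Qbar)) =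
      evalPhi q Qbar ((modularPoly q).coeff 0) := by
    simp only [evalPhi, ModularFunctionField.evalJT, RingHom.comp_apply,
      Polynomial.coe_mapRingHom, Polynomial.coe_eval₂RingHom, Polynomial.eval₂_map,
      ModularFunctionField.jT]
    congr 1
  rw [he, ← Polynomial.coeff_map, ModularFunctionField.modularPoly_map_evalPhi hu,
    Polynomial.coeff_zero_eq_eval_zero, Polynomial.eval_prod,
    ← (Equiv.ofBijective _ (MazurPoint.triOfOption_bijective hq)).prod_comp]
  have hj := gres_jqModC (A := A)
  obtain ⟨h1, e1⟩ := gres_prod (A := A) Finset.univ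
    (fun o => Polynomial.eval 0 (Polynomial.X - Polynomial.C
      (jRoot u 1 (Equiv.ofBijective _ (MazurPoint.triOfOption_bijective hq) o))))
    (fun o : Option (Fin q) => - o.elim (jqModC k ^ (q * q)) (fun _ => jqModC k)) fun o _ => by
      simp only [Polynomial.eval_sub, Polynomial.eval_X, Polynomial.eval_C, zero_sub]
      suffices h : jRoot u 1 (MazurPoint.triOfOption o) ∈ gaussRing A ∧
          gres A (jRoot u 1 (MazurPoint.triOfOption o)) =
            o.elim (jqModC k ^ (q * q)) (fun _ => jqModC k) by
        obtain ⟨hm, hr⟩ := gres_neg h.1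
        exact ⟨hm, hr.trans (congrArg Neg.neg h.2)⟩
      cases o with
      | none =>
        rw [show MazurPoint.triOfOption (none : Option (Fin q)) = ModularFunctionField.Tri.top
          from rfl,
          ModularFunctionField.jRoot_top]
        obtain ⟨hm, hr⟩ := gres_jd (A := A) (q * q * 1)
        refine ⟨hm, hr.trans ?_⟩
        rw [qExpand_congr (mul_one (q * q)), ← qExpand_qExpand]
        have h := qExpand_jd_eq_pow hq hA 1
        rw [qExpand_one_apply] at h
        rw [h, map_pow, h, ← pow_mul]
        rfl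
      | some i =>
        have e : jRoot u 1 (MazurPoint.triOfOption (some i)) =
            twist (u ^ (i : ℕ)) (jqModC Qbar) := by
          show ModularFunctionField.subst (u ^ ((i : ℕ) * 1 * 1)) (1 * 1 * 1) (jqModC Qbar) = _
          rw [ModularFunctionField.subst_congr (v := u ^ (i : ℕ)) (l := 1) (by simp) rfl,
            ModularFunctionField.subst_apply, qExpand_one_apply]
        have hv : A.valuation (q : Qbar) < 1 := A.mem_nonunits_iff.mp hA
        have hpow : u ^ q = 1 := hu.pow_eq_one
        obtain ⟨hm, hr⟩ := residue_rootOfUnity A hq hv (unit_pow_eq_one hpow i)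
        obtain ⟨hm', -⟩ := residue_rootOfUnity A hq hv (u := (u ^ (i : ℕ))⁻¹)
          (by rw [inv_pow, unit_pow_eq_one hpow, inv_one])
        obtain ⟨ht, htr⟩ := twist_gaussRes hm hm' hr hj.1
        rw [e]
        refine ⟨ht, ?_⟩
        rw [gres_of_mem ht, htr, ← gres_of_mem hj.1]
        exact hj.2
  refine ⟨h1, e1.trans ?_⟩
  rw [Fintype.prod_option]
  simp only [Option.elim_none, Option.elim_some, Finset.prod_const, Finset.card_univ,
    Fintype.card_fin]
  rw [neg_pow (jqModC k)]
  ring

end Fermat.Agent.TwoComp
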