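import Fermat.Agent.TwoComp.Count

/-!
# Orders of normalised residues on the two components

The residues of a function with divisor divisible by `n` have orders divisible by `n` outside the
nodes, provided the two orders at every node add up to a multiple of `n`: each unit of fractional
order costs one dimension of sections, and each node with integral orders costs one as well.
-/

set_option autoImplicit false

noncomputable section

open AlgebraicCurve WithZero Fermat.Agent.GoodReduction Fermat.Agent.KummerReduction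
open Fermat.Agent.FunctionField (IsFunctionField)

namespace Fermat.Agent.TwoComp.Setting

variable {K F k G : Type} [Field K] [Field F] [Field k] [Field G] [Algebra K F] [Algebra k G]
variable (T : Setting K F k G) [IsFunctionField k G]

local notation "Nd" => {P : Place k G // T.IsNode P}

omit [IsFunctionField k G] in
theorem mem_ring_iff_ord {P : Place k G} {x : G} (hx : x ≠ 0) :
    x ∈ P.toValuationSubring ↔ 0 ≤ P.ord x := by
  rw [FunctionField.mem_iff_adicValuation_le_one, Place.adicValuation_le_one_iff]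
  exact or_iff_right hx

/-- The Frobenius pullback multiplies orders by its order on a uniformiser. -/
theorem exists_ord_Fr {P : Place k G} (hP : T.IsSpecial P) :
    ∃ e : ℤ, ∀ x : G, x ≠ 0 → P.ord (T.Fr x) = e * (T.partner P hP).ord x := by
  set Q := T.partner P hP
  obtain ⟨π, hπ0, hπ⟩ := FunctionField.exists_adicValuation_eq Q (-1)
  have hπ1 : Q.ord π = 1 := (FunctionField.ord_eq_iff Q hπ0).mpr hπ
  refine ⟨P.ord (T.Fr π), fun x hx => ?_⟩
  have hpow0 : π ^ Q.ord x ≠ 0 := zpow_ne_zero _ hπ0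
  set w := x / π ^ Q.ord x with hw
  have hw0 : w ≠ 0 := div_ne_zero hx hpow0
  have hwQ : Q.ord w = 0 := by
    rw [hw, div_eq_mul_inv, Q.ord_mul hx (inv_ne_zero hpow0), Q.ord_inv, Q.ord_zpow, hπ1, mul_one,
      add_neg_cancel]
  have hFw0 : T.Fr w ≠ 0 := (map_ne_zero_iff _ T.Fr_inj).mpr hw0
  have hFw : P.ord (T.Fr w) = 0 := by
    have h1 : T.Fr w ∈ P.toValuationSubring :=
      (T.mem_partner hP).mp ((mem_ring_iff_ord hw0).mpr (le_of_eq hwQ.symm))
    have h2 : (T.Fr w)⁻¹ ∈ P.toValuationSubring := by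
      rw [← map_inv₀]
      exact (T.mem_partner hP).mp ((mem_ring_iff_ord (inv_ne_zero hw0)).mpr
        (by rw [Q.ord_inv, hwQ, neg_zero]))
    rw [mem_ring_iff_ord hFw0] at h1
    rw [mem_ring_iff_ord (inv_ne_zero hFw0), P.ord_inv] at h2
    omega
  have hx' : x = w * π ^ Q.ord x := by rw [hw, div_mul_cancel₀ _ hpow0]
  conv_lhs => rw [hx', map_mul, map_zpow₀]
  rw [P.ord_mul hFw0 (zpow_ne_zero _ ((map_ne_zero_iff _ T.Fr_inj).mpr hπ0)), P.ord_zpow, hFw,
    zero_add, mul_comm]

/-- The Frobenius pullback is totally ramified of index `q` at special places. -/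
theorem ord_Fr (hFF : ∀ u : G, ∃ x, T.Fr (T.Fr x) = u ^ (T.q * T.q)) {P : Place k G}
    (hP : T.IsSpecial P) {x : G} (hx : x ≠ 0) :
    P.ord (T.Fr x) = T.q * (T.partner P hP).ord x := by
  set Q := T.partner P hP with hQ
  have hQS : T.IsSpecial Q := T.isSpecial_partner hP
  obtain ⟨e, he⟩ := T.exists_ord_Fr hP
  obtain ⟨e', he'⟩ := T.exists_ord_Fr hQS
  rw [show T.partner Q hQS = P from T.partner_partner hP] at he'
  have hdvd : ∀ (R : Place k G) (u : G), (T.q : ℤ) ∣ R.ord (T.Fr u) := fun R u => by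
    obtain ⟨w, hw⟩ := T.Fr_pow u
    rw [hw, FunctionField.ord_pow]
    exact dvd_mul_right _ _
  have hpos : ∀ (R R' : Place k G) (hR : T.IsSpecial R) (c : ℤ), T.partner R hR = R' →
      (∀ u : G, u ≠ 0 → R.ord (T.Fr u) = c * R'.ord u) → (T.q : ℤ) ∣ c ∧ 0 < c := by
    intro R R' hR c hRR hc
    obtain ⟨π, hπ0, hπ⟩ := FunctionField.exists_adicValuation_eq R' (-1)
    have hπ1 : R'.ord π = 1 := (FunctionField.ord_eq_iff R' hπ0).mpr hπ
    have hc' := hc π hπ0
    rw [hπ1, mul_one] at hc'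
    refine ⟨hc' ▸ hdvd R π, ?_⟩
    have hlt : (T.partner R hR).adicValuation π < 1 := by
      rw [hRR]
      exact (FunctionField.adicValuation_lt_one_iff R').mpr (Or.inr (by omega))
    have h := (T.partner_lt_one hR).mp hlt
    rw [← hc']
    exact ((FunctionField.adicValuation_lt_one_iff R).mp h).resolve_left
      ((map_ne_zero_iff _ T.Fr_inj).mpr hπ0)
  obtain ⟨⟨a, ha⟩, he0⟩ := hpos P Q hP e rfl he
  obtain ⟨⟨b, hb⟩, he0'⟩ := hpos Q P hQS e' (T.partner_partner hP) he'
  obtain ⟨π, hπ0, hπ⟩ := FunctionField.exists_adicValuation_eq P (-1)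
  have hπ1 : P.ord π = 1 := (FunctionField.ord_eq_iff P hπ0).mpr hπ
  obtain ⟨y, hy⟩ := hFF π
  have hy0 : y ≠ 0 := fun h0 => pow_ne_zero (T.q * T.q) hπ0 (by rw [← hy, h0, map_zero, map_zero])
  have h2 : e * (e' * P.ord y) = ((T.q * T.q : ℕ) : ℤ) := by
    rw [← he' y hy0, ← he _ ((map_ne_zero_iff _ T.Fr_inj).mpr hy0), hy, FunctionField.ord_pow, hπ1,
      mul_one]
  push_cast at h2
  have hq : (0 : ℤ) < T.q := by exact_mod_cast (lt_of_lt_of_le two_pos T.two_le)
  have hab : a * (b * P.ord y) = 1 := by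
    have h3 : ((T.q : ℤ) * T.q) * (a * (b * P.ord y)) = ((T.q : ℤ) * T.q) * 1 := by
      rw [ha, hb] at h2
      linear_combination h2
    exact mul_left_cancel₀ (mul_ne_zero hq.ne' hq.ne') h3
  have ha0 : 0 ≤ a := by rw [ha] at he0; exact (pos_of_mul_pos_right he0 hq.le).le
  rw [he x hx, ha, Int.eq_one_of_mul_eq_one_right ha0 hab, mul_one]

/-- The orders at the two branches of a node, from a relation `Fr v * u ^ q = b ^ n`. -/
theorem dvd_ord_add {n : ℕ} (hn : n.Coprime T.q)
    (hFF : ∀ u : G, ∃ x, T.Fr (T.Fr x) = u ^ (T.q * T.q)) {u v b : G} (hu : u ≠ 0) (hv : v ≠ 0)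
    (h : T.Fr v * u ^ T.q = b ^ n) (s : Nd) :
    (n : ℤ) ∣ (T.nodes.place s 0).ord u + (T.nodes.place s 1).ord v := by
  have h1 := congrArg s.1.ord h
  rw [Place.ord_mul _ ((map_ne_zero_iff _ T.Fr_inj).mpr hv) (pow_ne_zero _ hu),
    T.ord_Fr hFF s.2.1 hv, FunctionField.ord_pow, FunctionField.ord_pow] at h1
  rw [T.nodes_place_zero, T.nodes_place_one]
  exact (Int.isCoprime_iff_gcd_eq_one.mpr hn : IsCoprime (n : ℤ) (T.q : ℤ)).dvd_of_dvd_mul_left
    ⟨s.1.ord b, by linear_combination h1⟩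

include T in
omit [IsFunctionField k G] in
/-- The integral part and the remainders of `div u / n`. -/
theorem exists_floor {u : G} (n : ℕ) :
    ∃ D D₀ : Divisor k G, (∀ v, v.ord u = n * D v + D₀ v) ∧ (∀ v, D₀ v = v.ord u % n) ∧
      (n : ℤ) * Divisor.degree D + Divisor.degree D₀ = 0 := by
  refine ⟨(T.RG.div u).mapRange (fun x : ℤ => x / n) (Int.zero_ediv _),
    (T.RG.div u).mapRange (fun x : ℤ => x % n) (Int.zero_emod _), fun v => ?_, fun v => ?_, ?_⟩
  · rw [Finsupp.mapRange_apply, Finsupp.mapRange_apply, T.RG.div_apply]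
    exact (Int.mul_ediv_add_emod _ _).symm
  · rw [Finsupp.mapRange_apply, T.RG.div_apply]
  · rw [← nsmul_eq_mul, ← map_nsmul, ← map_add]
    convert T.RG.degree_div u
    refine Finsupp.ext fun v => ?_
    rw [Finsupp.add_apply, Finsupp.smul_apply, nsmul_eq_mul, Finsupp.mapRange_apply,
      Finsupp.mapRange_apply, T.RG.div_apply]
    exact Int.mul_ediv_add_emod _ _

include T in
omit [IsFunctionField k G] in
theorem sum_le_degree {D : Divisor k G} (hD : 0 ≤ D) (S : Finset (Place k G)) :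
    ∑ v ∈ S, D v ≤ Divisor.degree D := by
  classical
  have h : (∑ v ∈ S, Finsupp.single v (D v)) ≤ D := fun w => by
    rw [Finsupp.finsetSum_apply]
    by_cases hw : w ∈ S
    · rw [Finset.sum_eq_single w (fun v _ hv => Finsupp.single_eq_of_ne (Ne.symm hv))
        fun hh => absurd hw hh, Finsupp.single_eq_same]
    · rw [Finset.sum_eq_zero fun v hv => Finsupp.single_eq_of_ne fun e : w = v => hw (e ▸ hv)]
      exact hD w
  have h' := T.RG.degree_mono h
  simpa [map_sum, T.RG.degree_single] using h'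

/-- Pairs glued at every node are reductions, so the two components together have at most as many
dimensions as the sections and the nodes. -/
theorem finrank_box_le {m : ℕ} (hm : T.m₂ ≤ m) :
    Module.finrank k (riemannRochSpace (K := k) (F := G) (m • T.Hb)) +
      Module.finrank k (riemannRochSpace (K := k) (F := G) ((m * T.q) • T.Hb)) ≤
    Module.finrank K (riemannRochSpace (K := K) (F := F) (m • T.H)) + Nat.card Nd := by
  classical
  have := Fintype.ofFinite Nd
  have := T.finite_box m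
  have := T.finite_R m
  have hsub : T.poles.glued (fun _ => 1) m ≤ T.R m := fun ψ hψ => by
    have hb : ψ ∈ T.box m := Submodule.mem_pi.mpr fun i _ => hψ.1 i
    obtain ⟨h0, h1⟩ := T.mem_box.mp hb
    refine T.mem_R_of_InR hm (T.inR_of_glued (mem_affine_of_mem h0) (mem_affine_of_mem h1)
      fun P hP => ?_) hb
    have h := hψ.2 ⟨P, hP⟩
    rw [T.nodes_comp, T.nodes_comp, one_mul] at h
    exact (T.val_eq_iff ⟨P, hP⟩ (mem_affine_of_mem h0) (mem_affine_of_mem h1)).mp h.symm
  have h1 := Submodule.finrank_mono hsub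
  rw [T.glued_eq, ← (Submodule.equivMapOfInjective _ (T.box m).injective_subtype _).finrank_eq,
    T.finrank_R] at h1
  have h2 := LinearMap.finrank_range_add_finrank_ker (T.defect (fun _ => 1) m)
  have h3 := Submodule.finrank_le (LinearMap.range (T.defect (fun _ => 1) m))
  rw [Module.finrank_pi] at h3
  rw [← T.finrank_box, Nat.card_eq_fintype_card]
  omega

theorem nodes_place_injective (e : Fin 2) : Function.Injective fun s : Nd => T.nodes.place s e := by
  intro s r h
  revert h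
  revert e
  rw [Fin.forall_fin_two]
  refine ⟨fun h => Subtype.ext h, fun h => ?_⟩
  simp only [T.nodes_place_one] at h
  refine Subtype.ext ?_
  have h1 := T.partner_partner s.2.1
  have h2 := T.partner_partner r.2.1
  simp only [h] at h1
  exact h1.symm.trans h2

theorem val_mul_inv {s : Nd} {e : Fin 2} {x : G} (hx : x ≠ 0)
    (h : (T.nodes.place s e).ord x = 0) : T.nodes.val s e x ≠ 0 := by
  intro h0
  have hm : x ∈ (T.nodes.place s e).toValuationSubring := (mem_ring_iff_ord hx).mpr h.ge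
  have hm' : x⁻¹ ∈ (T.nodes.place s e).toValuationSubring :=
    (mem_ring_iff_ord (inv_ne_zero hx)).mpr (by rw [Place.ord_inv, h, neg_zero])
  have := T.nodes.val_mul hm hm'
  rw [mul_inv_cancel₀ hx, Nodes.val_one, h0, zero_mul] at this
  exact one_ne_zero this

variable {n : ℕ} [NeZero n]

/-- Two functionals with proportional `n`-th powers are proportional. -/
theorem exists_eq_mul_of_pow_eq {k V : Type*} [Field k] [AddCommGroup V] [Module k V]
    {W : Submodule k V} {L M : V → k}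
    (hL : ∀ (a : k), ∀ ψ ∈ W, ∀ χ ∈ W, L (a • ψ + χ) = a * L ψ + L χ)
    (hM : ∀ (a : k), ∀ ψ ∈ W, ∀ χ ∈ W, M (a • ψ + χ) = a * M ψ + M χ)
    {n : ℕ} (hn : n ≠ 0) {c d : k} (hd : d ≠ 0) (h : ∀ ψ ∈ W, L ψ ^ n * c = M ψ ^ n * d) :
    ∃ ζ : k, ∀ ψ ∈ W, M ψ = ζ * L ψ := by
  have key : ∀ ψ ∈ W, L ψ = 0 → M ψ = 0 := fun ψ hψ h0 => by
    have e := h ψ hψ
    rw [h0, zero_pow hn, zero_mul, eq_comm, mul_eq_zero] at e
    exact pow_eq_zero_iff hn |>.mp (e.resolve_right hd)
  by_cases h0 : ∀ ψ ∈ W, L ψ = 0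
  · exact ⟨0, fun ψ hψ => by rw [key ψ hψ (h0 ψ hψ), zero_mul]⟩
  push Not at h0
  obtain ⟨χ, hχ, hχ0⟩ := h0
  refine ⟨M χ / L χ, fun ψ hψ => ?_⟩
  have e := key (-(L ψ / L χ) • χ + ψ) (add_mem (W.smul_mem _ hχ) hψ)
    (by rw [hL _ χ hχ ψ hψ, neg_mul, div_mul_cancel₀ _ hχ0, neg_add_cancel])
  rw [hM _ χ hχ ψ hψ] at e
  linear_combination e

omit [IsFunctionField k G] in
/-- A Kummer space of large degree has the dimension of the space of its divisor. -/
theorem finrank_kummerSpace {f : F} (hf : f ≠ 0) (hord : ∀ v : Place K F, (n : ℤ) ∣ v.ord f)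
    {H : Divisor K F} (hH : T.cF ≤ Divisor.degree H) :
    Module.Finite K (kummerSpace f n H) ∧
      Module.finrank K (kummerSpace f n H) =
        Module.finrank K (riemannRochSpace (K := K) (F := F) H) := by
  set Df : Divisor K F := (T.RF.div f).mapRange (fun x : ℤ => x / n) (Int.zero_ediv _) with hDf
  have hDf' : ∀ w : Place K F, w.ord f = n * Df w := fun w => by
    rw [hDf, Finsupp.mapRange_apply, T.RF.div_apply, Int.mul_ediv_cancel' (hord w)]
  have hdeg : Divisor.degree Df = 0 := by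
    have h : T.RF.div f = (n : ℕ) • Df := Finsupp.ext fun w => by
      rw [Finsupp.smul_apply, T.RF.div_apply, nsmul_eq_mul]; exact hDf' w
    have h' := T.RF.degree_div f
    rw [h, map_nsmul, nsmul_eq_mul, mul_eq_zero] at h'
    exact h'.resolve_left (by exact_mod_cast NeZero.ne n)
  rw [kummerSpace_eq hf hDf']
  have e1 := T.RF.exact' _ hH
  have e2 := T.RF.exact' (H + Df) (by rw [map_add, hdeg, add_zero]; exact hH)
  rw [map_add, hdeg, add_zero] at e2
  exact ⟨T.RF.finite _, by exact_mod_cast e2.trans e1.symm⟩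

omit [IsFunctionField k G] [NeZero n] in
/-- A function with poles bounded by `E` times one of order `E P` at `P` is regular at `P`. -/
theorem mul_mem_ring_of_mem_rr {P : Place k G} {E : Divisor k G} {r t : G}
    (hr : r ∈ riemannRochSpace E) (ht0 : t ≠ 0) (ht : P.ord t = E P) :
    r * t ∈ P.toValuationSubring := by
  rcases eq_or_ne r 0 with rfl | hr0
  · rw [zero_mul]; exact zero_mem _
  rw [mem_ring_iff_ord (mul_ne_zero hr0 ht0), Place.ord_mul _ hr0 ht0, ht]
  have := (mem_riemannRochSpace_iff.mp hr P).resolve_left hr0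
  omega

omit [NeZero n] in
/-- The evaluation `r ↦ (r t)(P)` on `L(E)` at a branch `P` of a node, where `t` has order
`E P`. -/
def nodeEval (s : Nd) (e : Fin 2) {E : Divisor k G} {t : G} (ht0 : t ≠ 0)
    (ht : (T.nodes.place s e).ord t = E (T.nodes.place s e)) :
    riemannRochSpace (K := k) (F := G) E →ₗ[k] k where
  toFun r := T.nodes.val s e (r * t)
  map_add' r r' := by
    rw [Submodule.coe_add, add_mul, T.nodes.val_add (mul_mem_ring_of_mem_rr r.2 ht0 ht)
      (mul_mem_ring_of_mem_rr r'.2 ht0 ht)]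
  map_smul' a r := by
    rw [Submodule.coe_smul, smul_mul_assoc, T.nodes.val_smul a (mul_mem_ring_of_mem_rr r.2 ht0 ht)]
    rfl

omit [IsFunctionField k G] [NeZero n] in
/-- Beyond `m₂` the pole bound on the sections exceeds the Riemann bound. -/
theorem cF_le_degree {m : ℕ} (hm : T.m₂ ≤ m) : T.cF ≤ Divisor.degree (m • T.H) := by
  rw [map_nsmul, nsmul_eq_mul, T.deg_eq]
  have := T.m₂_le.2.2.2
  have h1 : (1 : ℤ) ≤ ((T.q : ℤ) + 1) * Divisor.degree T.Hb := by
    have := T.deg_pos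
    nlinarith
  have : (m : ℤ) ≤ m * (((T.q : ℤ) + 1) * Divisor.degree T.Hb) :=
    le_mul_of_one_le_right (by positivity) h1
  omega

omit [IsFunctionField k G] [NeZero n] in
/-- The pole bounds on both components have degree at least `m`. -/
theorem le_degree_HY (m : ℕ) (i : Fin 2) : (m : ℤ) ≤ Divisor.degree (m • T.HY i) := by
  have h1 : (m : ℤ) ≤ m * Divisor.degree T.Hb :=
    le_mul_of_one_le_right (by positivity) T.deg_pos
  have h2 : (m : ℤ) * Divisor.degree T.Hb ≤ m * (T.q * Divisor.degree T.Hb) :=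
    mul_le_mul_of_nonneg_left (le_mul_of_one_le_left T.deg_pos.le
      (by exact_mod_cast le_trans one_le_two T.two_le)) (by positivity)
  revert i
  refine Fin.forall_fin_two.mpr ⟨?_, ?_⟩
  · rw [T.HY_zero, map_nsmul, nsmul_eq_mul]; exact h1
  · rw [T.HY_one, map_nsmul, map_nsmul, nsmul_eq_mul, nsmul_eq_mul]; exact h1.trans h2

/-- If `f γ i ^ n` reduces to `u i` and `div (u i) = n D i + D₀ i` with `0 ≤ D₀ i < n`, the
reductions `r i` of a section of the Kummer space of `f` have poles bounded by `m HY i + D i`, and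
`r 0 ^ n u 0`, `r 1 ^ n u 1` agree at every node. -/
theorem rd_mem_rr_and_glue {f : F} {γ : Fin 2 → K} (hγ : ∀ i, γ i ≠ 0)
    (hW : ∀ i, f * algebraMap K F (γ i) ^ n ∈ T.M.W i) {u : Fin 2 → G} (hu : ∀ i, u i ≠ 0)
    (hrd : ∀ i, T.M.rd i (f * algebraMap K F (γ i) ^ n) = u i) {D D₀ : Fin 2 → Divisor k G}
    (hD : ∀ i v, v.ord (u i) = n * D i v + D₀ i v) (hD₀ : ∀ i v, D₀ i v = v.ord (u i) % n)
    {m : ℕ} {φ : F} (hφ : φ ∈ kummerSpace f n (m • T.H))
    (hφW : ∀ i, φ * (algebraMap K F (γ i))⁻¹ ∈ T.M.W i) :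
    (∀ i, T.M.rd i (φ * (algebraMap K F (γ i))⁻¹) ∈ riemannRochSpace (m • T.HY i + D i)) ∧
      ∀ s : Nd, T.nodes.val s 0 (T.M.rd 0 (φ * (algebraMap K F (γ 0))⁻¹) ^ n * u 0) =
        T.nodes.val s 1 (T.M.rd 1 (φ * (algebraMap K F (γ 1))⁻¹) ^ n * u 1) := by
  have hn0 : (0 : ℤ) < n := by exact_mod_cast Nat.pos_of_ne_zero (NeZero.ne n)
  have heW : ∀ i, φ ^ n * f =
      (φ * (algebraMap K F (γ i))⁻¹) ^ n * (f * algebraMap K F (γ i) ^ n) := fun i => by
    have h : algebraMap K F (γ i) ≠ 0 := by simpa using hγ i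
    rw [mul_pow, inv_pow]
    field_simp
  have hmemW : ∀ i, φ ^ n * f ∈ T.M.W i := fun i => by
    rw [heW i]; exact mul_mem (pow_mem (hφW i) n) (hW i)
  have hmem : φ ^ n * f ∈ riemannRochSpace ((n * m) • T.poles.H) := by
    rw [mul_nsmul', T.poles_H]; exact hφ
  have hr : ∀ i, T.M.rd i (φ ^ n * f) =
      T.M.rd i (φ * (algebraMap K F (γ i))⁻¹) ^ n * u i := fun i => by
    rw [heW i, T.M.rd_mul (pow_mem (hφW i) n) (hW i), T.M.rd_pow (hφW i), hrd]
  refine ⟨fun i => ?_, fun s => ?_⟩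
  · rw [mem_riemannRochSpace_iff]
    intro w
    rcases eq_or_ne (T.M.rd i (φ * (algebraMap K F (γ i))⁻¹)) 0 with h0 | h0
    · exact Or.inl h0
    right
    have h := T.poles.reg (n * m) _ hmem hmemW i
    rw [hr] at h
    have h' := (mem_riemannRochSpace_iff.mp h w).resolve_left
      (mul_ne_zero (pow_ne_zero n h0) (hu i))
    rw [w.ord_mul (pow_ne_zero n h0) (hu i), FunctionField.ord_pow, hD, Finsupp.smul_apply,
      nsmul_eq_mul, T.poles_HY, Nat.cast_mul] at h'
    have hlt : D₀ i w < n := by rw [hD₀]; exact Int.emod_lt_of_pos _ hn0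
    rw [Finsupp.add_apply, Finsupp.smul_apply, nsmul_eq_mul]
    by_contra hc
    push Not at hc
    have : (n : ℤ) * (w.ord (T.M.rd i (φ * (algebraMap K F (γ i))⁻¹)) +
        ((m : ℤ) * T.HY i w + D i w) + 1) ≤ 0 :=
      mul_nonpos_of_nonneg_of_nonpos hn0.le (by omega)
    linarith
  · have h := T.poles.glue (n * m) _ hmem hmemW s
    rwa [T.nodes_comp, T.nodes_comp, hr, hr] at h

/-- At a node where the orders of `u i` are `n` times those of `t i`, pairs whose `n`-th powers
times `u` glue satisfy one linear relation. -/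
theorem exists_node_relation {W : Submodule k (Fin 2 → G)} {E : Fin 2 → Divisor k G}
    (hW : ∀ ψ ∈ W, ∀ i, ψ i ∈ riemannRochSpace (E i)) {s : Nd} {u : Fin 2 → G} (hu : ∀ i, u i ≠ 0)
    (hglue : ∀ ψ ∈ W, T.nodes.val s 0 (ψ 0 ^ n * u 0) = T.nodes.val s 1 (ψ 1 ^ n * u 1))
    {t : Fin 2 → G} (ht0 : ∀ i, t i ≠ 0)
    (ht : ∀ i, (T.nodes.place s i).ord (t i) = E i (T.nodes.place s i))
    (hord : ∀ i, (T.nodes.place s i).ord (u i) = n * (T.nodes.place s i).ord (t i)) :
    ∃ ζ : k, ∀ ψ ∈ W, T.nodes.val s 1 (ψ 1 * t 1) = ζ * T.nodes.val s 0 (ψ 0 * t 0) := by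
  have hne : ∀ i, u i / t i ^ n ≠ 0 := fun i => div_ne_zero (hu i) (pow_ne_zero _ (ht0 i))
  have hou : ∀ i, (T.nodes.place s i).ord (u i / t i ^ n) = 0 := fun i => by
    rw [div_eq_mul_inv, Place.ord_mul _ (hu i) (inv_ne_zero (pow_ne_zero _ (ht0 i))),
      Place.ord_inv, FunctionField.ord_pow, hord, add_neg_cancel]
  set c := fun i => T.nodes.val s i (u i / t i ^ n)
  have hval : ∀ i, ∀ r ∈ riemannRochSpace (E i),
      T.nodes.val s i (r ^ n * u i) = T.nodes.val s i (r * t i) ^ n * c i := by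
    intro i r hr
    rw [show r ^ n * u i = (r * t i) ^ n * (u i / t i ^ n) by
      rw [mul_pow]
      field_simp [pow_ne_zero n (ht0 i)]]
    rw [T.nodes.val_mul (pow_mem (mul_mem_ring_of_mem_rr hr (ht0 i) (ht i)) n)
        ((mem_ring_iff_ord (hne i)).mpr (hou i).ge),
      T.nodes.val_pow (mul_mem_ring_of_mem_rr hr (ht0 i) (ht i))]
  have hlin : ∀ (i : Fin 2) (a : k), ∀ ψ ∈ W, ∀ χ ∈ W,
      T.nodes.val s i ((a • ψ + χ) i * t i) =
        a * T.nodes.val s i (ψ i * t i) + T.nodes.val s i (χ i * t i) :=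
    fun i a ψ hψ χ hχ => ((T.nodeEval s i (ht0 i) (ht i)).map_add
      (a • ⟨ψ i, hW ψ hψ i⟩) ⟨χ i, hW χ hχ i⟩).trans (congrArg (· + _) (map_smul _ a _))
  refine exists_eq_mul_of_pow_eq (hlin 0) (hlin 1) (NeZero.ne n)
    (T.val_mul_inv (hne 1) (hou 1)) (c := c 0) fun ψ hψ => ?_
  have h := hglue ψ hψ
  rwa [hval 0 _ (hW ψ hψ 0), hval 1 _ (hW ψ hψ 1)] at h

omit [NeZero n] in
/-- For a divisor of large degree the evaluations at distinct nodes are independent. -/
theorem card_le_finrank_range_nodeEval (S : Finset Nd) (e : Fin 2) {E : Divisor k G} {t : Nd → G}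
    (ht0 : ∀ s, t s ≠ 0) (ht : ∀ s, (T.nodes.place s e).ord (t s) = E (T.nodes.place s e))
    (hdeg : T.cG + S.card ≤ Divisor.degree E) :
    S.card ≤ Module.finrank k
      (LinearMap.range (LinearMap.pi fun s : S => T.nodeEval s.1 e (ht0 s.1) (ht s.1))) := by
  classical
  have := fun X => T.RG.finite X
  set Z : Divisor k G := ∑ s ∈ S, Finsupp.single (T.nodes.place s e) (1 : ℤ) with hZ
  have hZdeg : Divisor.degree Z = S.card := by simp [hZ, map_sum, T.RG.degree_single]
  set ev := LinearMap.pi fun s : S => T.nodeEval s.1 e (ht0 s.1) (ht s.1) with hev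
  have hker : (LinearMap.ker ev).map (riemannRochSpace (K := k) (F := G) E).subtype ≤
      riemannRochSpace (E - Z) := by
    rintro _ ⟨r, hr, rfl⟩
    rw [mem_riemannRochSpace_iff]
    intro w
    show (r : G) = 0 ∨ _
    rcases eq_or_ne (r : G) 0 with h0 | h0
    · exact Or.inl h0
    right
    by_cases hw : ∃ s ∈ S, T.nodes.place s e = w
    · obtain ⟨s, hs, rfl⟩ := hw
      have hZw : Z (T.nodes.place s e) = 1 := by
        rw [hZ, Finsupp.finsetSum_apply, Finset.sum_eq_single s]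
        · simp
        · exact fun b _ hb => Finsupp.single_eq_of_ne fun h =>
            hb (T.nodes_place_injective e h.symm)
        · exact fun h => absurd hs h
      have hr' : T.nodes.val s e ((r : G) * t s) = 0 :=
        congrFun (LinearMap.mem_ker.mp hr) ⟨s, hs⟩
      have hlt := (T.val_nodes_eq_iff (mul_mem_ring_of_mem_rr r.2 (ht0 s) (ht s)) 0).mp hr'
      rw [map_zero, sub_zero] at hlt
      have hpos := ((FunctionField.adicValuation_lt_one_iff _).mp hlt).resolve_left
        (mul_ne_zero h0 (ht0 s))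
      rw [Place.ord_mul _ h0 (ht0 s), ht s] at hpos
      rw [Finsupp.sub_apply, hZw]
      show -_ ≤ (T.nodes.place s e).ord (r : G)
      omega
    · push Not at hw
      have hZw : Z w = 0 := by
        rw [hZ, Finsupp.finsetSum_apply]
        exact Finset.sum_eq_zero fun b hb => Finsupp.single_eq_of_ne (hw b hb).symm
      rw [Finsupp.sub_apply, hZw, sub_zero]
      exact (mem_riemannRochSpace_iff.mp r.2 w).resolve_left h0
  have h1 := Submodule.finrank_mono hker
  rw [← (Submodule.equivMapOfInjective _ (Submodule.injective_subtype _) _).finrank_eq] at h1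
  have h2 := LinearMap.finrank_range_add_finrank_ker ev
  have e1 := T.RG.exact' E (by linarith [Int.natCast_nonneg S.card])
  have e2 := T.RG.exact' (E - Z) (by rw [map_sub, hZdeg]; linarith)
  rw [map_sub, hZdeg] at e2
  simp only [LSpace] at e1 e2
  omega

omit [NeZero n] in
/-- If a space of pairs of the dimension of the sections has poles bounded by `m HY + D` and
satisfies a relation at each node of `S`, then `#S ≤ deg (D 0) + deg (D 1) + #Nodes`. -/
theorem card_le_degree_add {m : ℕ} (hm : T.m₂ ≤ m) {D : Fin 2 → Divisor k G} (S : Finset Nd)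
    (hm0 : T.cG ≤ (m : ℤ) + Divisor.degree (D 0))
    (hm1 : T.cG + S.card ≤ (m : ℤ) + Divisor.degree (D 1))
    {W : Submodule k (Fin 2 → G)} (hW : ∀ ψ ∈ W, ∀ i, ψ i ∈ riemannRochSpace (m • T.HY i + D i))
    (hdim : Module.finrank k W =
      Module.finrank K (riemannRochSpace (K := K) (F := F) (m • T.H)))
    {t : Nd → Fin 2 → G} (ht0 : ∀ s i, t s i ≠ 0)
    (ht : ∀ s i, (T.nodes.place s i).ord (t s i) = D i (T.nodes.place s i)) {ζ : S → k}
    (hζ : ∀ (s : S), ∀ ψ ∈ W, T.nodes.val s.1 1 (ψ 1 * t s.1 1) =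
      ζ s * T.nodes.val s.1 0 (ψ 0 * t s.1 0)) :
    (S.card : ℤ) ≤ Divisor.degree (D 0) + Divisor.degree (D 1) + Nat.card Nd := by
  classical
  set E : Fin 2 → Divisor k G := fun i => m • T.HY i + D i with hE
  have ht' : ∀ s i, (T.nodes.place s i).ord (t s i) = E i (T.nodes.place s i) := fun s i => by
    have h0 : T.HY i (T.nodes.place s i) = 0 := T.poles.HY_node s i
    rw [hE, Finsupp.add_apply, Finsupp.smul_apply, h0, smul_zero, zero_add, ht]
  have hEdeg : ∀ i, Divisor.degree (E i) =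
      Divisor.degree (m • T.HY i) + Divisor.degree (D i) := fun i => map_add _ _ _
  have hcE0 : T.cG ≤ Divisor.degree (E 0) := by rw [hEdeg]; linarith [T.le_degree_HY m 0]
  have hcE1 : T.cG + S.card ≤ Divisor.degree (E 1) := by
    rw [hEdeg]; linarith [T.le_degree_HY m 1]
  have := fun X => T.RG.finite X
  -- the pairs satisfying the relations
  let Φ : ((riemannRochSpace (K := k) (F := G) (E 0)) × (riemannRochSpace (K := k) (F := G) (E 1)))
      →ₗ[k] (S → k) :=
    LinearMap.pi fun s => (T.nodeEval s.1 1 (ht0 s.1 1) (ht' s.1 1)).comp (LinearMap.snd k _ _) -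
      ζ s • (T.nodeEval s.1 0 (ht0 s.1 0) (ht' s.1 0)).comp (LinearMap.fst k _ _)
  let Ψ : W →ₗ[k]
      (riemannRochSpace (K := k) (F := G) (E 0)) × (riemannRochSpace (K := k) (F := G) (E 1)) :=
    { toFun := fun ψ => (⟨ψ.1 0, hW _ ψ.2 0⟩, ⟨ψ.1 1, hW _ ψ.2 1⟩)
      map_add' := fun _ _ => rfl
      map_smul' := fun _ _ => rfl }
  have hinj : Function.Injective Ψ := fun a b h => Subtype.ext (funext (Fin.forall_fin_two.mpr
    ⟨congrArg (fun p => (p.1 : G)) h, congrArg (fun p => (p.2 : G)) h⟩))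
  have hle : LinearMap.range Ψ ≤ LinearMap.ker Φ := by
    rintro _ ⟨ψ, rfl⟩
    exact LinearMap.mem_ker.mpr (funext fun s => sub_eq_zero.mpr (hζ s _ ψ.2))
  have hrank : S.card ≤ Module.finrank k (LinearMap.range Φ) := by
    refine (T.card_le_finrank_range_nodeEval S 1 (fun s => ht0 s 1) (fun s => ht' s 1) hcE1).trans
      (Submodule.finrank_mono ?_)
    rintro _ ⟨r, rfl⟩
    exact ⟨(0, r), funext fun s => by simp [Φ]⟩
  have h1 := Submodule.finrank_mono hle
  rw [LinearMap.finrank_range_of_inj hinj, hdim] at h1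
  have h2 := LinearMap.finrank_range_add_finrank_ker Φ
  rw [Module.finrank_prod] at h2
  have h4 := T.finrank_box_le hm
  have e0 := T.RG.exact' _ hcE0
  have e1 := T.RG.exact' _ (le_trans (le_add_of_nonneg_right (Int.natCast_nonneg _)) hcE1)
  have e3 := T.RG.exact' _ (T.le_degree (m := m) (T.m₂_le.1.trans hm))
  have e4 := T.RG.exact' _ (T.le_degree (m := m * T.q)
    ((T.m₂_le.1.trans hm).trans (Nat.le_mul_of_pos_right m (by have := T.two_le; omega))))
  rw [hEdeg, T.HY_zero] at e0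
  rw [hEdeg, T.HY_one, ← mul_smul] at e1
  simp only [LSpace] at e0 e1 e3 e4
  omega

/-- If `#S ≤ deg (D 0) + deg (D 1) + #Nodes` for a set `S` containing all nodes where both
remainders vanish, no remainder is left outside the nodes. -/
theorem dvd_ord_of_card_le {u : Fin 2 → G} {D D₀ : Fin 2 → Divisor k G}
    (hD₀ : ∀ i v, D₀ i v = v.ord (u i) % n)
    (hdeg : ∀ i, (n : ℤ) * Divisor.degree (D i) + Divisor.degree (D₀ i) = 0)
    (hsum : ∀ s : Nd, (n : ℤ) ∣ (T.nodes.place s 0).ord (u 0) + (T.nodes.place s 1).ord (u 1))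
    [Fintype Nd] {S : Finset Nd} (hS : ∀ s, (∀ i, D₀ i (T.nodes.place s i) = 0) → s ∈ S)
    (hcard : (S.card : ℤ) ≤ Divisor.degree (D 0) + Divisor.degree (D 1) + Nat.card Nd)
    {v : Place k G} (hv : ∀ s : Nd, T.nodes.place s 0 ≠ v) : (n : ℤ) ∣ v.ord (u 0) := by
  classical
  have hn0 : (0 : ℤ) < n := by exact_mod_cast Nat.pos_of_ne_zero (NeZero.ne n)
  have hD₀0 : ∀ i, (0 : Divisor k G) ≤ D₀ i := fun i w => by
    rw [hD₀]; exact Int.emod_nonneg _ hn0.ne'
  set B : Finset Nd := Finset.univ \ S with hB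
  have hBcard : (B.card : ℤ) = Nat.card Nd - S.card := by
    rw [hB, Finset.card_sdiff_of_subset (Finset.subset_univ _), Nat.card_eq_fintype_card,
      Finset.card_univ, Nat.cast_sub]
    exact Finset.card_le_univ _
  have hpair : ∀ s ∈ B, (n : ℤ) ≤ D₀ 0 (T.nodes.place s 0) + D₀ 1 (T.nodes.place s 1) := by
    intro s hs
    have hs' := mt (hS s) (Finset.mem_sdiff.mp hs).2
    simp only [Fin.forall_fin_two, not_and] at hs'
    have hdvd : (n : ℤ) ∣ D₀ 0 (T.nodes.place s 0) + D₀ 1 (T.nodes.place s 1) := by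
      rw [hD₀, hD₀, Int.dvd_iff_emod_eq_zero, ← Int.add_emod, Int.emod_eq_zero_of_dvd (hsum s)]
    refine Int.le_of_dvd ?_ hdvd
    have h0 := hD₀0 0 (T.nodes.place s 0)
    have h1 := hD₀0 1 (T.nodes.place s 1)
    simp only [Finsupp.zero_apply] at h0 h1
    rcases h0.eq_or_lt with h | h
    · have := hs' h.symm
      omega
    · omega
  have hs0 := T.sum_le_degree (hD₀0 0) (insert v (B.image fun s => T.nodes.place s 0))
  have hs1 := T.sum_le_degree (hD₀0 1) (B.image fun s => T.nodes.place s 1)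
  rw [Finset.sum_insert (fun h => by
      obtain ⟨s, -, hs⟩ := Finset.mem_image.mp h
      exact hv s hs),
    Finset.sum_image (T.nodes_place_injective 0).injOn] at hs0
  rw [Finset.sum_image (T.nodes_place_injective 1).injOn] at hs1
  have hsumB := Finset.sum_le_sum hpair
  rw [Finset.sum_const, nsmul_eq_mul, Finset.sum_add_distrib] at hsumB
  have hv0 : D₀ 0 v = 0 := by
    have := hdeg 0
    have := hdeg 1
    have h0 := hD₀0 0 v
    simp only [Finsupp.zero_apply] at h0
    nlinarith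
  rw [hD₀] at hv0
  exact Int.dvd_of_emod_eq_zero hv0

/-- A residue has orders divisible by `n` outside the nodes. -/
theorem dvd_ord_of_ne_node {f : F} (hf : f ≠ 0) (hord : ∀ v : Place K F, (n : ℤ) ∣ v.ord f)
    {γ : Fin 2 → K} (hγ : ∀ i, γ i ≠ 0) (hW : ∀ i, f * algebraMap K F (γ i) ^ n ∈ T.M.W i)
    {u : Fin 2 → G} (hu : ∀ i, u i ≠ 0)
    (hrd : ∀ i, T.M.rd i (f * algebraMap K F (γ i) ^ n) = u i)
    (hsum : ∀ s : Nd, (n : ℤ) ∣ (T.nodes.place s 0).ord (u 0) + (T.nodes.place s 1).ord (u 1))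
    {v : Place k G} (hv : ∀ s : Nd, T.nodes.place s 0 ≠ v) : (n : ℤ) ∣ v.ord (u 0) := by
  classical
  have := Fintype.ofFinite Nd
  choose D D₀ hD hD₀ hdeg using fun i => T.exists_floor (u := u i) n
  -- functions with the integral parts of the orders at the branches
  choose t ht0 ht using fun (s : Nd) i =>
    FunctionField.exists_adicValuation_eq (T.nodes.place s i) (-D i (T.nodes.place s i))
  have ht' : ∀ s i, (T.nodes.place s i).ord (t s i) = D i (T.nodes.place s i) := fun s i =>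
    (FunctionField.ord_eq_iff _ (ht0 s i)).mpr (ht s i)
  -- the nodes with integral orders, and a large pole bound
  let S : Finset Nd := Finset.univ.filter fun s => ∀ i, D₀ i (T.nodes.place s i) = 0
  obtain ⟨m, hm, hm0, hm1⟩ : ∃ m : ℕ, T.m₂ ≤ m ∧ T.cG ≤ (m : ℤ) + Divisor.degree (D 0) ∧
      T.cG + S.card ≤ (m : ℤ) + Divisor.degree (D 1) :=
    ⟨T.m₂ + (T.cG - Divisor.degree (D 0)).toNat + (T.cG + S.card - Divisor.degree (D 1)).toNat,
      by omega, by omega, by omega⟩
  -- the reductions of the sections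
  obtain ⟨_, hVdim⟩ : Module.Finite K (kummerSpace f n (m • T.H)) ∧ _ :=
    T.finrank_kummerSpace hf hord (T.cF_le_degree hm)
  let x : Datum T.M 0 :=
    ⟨1, γ, hγ, fun _ => 1, fun _ => one_ne_zero,
      fun i => by rw [pow_zero, mul_one]; exact one_mem _,
      fun i => by rw [pow_zero, mul_one, pow_zero, T.M.rd_one]⟩
  obtain ⟨hfin, -⟩ := x.finrank_img T.horth (kummerSpace f n (m • T.H))
  have hkey : ∀ ψ ∈ x.img (kummerSpace f n (m • T.H)),
      (∀ i, ψ i ∈ riemannRochSpace (m • T.HY i + D i)) ∧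
        ∀ s : Nd, T.nodes.val s 0 (ψ 0 ^ n * u 0) = T.nodes.val s 1 (ψ 1 ^ n * u 1) := by
    rintro _ ⟨φ, hφ, rfl⟩
    rw [show x.psi φ = fun i => T.M.rd i (φ * (algebraMap K F (γ i))⁻¹) from
      funext fun i => mul_one _]
    exact T.rd_mem_rr_and_glue hγ hW hu hrd hD hD₀ hφ.1 hφ.2
  have hline : ∀ s : S, ∃ ζ : k, ∀ ψ ∈ x.img (kummerSpace f n (m • T.H)),
      T.nodes.val s.1 1 (ψ 1 * t s.1 1) = ζ * T.nodes.val s.1 0 (ψ 0 * t s.1 0) := fun s =>
    T.exists_node_relation (fun ψ hψ => (hkey ψ hψ).1) hu (fun ψ hψ => (hkey ψ hψ).2 s.1) (ht0 s.1)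
      (fun i => by
        have h0 : T.HY i (T.nodes.place s.1 i) = 0 := T.poles.HY_node s.1 i
        rw [ht', Finsupp.add_apply, Finsupp.smul_apply, h0, smul_zero, zero_add])
      fun i => by rw [hD, ht', (Finset.mem_filter.mp s.2).2 i, add_zero]
  choose ζ hζ using hline
  exact T.dvd_ord_of_card_le hD₀ hdeg hsum
    (fun s hs => Finset.mem_filter.mpr ⟨Finset.mem_univ s, hs⟩)
    (T.card_le_degree_add hm S hm0 hm1 (fun ψ hψ => (hkey ψ hψ).1) (hfin.trans hVdim) ht0 ht' hζ)
    hv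

end Fermat.Agent.TwoComp.Setting
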