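import Fermat.Agent.Hecke.NormIdentity
import Mathlib.RingTheory.Trace.Basic

/-!
# The involution `w_q` and the conjugates of the field of level `Nq` over level `N`

For a prime `q ∤ N` the automorphism `w_q` swaps the two degeneracy maps, and in the parameter
`t = q^(1/q)` the conjugates over `α(F_N)` of a function `φ` of level `Nq` are `φ(t^q)` and
`(w_q φ)(ζⁱ t)`.
-/

set_option autoImplicit false

noncomputable section

open AlgebraicCurve ModularCurve IntermediateField
open Fermat.Agent.ModularFunctionField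

namespace Fermat.Agent.TwoComp

section Along

variable {K F F' : Type*} [Field K] [Field F] [Field F'] [Algebra K F] [Algebra K F']

/-- The norm along an embedding of fields. -/
def normAlong (φ : F →ₐ[K] F') : F' →* F :=
  letI := algebraAlong φ
  Algebra.norm F

/-- The trace along an embedding of fields. -/
def traceAlong (φ : F →ₐ[K] F') : F' →+ F :=
  letI := algebraAlong φ
  (Algebra.trace F F').toAddMonoidHom

variable {F'' : Type*} [Field F''] [Algebra K F''] (φ : F →ₐ[K] F') (ψ : F →ₐ[K] F'')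
  (w : F' ≃ₐ[K] F'') (h : ∀ x, w (φ x) = ψ x)

/-- An isomorphism over `F` transported from embeddings. -/
def alongEquiv :
    letI := algebraAlong φ
    letI := algebraAlong ψ
    F' ≃ₐ[F] F'' :=
  letI := algebraAlong φ
  letI := algebraAlong ψ
  AlgEquiv.ofRingEquiv (f := w.toRingEquiv) h

include h in
theorem normAlong_comp (y : F') : normAlong ψ (w y) = normAlong φ y := by
  let := algebraAlong φ
  let := algebraAlong ψ
  exact Algebra.norm_eq_of_algEquiv (alongEquiv φ ψ w h) y

include h in
/-- Composing an embedding with an automorphism keeps the degree. -/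
theorem finrankAlong_comp : finrankAlong K ψ = finrankAlong K φ := by
  let := algebraAlong φ
  let := algebraAlong ψ
  exact (alongEquiv φ ψ w h).toLinearEquiv.finrank_eq.symm

end Along

section Main

variable (L : Type*) [Field L] [Algebra ℚ L] (N q : ℕ) [NeZero N] [NeZero q]

/-- The functions of level `N`. -/
local notation "F₀" => laurentBaseChange L (modularFunctionFieldFull N)
/-- The functions of level `Nq`. -/
local notation "F₁" => laurentBaseChange L (modularFunctionFieldFull (N * q))
local notation "α" => heckeAlphaBar L N q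
local notation "β" => heckeBetaBar L N q

variable {L N q}

/-- The field of level `Nq` is generated by `α(F_N)` and `β(F_N)`. -/
theorem hom_ext_alpha_beta (hq : q.Prime) {E : Type*} [Field E] {f g : F₁ →+* E}
    (hα : ∀ x, f (α x) = g (α x)) (hβ : ∀ x, f (β x) = g (β x)) (y : F₁) : f y = g y := by
  refine Hecke.hom_ext_gen (f := f) (g := g) (fun c => ?_) ?_ y
  · rw [← (heckeAlphaBar L N q).commutes c]
    exact hα _
  · intro e he0 he
    obtain ⟨a, b, ha, hb, rfl⟩ := Nat.dvd_mul.mp he
    have : NeZero a := ⟨left_ne_zero_of_mul he0.out⟩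
    rcases hq.eq_one_or_self_of_dvd b hb with rfl | rfl
    · have h' : Hecke.gen L (N * q) he = α (Hecke.gen L N ha) := by
        refine Subtype.ext ?_
        show qExpand L (a * 1) (jqModC L) = qExpand L a (jqModC L)
        exact qExpand_congr (mul_one a) _
      rw [h']
      exact hα _
    · have h' : Hecke.gen L (N * b) he = heckeBetaBar L N b (Hecke.gen L N ha) := by
        refine Subtype.ext ?_
        show qExpand L (a * b) (jqModC L) = qExpand L b (qExpand L a (jqModC L))
        rw [qExpand_qExpand]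
        exact qExpand_congr (mul_comm a b) _
      rw [h']
      exact hβ _

/-- A subfield containing `α(F_N)` and `β(F_N)` contains everything. -/
theorem mem_of_alpha_beta (hq : q.Prime) (S : Subfield F₁) (hα : ∀ x, α x ∈ S)
    (hβ : ∀ x, β x ∈ S) (y : F₁) : y ∈ S := by
  let T : IntermediateField L (LaurentSeries L) :=
    (S.map (F₁).val.toRingHom).toIntermediateField fun c =>
      ⟨α (algebraMap L F₀ c), hα _, by
        show ((α (algebraMap L F₀ c) : F₁) : LaurentSeries L) = _
        rw [coe_heckeAlphaBar]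
        rfl⟩
  have hle : IntermediateField.adjoin L (coeffEmb L '' divisorExpansions (N * q)) ≤ T := by
    rw [adjoin_le_iff]
    rintro _ ⟨_, ⟨e, he0, he, rfl⟩, rfl⟩
    obtain ⟨a, b, ha, hb, rfl⟩ := Nat.dvd_mul.mp he
    have : NeZero a := ⟨left_ne_zero_of_mul he0.out⟩
    have : NeZero b := ⟨right_ne_zero_of_mul he0.out⟩
    have hE : coeffEmb L (qExpand ℚ (a * b) jq) = qExpand L (a * b) (jqModC L) := by
      rw [coeffEmb, coeffMap_qExpand', ← coeffEmb, ← Hecke.jC_eq_jqModC]
      rfl
    rw [hE]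
    rcases hq.eq_one_or_self_of_dvd b hb with rfl | rfl
    · refine ⟨α (Hecke.gen L N ha), hα _, ?_⟩
      show ((α (Hecke.gen L N ha) : F₁) : LaurentSeries L) = _
      rw [coe_heckeAlphaBar]
      exact (qExpand_congr (mul_one a) _).symm
    · refine ⟨heckeBetaBar L N b (Hecke.gen L N ha), hβ _, ?_⟩
      show ((heckeBetaBar L N b (Hecke.gen L N ha) :
        laurentBaseChange L (modularFunctionFieldFull (N * b))) : LaurentSeries L) = _
      rw [coe_heckeBetaBar]
      show qExpand L b (qExpand L a (jqModC L)) = _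
      rw [qExpand_qExpand]
      exact qExpand_congr (mul_comm b a) _
  have hy : (y : LaurentSeries L) ∈
      IntermediateField.adjoin L (coeffEmb L '' divisorExpansions (N * q)) := by
    rw [← Hecke.laurentBaseChange_full]
    exact y.2
  obtain ⟨x, hx, hxy⟩ := hle hy
  exact (Subtype.ext hxy : x = y) ▸ hx

variable [IsAlgClosed L] [CharZero L]

variable (L N q) in
/-- The automorphism swapping the two degeneracy maps exists. -/
theorem exists_wq (hq : q.Prime) (hN : ¬ q ∣ N) (hdeg : finrankAlong L α = q + 1) :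
    ∃ w : F₁ ≃ₐ[L] F₁, (∀ x, w (α x) = β x) ∧ (∀ x, w (β x) = α x) := by
  classical
  let := algebraAlong α
  have : Module.Finite F₀ F₁ := Hecke.finiteAlong_of_isFunctionField α
  have : NeZero ((q : ℕ) : L) := ⟨Nat.cast_ne_zero.mpr (NeZero.ne q)⟩
  obtain ⟨z₀, hz₀⟩ := HasEnoughRootsOfUnity.exists_primitiveRoot L q
  set z : Lˣ := (hz₀.isUnit (NeZero.ne q)).unit with hzdef
  have hz : IsPrimitiveRoot z q :=
    IsPrimitiveRoot.coe_units_iff.mp (by rwa [IsUnit.unit_spec])
  let Ω := AlgebraicClosure (LaurentSeries L)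
  let ι : LaurentSeries L →+* Ω := algebraMap (LaurentSeries L) Ω
  let : Algebra F₀ Ω := ((ι.comp (qExpand L q)).comp (F₀).val.toRingHom).toAlgebra
  have hσ : ∀ (σ : F₁ →ₐ[F₀] Ω) x,
      σ (α x) = ι (qExpand L q (x : LaurentSeries L)) := fun σ x => σ.commutes x
  choose P hP using fun σ : F₁ →ₐ[F₀] Ω =>
    Hecke.exists_conjSubst ι σ.toRingHom hq hN hz (hσ σ)
  have hinj : Function.Injective P := fun σ τ h => AlgHom.ext fun x =>
    hom_ext_alpha_beta hq (f := σ.toRingHom) (g := τ.toRingHom)
      (fun y => (hσ σ y).trans (hσ τ y).symm) (fun y => (hP σ y).trans (h ▸ (hP τ y).symm)) x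
  have hbij : Function.Bijective P := by
    rw [Fintype.bijective_iff_injective_and_card]
    refine ⟨hinj, ?_⟩
    rw [AlgHom.card, Fintype.card_option, Fintype.card_fin]
    exact hdeg
  obtain ⟨σ, hσP⟩ := hbij.2 (some ⟨0, hq.pos⟩)
  let j : F₁ →+* Ω := ι.comp (F₁).val.toRingHom
  have hjα : ∀ x, σ (β x) = j (α x) := by
    intro x
    rw [show σ (β x) = σ.toRingHom (β x) from rfl, hP σ x, hσP]
    refine congrArg ι ?_
    show subst (z ^ (0 : ℕ)) 1 (x : LaurentSeries L) = _
    rw [pow_zero, subst_one, qExpand_one_apply]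
    exact (coe_heckeAlphaBar N q x).symm
  have hjβ : ∀ x, σ (α x) = j (β x) := fun x => hσ σ x
  let s : F₁ →+* Ω := σ.toRingHom
  have hrange : ∀ y, s y ∈ j.fieldRange :=
    mem_of_alpha_beta hq (j.fieldRange.comap s) (fun x => ⟨β x, (hjβ x).symm⟩)
      (fun x => ⟨α x, (hjα x).symm⟩)
  choose w hw using hrange
  have hwα : ∀ x, w (α x) = β x := fun x => j.injective ((hw _).trans (hjβ x))
  have hwβ : ∀ x, w (β x) = α x := fun x => j.injective ((hw _).trans (hjα x))
  let w₁ : F₁ →+* F₁ :=
    { toFun := w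
      map_one' := j.injective (by rw [hw, map_one, map_one])
      map_mul' := fun a b => j.injective (by rw [hw, map_mul, map_mul, hw, hw])
      map_zero' := j.injective (by rw [hw, map_zero, map_zero])
      map_add' := fun a b => j.injective (by rw [hw, map_add, map_add, hw, hw]) }
  let w₂ : F₁ →ₐ[L] F₁ :=
    { w₁ with
      commutes' := fun c => by
        show w (algebraMap L F₁ c) = algebraMap L F₁ c
        conv_lhs => rw [← (heckeAlphaBar L N q).commutes c]
        rw [hwα, AlgHom.commutes] }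
  have hinv : ∀ y, w₂ (w₂ y) = y := fun y =>
    hom_ext_alpha_beta hq (f := w₁.comp w₁) (g := RingHom.id _)
      (fun x => (congrArg w (hwα x)).trans (hwβ x)) (fun x => (congrArg w (hwβ x)).trans (hwα x)) y
  exact ⟨AlgEquiv.ofAlgHom w₂ w₂ (AlgHom.ext hinv) (AlgHom.ext hinv), hwα, hwβ⟩

variable (L N q) in
/-- The Atkin–Lehner involution `w_q`. -/
def wq (hq : q.Prime) (hN : ¬ q ∣ N) (hdeg : finrankAlong L α = q + 1) : F₁ ≃ₐ[L] F₁ :=
  (exists_wq L N q hq hN hdeg).choose

variable (hq : q.Prime) (hN : ¬ q ∣ N) (hdeg : finrankAlong L (heckeAlphaBar L N q) = q + 1)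

@[simp]
theorem wq_alpha (x : F₀) : wq L N q hq hN hdeg (α x) = β x :=
  (exists_wq L N q hq hN hdeg).choose_spec.1 x

@[simp]
theorem wq_beta (x : F₀) : wq L N q hq hN hdeg (β x) = α x :=
  (exists_wq L N q hq hN hdeg).choose_spec.2 x

/-- The Atkin-Lehner involution is the only ring map exchanging `α` and `β`. -/
theorem eq_wq_of_swap (w : F₁ →+* F₁) (hα : ∀ x, w (α x) = β x) (hβ : ∀ x, w (β x) = α x)
    (y : F₁) : w y = wq L N q hq hN hdeg y :=
  hom_ext_alpha_beta hq (g := (wq L N q hq hN hdeg).toRingEquiv.toRingHom)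
    (fun x => (hα x).trans (wq_alpha hq hN hdeg x).symm)
    (fun x => (hβ x).trans (wq_beta hq hN hdeg x).symm) y

@[simp]
theorem wq_wq (y : F₁) : wq L N q hq hN hdeg (wq L N q hq hN hdeg y) = y :=
  hom_ext_alpha_beta hq
    (f := ((wq L N q hq hN hdeg).toRingEquiv.toRingHom).comp
      (wq L N q hq hN hdeg).toRingEquiv.toRingHom) (g := RingHom.id _)
    (fun x => by simp) (fun x => by simp) y

/-- The conjugates over `α(F_N)` of a function of level `Nq`, in `t = q^(1/q)`. -/
def conjHom (z : Lˣ) : Option (Fin q) → (F₁ →+* LaurentSeries L)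
  | none => (qExpand L q).comp (F₁).val.toRingHom
  | some i => (twist (z ^ (i : ℕ))).comp
      ((F₁).val.toRingHom.comp (wq L N q hq hN hdeg).toRingEquiv.toRingHom)

variable {z : Lˣ} (hz : IsPrimitiveRoot z q)

include hz in
theorem conjHom_alpha (p : Option (Fin q)) (x : F₀) :
    conjHom hq hN hdeg z p (α x) = qExpand L q (x : LaurentSeries L) := by
  rcases p with _ | i
  · exact congrArg (qExpand L q) (coe_heckeAlphaBar N q x)
  · show twist (z ^ (i : ℕ)) (wq L N q hq hN hdeg (α x) : LaurentSeries L) = _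
    rw [wq_alpha, coe_heckeBetaBar, twist_qExpand, ← pow_mul, mul_comm, pow_mul, hz.pow_eq_one,
      one_pow, twist_one]

theorem conjHom_beta (p : Option (Fin q)) (x : F₀) :
    conjHom hq hN hdeg z p (β x) = Hecke.conjSubst z p (x : LaurentSeries L) := by
  rcases p with _ | i
  · show qExpand L q (β x : LaurentSeries L) = subst 1 (q * q) _
    rw [coe_heckeBetaBar, qExpand_qExpand, subst_one]
  · show twist (z ^ (i : ℕ)) (wq L N q hq hN hdeg (β x) : LaurentSeries L) = subst (z ^ (i : ℕ)) 1 _
    rw [wq_beta, coe_heckeAlphaBar, subst_apply, qExpand_one_apply]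

include hz in
/-- The `q + 1` conjugate maps are all the embeddings over `α(F_N)`. -/
theorem exists_embeddings_equiv (Ω : Type*) [Field Ω] [IsAlgClosed Ω] (ι : LaurentSeries L →+* Ω) :
    letI := algebraAlong α
    letI : Algebra F₀ Ω := ((ι.comp (qExpand L q)).comp (F₀).val.toRingHom).toAlgebra
    ∃ e : Option (Fin q) ≃ (F₁ →ₐ[F₀] Ω), ∀ p y, e p y = ι (conjHom hq hN hdeg z p y) := by
  classical
  let := algebraAlong α
  let : Algebra F₀ Ω := ((ι.comp (qExpand L q)).comp (F₀).val.toRingHom).toAlgebra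
  have : Module.Finite F₀ F₁ := Hecke.finiteAlong_of_isFunctionField α
  let e : Option (Fin q) → (F₁ →ₐ[F₀] Ω) := fun p =>
    { ι.comp (conjHom hq hN hdeg z p) with
      commutes' := fun x => congrArg ι (conjHom_alpha hq hN hdeg hz p x) }
  have he : Function.Injective e := by
    intro p p' h
    refine Hecke.conjSubst_j_injective hz hq.one_lt (ι.injective ?_)
    have h1 : ι (conjHom hq hN hdeg z p (β (Hecke.gen L N (one_dvd N)))) =
        ι (conjHom hq hN hdeg z p' (β (Hecke.gen L N (one_dvd N)))) := DFunLike.congr_fun h _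
    rw [conjHom_beta, conjHom_beta] at h1
    simpa [Hecke.gen, qExpand_one_apply] using h1
  have hcard : Fintype.card (Option (Fin q)) = Fintype.card (F₁ →ₐ[F₀] Ω) := by
    rw [AlgHom.card, Fintype.card_option, Fintype.card_fin]
    exact hdeg.symm
  exact ⟨Equiv.ofBijective e ((Fintype.bijective_iff_injective_and_card e).mpr ⟨he, hcard⟩),
    fun _ _ => rfl⟩

include hz in
/-- `(N_α φ)(t^q) = φ(t^q) ∏_{i<q} (w_q φ)(ζⁱ t)`. -/
theorem qExpand_normAlong (φ : F₁) :
    qExpand L q (normAlong α φ : LaurentSeries L) = qExpand L q (φ : LaurentSeries L) *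
      ∏ i ∈ Finset.range q, twist (z ^ i) (wq L N q hq hN hdeg φ : LaurentSeries L) := by
  classical
  let := algebraAlong α
  have : Module.Finite F₀ F₁ := Hecke.finiteAlong_of_isFunctionField α
  let Ω := AlgebraicClosure (LaurentSeries L)
  let ι : LaurentSeries L →+* Ω := algebraMap (LaurentSeries L) Ω
  let : Algebra F₀ Ω := ((ι.comp (qExpand L q)).comp (F₀).val.toRingHom).toAlgebra
  obtain ⟨e, he⟩ := exists_embeddings_equiv hq hN hdeg hz Ω ι
  apply ι.injective
  have hnorm : ι (qExpand L q (normAlong α φ : LaurentSeries L)) = ∏ σ : F₁ →ₐ[F₀] Ω, σ φ :=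
    Algebra.norm_eq_prod_embeddings F₀ Ω φ
  rw [hnorm, ← e.prod_comp (fun σ => σ φ), Fintype.prod_option, map_mul, map_prod,
    ← Fin.prod_univ_eq_prod_range
      (fun i => ι (twist (z ^ i) (wq L N q hq hN hdeg φ : LaurentSeries L))) q, he none φ]
  exact congrArg₂ (· * ·) rfl (Finset.prod_congr rfl fun i _ => he (some i) φ)

include hz in
/-- `(Tr_α φ)(t^q) = φ(t^q) + ∑_{i<q} (w_q φ)(ζⁱ t)`. -/
theorem qExpand_traceAlong (φ : F₁) :
    qExpand L q (traceAlong α φ : LaurentSeries L) = qExpand L q (φ : LaurentSeries L) +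
      ∑ i ∈ Finset.range q, twist (z ^ i) (wq L N q hq hN hdeg φ : LaurentSeries L) := by
  classical
  let := algebraAlong α
  have : Module.Finite F₀ F₁ := Hecke.finiteAlong_of_isFunctionField α
  let Ω := AlgebraicClosure (LaurentSeries L)
  let ι : LaurentSeries L →+* Ω := algebraMap (LaurentSeries L) Ω
  let : Algebra F₀ Ω := ((ι.comp (qExpand L q)).comp (F₀).val.toRingHom).toAlgebra
  obtain ⟨e, he⟩ := exists_embeddings_equiv hq hN hdeg hz Ω ι
  apply ι.injective
  have htr : ι (qExpand L q (traceAlong α φ : LaurentSeries L)) = ∑ σ : F₁ →ₐ[F₀] Ω, σ φ :=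
    trace_eq_sum_embeddings (K := F₀) (L := F₁) Ω (x := φ)
  rw [htr, ← e.sum_comp (fun σ => σ φ), Fintype.sum_option, map_add, map_sum,
    ← Fin.sum_univ_eq_sum_range
      (fun i => ι (twist (z ^ i) (wq L N q hq hN hdeg φ : LaurentSeries L))) q, he none φ]
  exact congrArg₂ (· + ·) rfl (Finset.sum_congr rfl fun i _ => he (some i) φ)

end Main

end Fermat.Agent.TwoComp
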