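import Fermat.Agent.TwoComp.LevelSetting
import Fermat.Agent.TwoComp.Conjugates
import Fermat.Agent.Hecke.Degree
import Fermat.Agent.CarayolFF.NormProd

/-!
# The conjugation data of level `Nq` exist

`exists_conj` provides `Conj N q` whose trace is bounded in poles and whose norm satisfies
`(N_α f)(t^q) = f(t^q) ∏_{i<q} (w f)(ζⁱ t)`.
-/

set_option autoImplicit false

noncomputable section

open AlgebraicCurve ModularCurve Fermat.Agent.GaloisBasics
open Fermat.Agent.ModularFunctionField (twist)

namespace Fermat.Agent.TwoComp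

variable (N q : ℕ) [NeZero N] [NeZero q]

/-- The norm to level `N` on expansions. -/
def NormEq {N q : ℕ} [NeZero N] [NeZero q] (C : Conj N q) : Prop :=
  ∀ f : FB (N * q), qExpand Qbar q ((CarayolFF.normAlong (upα N q) f : FB N) : LaurentSeries Qbar) =
    qExpand Qbar q (f : LaurentSeries Qbar) *
      ∏ i : Fin q, twist (C.z ^ (i : ℕ)) (C.w f : LaurentSeries Qbar)

/-- `N_β f = N_α (w f)`. -/
theorem normAlong_upβ_eq {N q : ℕ} [NeZero N] [NeZero q] (C : Conj N q) (f : FB (N * q)) :
    CarayolFF.normAlong (upβ N q) f = CarayolFF.normAlong (upα N q) (C.w f) := by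
  conv_lhs => rw [← C.w_w f]
  exact normAlong_comp (upα N q) (upβ N q) C.w C.w_alpha _

/-- The conjugation data of level `N q` exist, with bounded trace and the norm formula. -/
theorem exists_conj (hq : q.Prime) (hqN : ¬ q ∣ N) :
    ∃ C : Conj N q, Conj.TrBound N C ∧ NormEq C := by
  have hdeg := Hecke.finrankAlong_alpha N q hq hqN
  have : NeZero ((q : ℕ) : Qbar) := ⟨Nat.cast_ne_zero.mpr (NeZero.ne q)⟩
  obtain ⟨z₀, hz₀⟩ := HasEnoughRootsOfUnity.exists_primitiveRoot Qbar q
  have hz : IsPrimitiveRoot (hz₀.isUnit (NeZero.ne q)).unit q :=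
    IsPrimitiveRoot.coe_units_iff.mp (by rwa [IsUnit.unit_spec])
  set z := (hz₀.isUnit (NeZero.ne q)).unit
  refine ⟨{ w := wq Qbar N q hq hqN hdeg
            w_w := wq_wq hq hqN hdeg
            w_alpha := wq_alpha hq hqN hdeg
            z := z
            z_pow := hz.pow_eq_one
            tr := trAlpha N q
            tr_eq := fun φ => ?_ }, fun m φ h => trAlpha_mem N q h, fun f => ?_⟩
  · rw [Fin.sum_univ_eq_sum_range
      (fun i => twist (z ^ i) (wq Qbar N q hq hqN hdeg φ : LaurentSeries Qbar)) q]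
    exact qExpand_traceAlong hq hqN hdeg hz φ
  · rw [Fin.prod_univ_eq_prod_range
      (fun i => twist (z ^ i) (wq Qbar N q hq hqN hdeg f : LaurentSeries Qbar)) q]
    exact qExpand_normAlong hq hqN hdeg hz f

end Fermat.Agent.TwoComp
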