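import Fermat.Agent.TwoComp.Roots
import Fermat.Agent.TwoComp.ConjExists
import Fermat.Agent.GoodReductionS18.Model.Fibres

/-!
# Unipotent inertia on Kummer classes of level `M * q`

The good model at level `M` exists when `2 ∣ M` or `3 ∣ M`.
-/

set_option autoImplicit false

noncomputable section

open ModularCurve Fermat.Agent.GaloisBasics

namespace Fermat.Agent.TwoComp

/-- A good Gauss model at level `M`, prime to `q` and divisible by `2` or `3`. -/
theorem hasGoodModel_split {M q : ℕ} [NeZero M] (hq : q.Prime) (hqM : ¬ q ∣ M)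
    (hM : 2 ∣ M ∨ 3 ∣ M) {A : ValuationSubring Qbar} (hA : A.LiesOverPrime q) :
    GoodReductionS18.HasGoodModel (IsLocalRing.residue A) M := by
  have : NeZero q := ⟨hq.ne_zero⟩
  have : IsAlgClosed (IsLocalRing.ResidueField A) := residueField_isAlgClosed A
  have hMk : (M : IsLocalRing.ResidueField A) ≠ 0 :=
    natCast_residue_ne_zero hq hA (hq.coprime_iff_not_dvd.mpr hqM).symm
  rcases hM with h | h
  · exact GoodReductionS18.hasGoodModel (h := 2) (.inl rfl) h hMk IsLocalRing.residue_surjective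
      (GoodReductionS18.hauptFibres 2 M (.inl rfl))
  · exact GoodReductionS18.hasGoodModel (h := 3) (.inr rfl) h hMk IsLocalRing.residue_surjective
      (GoodReductionS18.hauptFibres 3 M (.inr rfl))

/-- `(σ - 1) ^ 2` kills the Kummer classes of level `M * q` for `σ` in inertia at `q`. -/
theorem twistRoot {M q : ℕ} [NeZero M] [NeZero q] (hq : q.Prime) (hqM : ¬ q ∣ M)
    (hM : 2 ∣ M ∨ 3 ∣ M) {n : ℕ} (hn0 : n ≠ 0) (hn : n.Coprime q)
    {A : ValuationSubring Qbar} (hA : A.LiesOverPrime q)
    {σ : GalQ} (hσ : σ ∈ A.inertiaSubgroupIn ℚ) : TwistRoot (M * q) σ n := by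
  obtain ⟨C, htr, -⟩ := exists_conj M q hq hqM
  obtain ⟨HN, g, c, Hd, Hb, Gm⟩ := hasGoodModel_split hq hqM hM hA
  exact C.twistRoot hq hA HN Gm hqM htr hσ hn hn0

end Fermat.Agent.TwoComp
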