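import Fermat.Agent.TwoComp.QuadDatum
import Fermat.Agent.TwoComp.Export

/-!
# The quartic of Frobenius on Kummer classes with trivial norms
-/

set_option autoImplicit false

noncomputable section

open AlgebraicCurve ModularCurve Fermat.Agent.GaloisBasics Fermat.Agent.CarayolFF
open Fermat.Agent.GoodReduction (GoodModel)
open Fermat.Agent.GoodReductionModular (GaussInput gaussReduction)

namespace Fermat.Agent.TwoComp

variable {N q : ℕ} [NeZero N] [NeZero q] {A : ValuationSubring Qbar}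

local notation "k" => IsLocalRing.ResidueField A

omit [NeZero q] in
/-- The square of a Frobenius element acts as `c ↦ c ^ (q * q)` on residues. -/
theorem resHom_frob_sq {σ : GalQ} (hσ : A.IsFrobeniusAt σ q) :
    ∃ hd : σ * σ ∈ A.decompositionSubgroup ℚ, ∀ c : k, resHom hd c = c ^ (q * q) := by
  refine ⟨mul_mem hσ.mem_decompositionSubgroup hσ.mem_decompositionSubgroup, fun c => ?_⟩
  show ((⟨σ, hσ.mem_decompositionSubgroup⟩ : A.decompositionSubgroup ℚ) *
    ⟨σ, hσ.mem_decompositionSubgroup⟩) • c = _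
  rw [mul_smul, hσ.smul_residue_eq, hσ.smul_residue_eq, ← pow_mul]

/-- `(σ² - q²) (σ² - 1)` on Kummer classes with trivial norms, from the conjugation data. -/
theorem Conj.quadRoot (C : Conj N q) (hC : NormEq C) (hq : q.Prime) (hA : A.LiesOverPrime q)
    (HN : GaussInput (FB N) (modularFunctionFieldFullC k N) (IsLocalRing.residue A))
    {g : ℕ} {c : ℤ} {Hd : Divisor Qbar (FB N)} {Hb : Divisor k (modularFunctionFieldFullC k N)}
    (Gm : GoodModel (gaussReduction HN) g c Hd Hb) (hqN : ¬ q ∣ N) (htr : TrBound N C)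
    {σ : GalQ} (hσ : A.IsFrobeniusAt σ q) {n : ℕ} (hn : n.Coprime q) (hn0 : n ≠ 0) :
    QuadRoot N q σ n := by
  obtain ⟨hd, hfr⟩ := resHom_frob_sq hσ
  intro f hf hord hα hβ
  obtain ⟨cα, hα', hfα⟩ := hα
  obtain ⟨cβ, hβ', hfβ⟩ := hβ
  replace hfβ : CarayolFF.normAlong (upα N q) (C.w f) =
      algebraMap Qbar (FB N) cβ * hβ' ^ n := (normAlong_upβ_eq C f).symm.trans hfβ
  refine C.exists_root hq hA HN Gm hqN htr (C.frobSqSymm hq hA HN Gm hqN htr hd hfr)
    (fun _ => rfl) hn hn0 (fun x hx => ?_) hf hord fun i x hW hne => ?_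
  · show resHom hd x * x ^ ((n - 1) * (q * q)) = 1
    rw [hfr, pow_mul x (n - 1), ← mul_pow, mul_pow_sub_one hn0, hx, one_pow]
  set M := C.model hq hA HN
  have hmap : ∀ (ψ : FB (N * q)) (t : Qbar), C.w (ψ * algebraMap Qbar _ t) =
      C.w ψ * algebraMap Qbar _ t := fun ψ t => by rw [map_mul, C.w.commutes]
  have h0 := (C.mem_W_iff hq hA HN i _).mp hW
  have hcoe := C.coe_rd hq hA HN h0
  have hne' : ∀ {ψ : FB (N * q)} (h : (ψ : LaurentSeries Qbar) ∈ gaussRing A),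
      gres A (ψ : LaurentSeries Qbar) ≠ 0 →
      ∃ v : modularFunctionFieldFullC k N, v ≠ 0 ∧
        (v : LaurentSeries k) = gres A (ψ : LaurentSeries Qbar) := fun h h' =>
    ⟨⟨_, C.gres_mem hq hA HN h⟩, fun e => h' (congrArg Subtype.val e), rfl⟩
  have hF : ∀ u, frobG N hq hA (frobG N hq hA (coeffG N (resHom hd) u)) = u ^ (q * q) :=
    frobG_frobG_coeffG hq hA hfr
  show ∃ a, coeffG N (resHom hd) (M.rd i (f * algebraMap Qbar _ x)) * _ = a ^ n
  obtain rfl | rfl : i = 0 ∨ i = 1 := by omega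
  · rw [C.emb_zero] at h0 hcoe
    obtain ⟨y, hy, hy0⟩ := exists_gauss_scale (A := A) (N * q)
      (f := C.w f) ((map_ne_zero _).mpr hf)
    obtain ⟨v, hv, ev⟩ := hne' hy hy0
    obtain ⟨a, ha⟩ := C.frobG_rel hq hA hC hn0 hfα HN h0 hy hne hv hcoe ev
    obtain ⟨b, hb⟩ := C.frobG_rel hq hA hC hn0 hfβ HN hy (by rw [C.w_w]; exact h0) hv hne
      ev (by rw [C.w_w]; exact hcoe)
    exact exists_pow_of_frob_rel (frobG N hq hA).toRingHom (coeffG N (resHom hd)) hn hn0 hF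
      (frobG_coeffG_comm hq hA _) hne hv ha hb
  · rw [C.emb_one, hmap] at h0 hcoe
    obtain ⟨y, hy, hy0⟩ := exists_gauss_scale (A := A) (N * q) (f := f) hf
    obtain ⟨v, hv, ev⟩ := hne' hy hy0
    obtain ⟨a, ha⟩ := C.frobG_rel hq hA hC hn0 hfβ HN h0 (by rw [C.w_w]; exact hy) hne hv hcoe
      (by rw [C.w_w]; exact ev)
    obtain ⟨b, hb⟩ := C.frobG_rel hq hA hC hn0 hfα HN hy h0 hv hne ev hcoe
    exact exists_pow_of_frob_rel (frobG N hq hA).toRingHom (coeffG N (resHom hd)) hn hn0 hF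
      (frobG_coeffG_comm hq hA _) hne hv ha hb

/-- `(σ² - q²) (σ² - 1)` on Kummer classes with trivial norms, at split levels. -/
theorem quadRoot (hq : q.Prime) (hqN : ¬ q ∣ N) (hN : 2 ∣ N ∨ 3 ∣ N) {n : ℕ} (hn0 : n ≠ 0)
    (hn : n.Coprime q) (hA : A.LiesOverPrime q) {σ : GalQ} (hσ : A.IsFrobeniusAt σ q) :
    QuadRoot N q σ n := by
  obtain ⟨C, htr, hC⟩ := exists_conj N q hq hqN
  obtain ⟨HN, g, c, Hd, Hb, Gm⟩ := hasGoodModel_split hq hqN hN hA
  exact C.quadRoot hC hq hA HN Gm hqN htr hσ hn hn0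

end Fermat.Agent.TwoComp
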