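import Fermat.Agent.TwoComp.SeriesGauss
import Fermat.Agent.Hecke.NormIdentity
import Fermat.Agent.KummerReduction.GaussDescent

/-!
# The two reductions of the function field of level `N * q`

They are the Gauss residues of the expansion and of the expansion after the involution exchanging
the degeneracy maps. Both take values in the function field of level `N` in characteristic `q`.
-/

set_option autoImplicit false

noncomputable section

open ModularCurve Fermat.Agent.GaloisBasics Fermat.Agent.KummerReduction Fermat.Agent.CarayolFF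
open Fermat.Agent.ModularFunctionField (twist)

namespace Fermat.Agent.TwoComp

/-- The functions of level `M`. -/
abbrev FB (M : ℕ) : IntermediateField Qbar (LaurentSeries Qbar) := modularFunctionFieldBar M

variable (N q : ℕ) [NeZero N] [NeZero q]

/-- The inclusion of level `N` in level `N * q`. -/
abbrev upα : FB N →ₐ[Qbar] FB (N * q) := heckeAlphaBar Qbar N q

/-- The substitution `τ ↦ qτ` from level `N` to level `N * q`. -/
abbrev upβ : FB N →ₐ[Qbar] FB (N * q) := heckeBetaBar Qbar N q

/-- The involution exchanging the degeneracy maps and the trace to level `N` on expansions. -/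
structure Conj where
  w : FB (N * q) ≃ₐ[Qbar] FB (N * q)
  w_w : ∀ x, w (w x) = x
  w_alpha : ∀ x, w (upα N q x) = upβ N q x
  z : Qbarˣ
  z_pow : z ^ q = 1
  tr : FB (N * q) → FB N
  tr_eq : ∀ φ : FB (N * q), qExpand Qbar q (tr φ : LaurentSeries Qbar) =
    qExpand Qbar q (φ : LaurentSeries Qbar) +
      ∑ i : Fin q, twist (z ^ (i : ℕ)) (w φ : LaurentSeries Qbar)

/-- `j` lies in the function field of every level. -/
theorem jqModC_mem_FB (M : ℕ) : jqModC Qbar ∈ FB M := by
  refine (laurentBaseChange_full Qbar M).ge (IntermediateField.subset_adjoin _ _ ?_)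
  exact ⟨1, inferInstance, one_dvd M, (qExpand_one_apply _).symm⟩

/-- `j` as a function of level `M`. -/
def jB (M : ℕ) : FB M := ⟨jqModC Qbar, jqModC_mem_FB M⟩

variable {N q}

namespace Conj

variable (C : Conj N q)

/-- The involution sends `β` to `α`. -/
theorem w_beta (x : FB N) : C.w (upβ N q x) = upα N q x := by rw [← C.w_alpha, C.w_w]

/-- The two expansions. -/
def emb (i : Fin 2) : FB (N * q) →+* LaurentSeries Qbar :=
  ![(FB (N * q)).val.toRingHom, (FB (N * q)).val.toRingHom.comp C.w.toAlgHom.toRingHom] i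

/-- The first expansion is the expansion at infinity. -/
theorem emb_zero (φ : FB (N * q)) : C.emb 0 φ = (φ : LaurentSeries Qbar) := rfl

/-- The second expansion is the expansion after the involution. -/
theorem emb_one (φ : FB (N * q)) : C.emb 1 φ = (C.w φ : LaurentSeries Qbar) := rfl

variable {A : ValuationSubring Qbar} (hq : q.Prime) (hA : A.LiesOverPrime q)

local notation "k" => IsLocalRing.ResidueField A

include hq hA

theorem residue_z : ∀ i : ℕ, ∃ (h : ((C.z ^ i : Qbarˣ) : Qbar) ∈ A)
    (_ : (((C.z ^ i)⁻¹ : Qbarˣ) : Qbar) ∈ A),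
    IsLocalRing.residue A ⟨((C.z ^ i : Qbarˣ) : Qbar), h⟩ = 1 := fun i => by
  have hv : A.valuation (q : Qbar) < 1 := A.mem_nonunits_iff.mp hA
  obtain ⟨h, e⟩ := residue_rootOfUnity A hq hv (unit_pow_eq_one C.z_pow i)
  obtain ⟨h', -⟩ := residue_rootOfUnity A hq hv (u := (C.z ^ i)⁻¹)
    (by rw [inv_pow, unit_pow_eq_one C.z_pow, inv_one])
  exact ⟨h, h', e⟩

theorem gres_twist (i : ℕ) {x : LaurentSeries Qbar} (hx : x ∈ gaussRing A) :
    twist (C.z ^ i) x ∈ gaussRing A ∧ gres A (twist (C.z ^ i) x) = gres A x := by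
  obtain ⟨h, h', e⟩ := C.residue_z hq hA i
  obtain ⟨hm, he⟩ := twist_gaussRes h h' e hx
  exact ⟨hm, by rw [gres_of_mem hm, gres_of_mem hx]; exact he⟩

/-- The trace of a function integral on both components reduces to its residue at infinity. -/
theorem gres_tr {φ : FB (N * q)} (h0 : (φ : LaurentSeries Qbar) ∈ gaussRing A)
    (h1 : (C.w φ : LaurentSeries Qbar) ∈ gaussRing A) :
    (C.tr φ : LaurentSeries Qbar) ∈ gaussRing A ∧
      gres A (C.tr φ : LaurentSeries Qbar) = gres A (φ : LaurentSeries Qbar) := by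
  classical
  have := residueField_charP hA hq
  have hsum : ∀ s : Finset (Fin q),
      ∑ i ∈ s, twist (C.z ^ (i : ℕ)) (C.w φ : LaurentSeries Qbar) ∈ gaussRing A ∧
      gres A (∑ i ∈ s, twist (C.z ^ (i : ℕ)) (C.w φ : LaurentSeries Qbar)) =
        (s.card : LaurentSeries k) * gres A (C.w φ : LaurentSeries Qbar) := by
    intro s
    induction s using Finset.induction_on with
    | empty => simp [zero_mem, gres_zero]
    | insert a s ha ih =>
      obtain ⟨hm, he⟩ := C.gres_twist hq hA (a : ℕ) h1
      rw [Finset.sum_insert ha, Finset.card_insert_of_notMem ha]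
      refine ⟨add_mem hm ih.1, ?_⟩
      rw [gres_add hm ih.1, he, ih.2]
      push_cast
      ring
  obtain ⟨hS, hSe⟩ := hsum Finset.univ
  obtain ⟨hE, hEe⟩ := gres_qExpand q h0
  have hq0 : ((q : ℕ) : LaurentSeries k) = 0 := by
    rw [← map_natCast (HahnSeries.C : k →+* LaurentSeries k), CharP.cast_eq_zero, map_zero]
  rw [Finset.card_univ, Fintype.card_fin, hq0, zero_mul] at hSe
  have hT : qExpand Qbar q (C.tr φ : LaurentSeries Qbar) ∈ gaussRing A ∧
      gres A (qExpand Qbar q (C.tr φ : LaurentSeries Qbar)) =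
        qExpand k q (gres A (φ : LaurentSeries Qbar)) := by
    rw [C.tr_eq]
    exact ⟨add_mem hE hS, by rw [gres_add hE hS, hSe, add_zero, hEe]⟩
  have hmem : (C.tr φ : LaurentSeries Qbar) ∈ gaussRing A := by
    rcases eq_or_ne (C.tr φ) 0 with h | h
    · rw [h, ZeroMemClass.coe_zero]; exact zero_mem _
    obtain ⟨c, x, -, hx, e⟩ := exists_smul_unit_level (A := A) N h
    have hx' : IsGaussUnit A (qExpand Qbar q x) := by
      obtain ⟨hm, he⟩ := gres_qExpand q hx.mem
      refine ⟨hm, ?_⟩
      rw [← gres_of_mem hm, he, gres_of_mem hx.mem]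
      exact (map_ne_zero _).mpr hx.2
    have e' : qExpand Qbar q (C.tr φ : LaurentSeries Qbar) =
        algebraMap Qbar (LaurentSeries Qbar) c * qExpand Qbar q x := by
      rw [e, map_mul, algebraMap_laurentSeries_eq_single, qExpand_single, mul_zero]
    rw [e]
    exact mul_mem (algebraMap_mem_gaussRing (mem_of_mul_isGaussUnit hx' (e' ▸ hT.1))) hx.mem
  refine ⟨hmem, qExpand_injective (R := k) q ?_⟩
  rw [← (gres_qExpand q hmem).2, hT.2]

omit hq hA in
theorem gres_beta_j (hq : q.Prime) (hA : A.LiesOverPrime q) :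
    qExpand Qbar q (jqModC Qbar) ∈ gaussRing A ∧
      gres A (qExpand Qbar q (jqModC Qbar)) = jqModC k ^ q := by
  obtain ⟨h, e⟩ := gres_jd (A := A) q
  refine ⟨h, e.trans ?_⟩
  simpa [qExpand_one_apply] using qExpand_jd_eq_pow hq hA 1

omit [NeZero N] hq hA in
theorem coe_beta_j : (upβ N q (jB N) : LaurentSeries Qbar) = qExpand Qbar q (jqModC Qbar) :=
  coe_heckeBetaBar _ _ (jB N)

omit hq hA in
theorem coe_alpha_j : (upα N q (jB N) : LaurentSeries Qbar) = jqModC Qbar :=
  coe_heckeAlphaBar _ _ (jB N)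

/-- The separating function: a unit at infinity, of positive valuation on the other component. -/
theorem gres_sep : let u := upα N q (jB N) - upβ N q (jB N) ^ q
    ((u : LaurentSeries Qbar) ∈ gaussRing A ∧ gres A (u : LaurentSeries Qbar) ≠ 0) ∧
    ((C.w u : LaurentSeries Qbar) ∈ gaussRing A ∧ gres A (C.w u : LaurentSeries Qbar) = 0) := by
  intro u
  obtain ⟨hj, hje⟩ := gres_jqModC (A := A)
  obtain ⟨hb, hbe⟩ := gres_beta_j (A := A) hq hA
  have hu : (u : LaurentSeries Qbar) = jqModC Qbar - qExpand Qbar q (jqModC Qbar) ^ q := by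
    show ((upα N q (jB N) - upβ N q (jB N) ^ q : FB (N * q)) : LaurentSeries Qbar) = _
    push_cast
    rw [coe_alpha_j, coe_beta_j]
  have hwu : (C.w u : LaurentSeries Qbar) = qExpand Qbar q (jqModC Qbar) - jqModC Qbar ^ q := by
    show ((C.w (upα N q (jB N) - upβ N q (jB N) ^ q) : FB (N * q)) : LaurentSeries Qbar) = _
    rw [map_sub, map_pow, C.w_alpha, C.w_beta]
    push_cast
    rw [coe_alpha_j, coe_beta_j]
  refine ⟨⟨hu ▸ sub_mem hj (pow_mem hb q), ?_⟩, hwu ▸ sub_mem hb (pow_mem hj q), ?_⟩
  · rw [hu, gres_sub hj (pow_mem hb q), gres_pow hb, hje, hbe, ← pow_mul]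
    intro h0
    have hq2 : 1 < q * q := by nlinarith [hq.two_le]
    refine FiniteField.X_pow_card_sub_X_ne_zero k hq2 ?_
    have hT : Polynomial.aeval (jqModC k)
        (Polynomial.X ^ (q * q) - Polynomial.X : Polynomial k) = 0 := by
      rw [map_sub, Polynomial.aeval_X_pow, Polynomial.aeval_X, ← neg_sub, h0, neg_zero]
    exact transcendental_iff.mp (ToricChar.jqModC_transcendental k) _ hT
  · rw [hwu, gres_sub hb (pow_mem hj q), gres_pow hj, hje, hbe, sub_self]

include C in
/-- Residues at infinity of level `N * q` lie in the fibre of level `N`. -/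
theorem gres_mem (HN : GoodReductionModular.GaussInput (FB N)
      (modularFunctionFieldFullC k N) (IsLocalRing.residue A))
    {φ : FB (N * q)} (hφ : (φ : LaurentSeries Qbar) ∈ gaussRing A) :
    gres A (φ : LaurentSeries Qbar) ∈ modularFunctionFieldFullC k N := by
  set u := upα N q (jB N) - upβ N q (jB N) ^ q with hudef
  obtain ⟨⟨hu, hue⟩, hwu, hwue⟩ := C.gres_sep hq hA
  rw [← hudef] at hu hue hwu hwue
  obtain ⟨m, hm⟩ : ∃ m : ℕ, (C.w φ : LaurentSeries Qbar) *
      (C.w u : LaurentSeries Qbar) ^ m ∈ gaussRing A := by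
    rcases eq_or_ne (C.w φ) 0 with h | hφ0
    · exact ⟨0, by rw [h, ZeroMemClass.coe_zero, zero_mul]; exact zero_mem _⟩
    rcases eq_or_ne (C.w u) 0 with h | hu0
    · exact ⟨1, by rw [h, ZeroMemClass.coe_zero, pow_one, mul_zero]; exact zero_mem _⟩
    obtain ⟨d, x, -, hx, hxe⟩ := exists_smul_unit_level (A := A) (N * q) hφ0
    obtain ⟨c, y, -, hy, hye⟩ := exists_smul_unit_level (A := A) (N * q) hu0
    have hcA : c ∈ A := mem_of_mul_isGaussUnit hy (hye ▸ hwu)
    have hcn : c ∈ A.nonunits := by
      rw [hye, gres_mul (algebraMap_mem_gaussRing hcA) hy.mem, (gres_algebraMap ⟨c, hcA⟩).2,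
        gres_of_mem hy.mem] at hwue
      have h0 : IsLocalRing.residue A ⟨c, hcA⟩ = 0 :=
        (map_eq_zero_iff _ HahnSeries.C_injective).mp ((mul_eq_zero.mp hwue).resolve_right hy.2)
      rw [IsLocalRing.residue_eq_zero_iff, ← ValuationSubring.coe_mem_nonunits_iff] at h0
      exact h0
    obtain ⟨m, hm⟩ := exists_mul_pow_mem hq hA hcn d
    refine ⟨m, ?_⟩
    rw [hxe, hye, mul_pow, ← map_pow, mul_mul_mul_comm, ← map_mul]
    exact mul_mem (algebraMap_mem_gaussRing hm) (mul_mem hx.mem (pow_mem hy.mem m))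
  have hψ0 : ((φ * u ^ m : FB (N * q)) : LaurentSeries Qbar) ∈ gaussRing A := by
    push_cast; exact mul_mem hφ (pow_mem hu m)
  have hψ1 : ((C.w (φ * u ^ m) : FB (N * q)) : LaurentSeries Qbar) ∈ gaussRing A := by
    rw [map_mul, map_pow]; push_cast; exact hm
  obtain ⟨ht, hte⟩ := C.gres_tr hq hA hψ0 hψ1
  have hmem := gres_mem_of_input HN (C.tr (φ * u ^ m)) ht
  rw [hte] at hmem
  have hgu : gres A (u : LaurentSeries Qbar) ∈ modularFunctionFieldFullC k N := by
    obtain ⟨hj, hje⟩ := gres_jqModC (A := A)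
    obtain ⟨hb, hbe⟩ := gres_beta_j (A := A) hq hA
    have e : (u : LaurentSeries Qbar) = jqModC Qbar - qExpand Qbar q (jqModC Qbar) ^ q := by
      rw [hudef]; push_cast; rw [coe_alpha_j, coe_beta_j]
    rw [e, gres_sub hj (pow_mem hb q), gres_pow hb, hje, hbe]
    exact sub_mem (jqModC_mem_full k N) (pow_mem (pow_mem (jqModC_mem_full k N) q) q)
  have e : gres A (φ : LaurentSeries Qbar) =
      gres A ((φ * u ^ m : FB (N * q)) : LaurentSeries Qbar) /
        gres A (u : LaurentSeries Qbar) ^ m := by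
    push_cast
    rw [gres_mul hφ (pow_mem hu m), gres_pow hu, mul_div_cancel_right₀ _ (pow_ne_zero m hue)]
  rw [e]
  exact div_mem hmem (pow_mem hgu m)

/-- The Gauss data of the two components. -/
def gaussData (HN : GoodReductionModular.GaussInput (FB N)
    (modularFunctionFieldFullC k N) (IsLocalRing.residue A)) :
    GaussData Qbar (FB (N * q)) k (modularFunctionFieldFullC k N) (Fin 2) where
  R := resData A
  ρ := (modularFunctionFieldFullC k N).val.toRingHom
  ρ_algebraMap c := by
    show algebraMap k (LaurentSeries k) c = _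
    rw [algebraMap_laurentSeries_eq_single, HahnSeries.C_apply]
  emb := C.emb
  emb_algebraMap i c := by
    revert i
    rw [Fin.forall_fin_two, emb_zero, emb_one, C.w.commutes]
    refine ⟨?_, ?_⟩ <;>
    · show algebraMap Qbar (LaurentSeries Qbar) c = _
      rw [algebraMap_laurentSeries_eq_single, HahnSeries.C_apply]
  bounded S := by
    classical
    obtain ⟨L, ϖ, hd, h⟩ := exists_fracOver hq hA
      (S.image (C.emb 0) ∪ S.image (C.emb 1)) fun x hx => by
        rcases Finset.mem_union.mp hx with hx | hx <;> obtain ⟨y, -, rfl⟩ := Finset.mem_image.mp hx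
        · exact exists_bounded_quotient _ y
        · exact exists_bounded_quotient _ (C.w y)
    refine ⟨L, ϖ, hd, fun φ hφ => Fin.forall_fin_two.mpr ⟨?_, ?_⟩⟩
    · exact h _ (Finset.mem_union_left _ (Finset.mem_image_of_mem _ hφ))
    · exact h _ (Finset.mem_union_right _ (Finset.mem_image_of_mem _ hφ))
  red_range i φ a b hb h := by
    obtain ⟨hmem, he⟩ := gres_of_intSeries hb h
    rw [← he]
    have key : ∀ ψ : FB (N * q), (ψ : LaurentSeries Qbar) ∈ gaussRing A →
        gres A (ψ : LaurentSeries Qbar) ∈ (modularFunctionFieldFullC k N).val.toRingHom.range :=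
      fun ψ hψ => ⟨⟨_, C.gres_mem hq hA HN hψ⟩, rfl⟩
    revert hmem
    revert i
    rw [Fin.forall_fin_two, emb_zero, emb_one]
    exact ⟨fun _ _ hm => key φ hm, fun _ _ hm => key (C.w φ) hm⟩

/-- The two-component model. -/
def model (HN : GoodReductionModular.GaussInput (FB N)
    (modularFunctionFieldFullC k N) (IsLocalRing.residue A)) :
    Model Qbar (FB (N * q)) k (modularFunctionFieldFullC k N) (Fin 2) :=
  (C.gaussData hq hA HN).model

variable (HN : GoodReductionModular.GaussInput (FB N)
    (modularFunctionFieldFullC (IsLocalRing.ResidueField A) N) (IsLocalRing.residue A))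

/-- A function is integral on a component exactly when its expansion there is Gauss integral. -/
theorem mem_W_iff (i : Fin 2) (φ : FB (N * q)) :
    φ ∈ (C.model hq hA HN).W i ↔ C.emb i φ ∈ gaussRing A := by
  constructor
  · rintro ⟨a, b, hb, h⟩
    exact (gres_of_intSeries hb h).1
  · intro h
    obtain ⟨a, b, hb, e⟩ := exists_intSeries h
    exact ⟨a, b, hb, e⟩

/-- The reduction on a component is the Gauss residue of the expansion there. -/
theorem coe_rd {i : Fin 2} {φ : FB (N * q)} (h : C.emb i φ ∈ gaussRing A) :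
    ((C.model hq hA HN).rd i φ : LaurentSeries k) = gres A (C.emb i φ) := by
  obtain ⟨a, b, hb, e⟩ := exists_intSeries h
  rw [(gres_of_intSeries hb e).2]
  exact (C.gaussData hq hA HN).ρ_rd ⟨a, b, hb, e⟩ hb e

end Conj

end Fermat.Agent.TwoComp
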