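import Fermat.Agent.TwoComp.PoleBounds
import Fermat.Agent.TwoComp.Reductions
import Fermat.Agent.Hecke.Degree
import Fermat.Agent.MazurPoint.PhiShape

/-!
# Pole bounds between the levels `N` and `N * q`

Everything is measured by the poles of `j`. The modular equation bounds the poles of `j(qτ)` and
gives the function used to lift leading parts at the cusps.
-/

set_option autoImplicit false

noncomputable section

open AlgebraicCurve ModularCurve Polynomial Fermat.Agent.GaloisBasics
open Fermat.Agent.FunctionField (IsFunctionField poleDiv degFun)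

namespace Fermat.Agent.TwoComp

variable (N q : ℕ) [NeZero N] [NeZero q]

/-- The poles of `j` at level `M`. -/
def jPoles (M : ℕ) [NeZero M] : Divisor Qbar (FB M) := poleDiv Qbar (jB M)

/-- `j` agrees with the element used for the genus computations. -/
theorem jB_eq_jEl : jB N = ModCurveGenus.jEl N :=
  Subtype.ext <| by
    show jqModC Qbar = coeffEmb Qbar (qExpand ℚ 1 jq)
    rw [CarayolFF.coeffEmb_qExpand_jq, qExpand_one_apply]

theorem transcendental_jB : Transcendental Qbar (jB N) := by
  rw [jB_eq_jEl]; exact ModCurveGenus.jEl_transcendental N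

theorem jB_ne_zero : jB N ≠ 0 := FunctionField.transcendental_ne_zero (transcendental_jB N)

theorem upα_jB : upα N q (jB N) = jB (N * q) := Subtype.ext (coe_heckeAlphaBar _ _ (jB N))

theorem degree_jPoles : Divisor.degree (jPoles N) = dedekindPsi N := by
  rw [jPoles, FunctionField.degree_poleDiv (transcendental_jB N), jB_eq_jEl, degFun,
    Hecke.finrank_jEl]

theorem degree_jPoles_pos : 0 < Divisor.degree (jPoles N) := by
  rw [jPoles, FunctionField.degree_poleDiv (transcendental_jB N)]
  exact_mod_cast FunctionField.degFun_pos (transcendental_jB N)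

theorem degree_jPoles_mul (hq : q.Prime) (hqN : ¬ q ∣ N) :
    Divisor.degree (jPoles (N * q)) = ((q : ℤ) + 1) * Divisor.degree (jPoles N) := by
  rw [degree_jPoles, degree_jPoles, Gamma0Cosets.dedekindPsi_mul
    ((hq.coprime_iff_not_dvd.mpr hqN).symm), show dedekindPsi q = q + 1 from
    MazurPoint.dedekindPsi_prime hq]
  push_cast
  ring

theorem jB_mem_rr : jB N ∈ riemannRochSpace (jPoles N) := self_mem_rr_poleDiv _

theorem upα_mem {m : ℕ} {f : FB N} (hf : f ∈ riemannRochSpace (m • jPoles N)) :
    upα N q f ∈ riemannRochSpace (m • jPoles (N * q)) := by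
  let := algebraAlong (upα N q)
  have := isScalarTower_along (upα N q)
  have : Module.Finite (FB N) (FB (N * q)) := Hecke.finiteAlong_of_isFunctionField (upα N q)
  rw [jPoles, ← upα_jB N q]
  exact algebraMap_mem_rr_poleDiv (F' := FB (N * q)) (jB_ne_zero N) hf

/-- The trace along the inclusion of level `N`. -/
def trAlpha (φ : FB (N * q)) : FB N :=
  letI := algebraAlong (upα N q)
  Algebra.trace (FB N) (FB (N * q)) φ

theorem trAlpha_mem {m : ℕ} {φ : FB (N * q)}
    (hφ : φ ∈ riemannRochSpace (m • jPoles (N * q))) :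
    trAlpha N q φ ∈ riemannRochSpace (m • jPoles N) := by
  let := algebraAlong (upα N q)
  have := isScalarTower_along (upα N q)
  have : Module.Finite (FB N) (FB (N * q)) := Hecke.finiteAlong_of_isFunctionField (upα N q)
  rw [jPoles, ← upα_jB N q] at hφ
  exact trace_mem_rr_poleDiv (F' := FB (N * q)) (jB_ne_zero N) hφ

/-- The coefficients of the modular equation. -/
def phiCoeff (i : ℕ) : Qbar[X] :=
  ((ModularFunctionField.modularPoly q).coeff i).map (Int.castRingHom Qbar)

variable {q}

theorem natDegree_phiCoeff (hq : q.Prime) :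
    (phiCoeff q 0).natDegree ≤ q + 1 ∧
      ∀ i, 1 ≤ i → i ≤ q → (phiCoeff q i).natDegree ≤ q := by
  obtain ⟨h0, -, hmid, -⟩ := MazurPoint.modularPoly_shape (N := q) hq
  exact ⟨natDegree_map_le.trans h0, fun i h1 h2 => natDegree_map_le.trans (hmid i h1 h2)⟩

omit [NeZero N] in
theorem coe_upβ_jB :
    (upβ N q (jB N) : LaurentSeries Qbar) = qExpand Qbar q (jqModC Qbar) :=
  coe_heckeBetaBar _ _ (jB N)

theorem upβ_jB_ne_zero : upβ N q (jB N) ≠ 0 := (_root_.map_ne_zero _).mpr (jB_ne_zero N)

theorem coe_aeval_jB (M : ℕ) (p : Polynomial ℤ) :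
    ((aeval (jB M) (p.map (Int.castRingHom Qbar)) : FB M) : LaurentSeries Qbar) =
      p.eval₂ (Int.castRingHom _) (jqModC Qbar) := by
  rw [show ((aeval (jB M) (p.map (Int.castRingHom Qbar)) : FB M) : LaurentSeries Qbar) =
      aeval ((jB M : FB M) : LaurentSeries Qbar) (p.map (Int.castRingHom Qbar)) from
    (aeval_algHom_apply (FB M).val (jB M) _).symm, aeval_def, eval₂_map]
  congr 1
  exact RingHom.ext_int _ _

omit [NeZero N] in
theorem phi_relation (hq : q.Prime) :
    upβ N q (jB N) ^ (q + 1) +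
      ∑ i ∈ Finset.range (q + 1), aeval (jB (N * q)) (phiCoeff q i) * upβ N q (jB N) ^ i = 0 := by
  have hv := Hecke.modularPoly_vanish (L := Qbar) q
  rw [eval₂_eq_sum_range, MazurPoint.modularPoly_natDegree_prime hq, Finset.sum_range_succ,
    MazurPoint.coeff_modularPoly_succ hq, map_one, one_mul, add_comm] at hv
  apply Subtype.ext
  push_cast
  rw [coe_upβ_jB]
  simp only [phiCoeff, coe_aeval_jB]
  exact hv

omit [NeZero N] in
theorem upβ_jB_le (hq : q.Prime) (v : Place Qbar (FB (N * q))) :
    v.adicValuation (upβ N q (jB N)) ≤ max 1 (v.adicValuation (jB (N * q))) ^ q :=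
  adic_root_le v hq.one_le (phiCoeff q) (natDegree_phiCoeff hq).1 (natDegree_phiCoeff hq).2
    (phi_relation N hq)

/-- Poles bounded by `m` times those of `j(qτ)` are bounded by `q * m` times those of `j`. -/
theorem mem_rr_mul_jPoles (hq : q.Prime) {m : ℕ} {φ : FB (N * q)}
    (hφ : φ ∈ riemannRochSpace (m • poleDiv Qbar (upβ N q (jB N)))) :
    φ ∈ riemannRochSpace ((q * m) • jPoles (N * q)) := by
  rw [mem_rr_poleDiv (upβ_jB_ne_zero N)] at hφ
  rw [jPoles, mem_rr_poleDiv (jB_ne_zero _)]
  intro v
  rw [pow_mul]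
  exact (hφ v).trans (pow_le_pow_left₀ zero_le
    (max_le (one_le_pow₀ (le_max_left _ _)) (upβ_jB_le N hq v)) m)

theorem upβ_mem (hq : q.Prime) {m : ℕ} {f : FB N}
    (hf : f ∈ riemannRochSpace (m • jPoles N)) :
    upβ N q f ∈ riemannRochSpace ((q * m) • jPoles (N * q)) := by
  let := algebraAlong (upβ N q)
  have := isScalarTower_along (upβ N q)
  have : Module.Finite (FB N) (FB (N * q)) := Hecke.finiteAlong_of_isFunctionField (upβ N q)
  exact mem_rr_mul_jPoles N hq
    (algebraMap_mem_rr_poleDiv (F' := FB (N * q)) (jB_ne_zero N) hf)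

theorem upβ_jB_mem (hq : q.Prime) :
    upβ N q (jB N) ∈ riemannRochSpace (q • jPoles (N * q)) := by
  rw [jPoles, mem_rr_poleDiv (jB_ne_zero _)]
  exact upβ_jB_le N hq

/-- The product of the other roots of the modular equation, up to sign. -/
def cuspFun : FB (N * q) := aeval (jB (N * q)) (phiCoeff q 0) / upβ N q (jB N)

theorem cuspFun_mem (hq : q.Prime) {m : ℕ} {f : FB N}
    (hf : f ∈ riemannRochSpace (m • jPoles N)) :
    upβ N q f * cuspFun N ^ m ∈ riemannRochSpace ((m * (q + 1)) • jPoles (N * q)) := by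
  let := algebraAlong (upβ N q)
  have := isScalarTower_along (upβ N q)
  have : Module.Finite (FB N) (FB (N * q)) := Hecke.finiteAlong_of_isFunctionField (upβ N q)
  have h : upβ N q f ∈ riemannRochSpace (m • poleDiv Qbar (upβ N q (jB N))) :=
    algebraMap_mem_rr_poleDiv (F' := FB (N * q)) (jB_ne_zero N) hf
  rw [mem_rr_poleDiv (upβ_jB_ne_zero N)] at h
  rw [jPoles, mem_rr_poleDiv (jB_ne_zero _)]
  intro v
  rw [map_mul, map_pow, mul_comm m (q + 1), pow_mul]
  refine (mul_le_mul_left (h v) _).trans ?_
  rw [← mul_pow, mul_comm (max _ _)]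
  exact pow_le_pow_left₀ zero_le
    (adic_const_div_mul_le v (phiCoeff q) (natDegree_phiCoeff hq).1 (natDegree_phiCoeff hq).2
      (upβ_jB_ne_zero N) (phi_relation N hq)) m

end Fermat.Agent.TwoComp
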