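import Fermat.Agent.TwoComp.Approx
import Fermat.Agent.KummerReduction.Operations

/-!
# Two components exchanged by Frobenius: the reduced functions

`Setting` records what is used of the special fibre of a curve of level `qN` in terms of the curve
of level `N`: reductions on the two components and lifts of the two degeneracy pullbacks and of
the leading parts at the cusps.
-/

set_option autoImplicit false

noncomputable section

open AlgebraicCurve Fermat.Agent.GoodReduction Fermat.Agent.KummerReduction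

namespace Fermat.Agent.TwoComp

variable (K F k G : Type) [Field K] [Field F] [Field k] [Field G] [Algebra K F] [Algebra k G]

/-- The input of the two-component reduction. -/
structure Setting where
  M : Model K F k G (Fin 2)
  horth : M.HasOrth
  gF : ℕ
  cF : ℤ
  RF : RiemannData K F gF cF
  gG : ℕ
  cG : ℤ
  RG : RiemannData k G gG cG
  q : ℕ
  two_le : 2 ≤ q
  H : Divisor K F
  H_nonneg : 0 ≤ H
  Hb : Divisor k G
  deg_pos : 0 < Divisor.degree Hb
  deg_eq : Divisor.degree H = ((q : ℤ) + 1) * Divisor.degree Hb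
  jG : G
  hj : ∀ v : Place k G, Hb v = max (-v.ord jG) 0
  Fr : G →ₐ[k] G
  Fr_pow : ∀ u, ∃ w, Fr u = w ^ q
  Fr_j : Fr jG = jG ^ q
  t : F
  t_mem : t ∈ riemannRochSpace H
  t_W : ∀ i, t ∈ M.W i
  t_rd0 : M.rd 0 t = jG
  t_rd1 : M.rd 1 t = jG ^ q
  t' : F
  t'_mem : t' ∈ riemannRochSpace (q • H)
  t'_W : ∀ i, t' ∈ M.W i
  t'_rd0 : M.rd 0 t' = jG ^ q
  t'_rd1 : M.rd 1 t' = jG
  reg : ∀ (m : ℕ) (φ : F), φ ∈ riemannRochSpace (m • H) → (∀ i, φ ∈ M.W i) →
    M.rd 0 φ ∈ riemannRochSpace (m • Hb) ∧ M.rd 1 φ ∈ riemannRochSpace ((m * q) • Hb)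
  m₁ : ℕ
  liftα : ∀ m, m₁ ≤ m → ∀ u ∈ riemannRochSpace (m • Hb), ∃ φ ∈ riemannRochSpace (m • H),
    (∀ i, φ ∈ M.W i) ∧ M.rd 0 φ = u ∧ M.rd 1 φ = Fr u
  liftβ : ∀ m, m₁ ≤ m → ∀ u ∈ riemannRochSpace (m • Hb),
    ∃ φ ∈ riemannRochSpace ((q * m) • H), (∀ i, φ ∈ M.W i) ∧ M.rd 0 φ = Fr u ∧ M.rd 1 φ = u
  cusp : ∀ m, m₁ ≤ m → ∀ u ∈ riemannRochSpace (m • Hb),
    ∃ φ ∈ riemannRochSpace ((m * (q + 1)) • H), (∀ i, φ ∈ M.W i) ∧
      M.rd 1 φ = u * jG ^ (m * (q * q + q - 1))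

namespace Setting

variable {K F k G} (T : Setting K F k G)

theorem Hb_nonneg : 0 ≤ T.Hb :=
  Finsupp.le_def.mpr fun v => by rw [T.hj]; exact le_max_right _ _

theorem jG_ne : T.jG ≠ 0 := by
  intro h
  have h0 : T.Hb = 0 := Finsupp.ext fun v => by simp [T.hj, h]
  have := T.deg_pos
  simp [h0] at this

theorem jG_mem : T.jG ∈ riemannRochSpace T.Hb :=
  (mem_riemannRochSpace_iff).mpr fun v => Or.inr (by
    have := le_max_left (-v.ord T.jG) 0
    rw [T.hj]; omega)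

theorem pow_mem_L (a : ℕ) : T.jG ^ a ∈ riemannRochSpace (a • T.Hb) := by
  induction a with
  | zero => rw [pow_zero, zero_smul]; exact one_mem_rr le_rfl
  | succ a ih => rw [pow_succ, succ_nsmul]; exact mul_mem_rr ih T.jG_mem

theorem mul_pow_mem_L {m a M : ℕ} {u : G} (hu : u ∈ riemannRochSpace (m • T.Hb))
    (h : m + a ≤ M) : u * T.jG ^ a ∈ riemannRochSpace (M • T.Hb) :=
  rr_mono (nsmul_le_nsmul_left T.Hb_nonneg h) (by
    rw [add_smul]; exact mul_mem_rr hu (T.pow_mem_L a))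

theorem nsmul_degree (m : ℕ) : Divisor.degree (m • T.Hb) = m * Divisor.degree T.Hb := by
  rw [map_nsmul, nsmul_eq_mul]

/-- A multiple of `Hb` of degree beyond the bound. -/
def bound : ℕ := T.cG.toNat + T.m₁

/-- Beyond `bound` the Riemann bound is exceeded. -/
theorem le_degree {m : ℕ} (h : T.bound ≤ m) : T.cG ≤ Divisor.degree (m • T.Hb) := by
  rw [T.nsmul_degree]
  have : (m : ℤ) ≤ m * Divisor.degree T.Hb := le_mul_of_one_le_right (by positivity) T.deg_pos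
  have : T.bound = T.cG.toNat + T.m₁ := rfl
  omega

/-- The reductions of the integral elements of pole order at most `m`. -/
def R (m : ℕ) : Submodule k (Fin 2 → G) :=
  (Datum.one T.M 1).img (riemannRochSpace (m • T.H))

theorem mem_R {m : ℕ} {ψ : Fin 2 → G} :
    ψ ∈ T.R m ↔ ∃ φ ∈ riemannRochSpace (m • T.H), (∀ i, φ ∈ T.M.W i) ∧
      (fun i => T.M.rd i φ) = ψ := by
  simp [R, Datum.mem_img, Datum.InLattice, Datum.psi, Datum.scaled, Datum.one, and_assoc,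
    funext_iff]

theorem R_mono {m m' : ℕ} (h : m ≤ m') : T.R m ≤ T.R m' :=
  Datum.img_mono _ (rr_mono (nsmul_le_nsmul_left T.H_nonneg h))

theorem finite_R (m : ℕ) : Module.Finite k (T.R m) := by
  have := T.RF.finite (m • T.H)
  exact ((Datum.one T.M 1).finrank_img T.horth _).2

theorem finrank_R (m : ℕ) :
    Module.finrank k (T.R m) = Module.finrank K (riemannRochSpace (K := K) (F := F) (m • T.H)) := by
  have := T.RF.finite (m • T.H)
  exact ((Datum.one T.M 1).finrank_img T.horth _).1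

/-- The bound on the poles of the reductions on the components. -/
def HY : Fin 2 → Divisor k G := ![T.Hb, T.q • T.Hb]

theorem HY_zero : T.HY 0 = T.Hb := rfl

theorem HY_one : T.HY 1 = T.q • T.Hb := rfl

/-- All pairs with poles bounded by `m • HY`. -/
def box (m : ℕ) : Submodule k (Fin 2 → G) :=
  Submodule.pi Set.univ fun i => riemannRochSpace (m • T.HY i)

/-- `box m` is the product of the two bounded spaces. -/
theorem mem_box {m : ℕ} {ψ : Fin 2 → G} :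
    ψ ∈ T.box m ↔ ψ 0 ∈ riemannRochSpace (m • T.Hb) ∧
      ψ 1 ∈ riemannRochSpace ((m * T.q) • T.Hb) := by
  simp [box, Submodule.mem_pi, Fin.forall_fin_two, HY, mul_smul]

theorem box_mono {m m' : ℕ} (h : m ≤ m') : T.box m ≤ T.box m' := fun _ hψ => by
  rw [mem_box] at hψ ⊢
  exact ⟨rr_mono (nsmul_le_nsmul_left T.Hb_nonneg h) hψ.1,
    rr_mono (nsmul_le_nsmul_left T.Hb_nonneg (Nat.mul_le_mul_right _ h)) hψ.2⟩

theorem R_le_box (m : ℕ) : T.R m ≤ T.box m := fun ψ hψ => by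
  obtain ⟨φ, hφ, hW, rfl⟩ := T.mem_R.mp hψ
  exact T.mem_box.mpr (T.reg m φ hφ hW)

/-- `box m` as a product of the two spaces. -/
def boxEquiv (m : ℕ) : T.box m ≃ₗ[k]
    (riemannRochSpace (K := k) (F := G) (m • T.Hb) ×
      riemannRochSpace (K := k) (F := G) ((m * T.q) • T.Hb)) where
  toFun ψ := (⟨ψ.1 0, (T.mem_box.mp ψ.2).1⟩, ⟨ψ.1 1, (T.mem_box.mp ψ.2).2⟩)
  invFun p := ⟨![p.1.1, p.2.1], T.mem_box.mpr ⟨p.1.2, p.2.2⟩⟩
  map_add' _ _ := rfl
  map_smul' _ _ := rfl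
  left_inv _ := Subtype.ext (funext (Fin.forall_fin_two.mpr ⟨rfl, rfl⟩))
  right_inv _ := rfl

theorem finite_box (m : ℕ) : Module.Finite k (T.box m) := by
  have := fun D => T.RG.finite D
  exact Module.Finite.equiv (T.boxEquiv m).symm

theorem finrank_box (m : ℕ) :
    Module.finrank k (T.box m) =
      Module.finrank k (riemannRochSpace (K := k) (F := G) (m • T.Hb)) +
        Module.finrank k (riemannRochSpace (K := k) (F := G) ((m * T.q) • T.Hb)) := by
  have := fun D => T.RG.finite D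
  rw [(T.boxEquiv m).finrank_eq, Module.finrank_prod]

/-- From here on all leading parts are reductions and all dimensions are linear in `m`. -/
def m₂ : ℕ := (T.q + 1) * (T.bound + T.q) + T.bound + T.cF.toNat

theorem m₂_le : T.bound ≤ T.m₂ ∧ T.bound + T.q ≤ T.m₂ ∧
    (T.q + 1) * (T.bound + T.q) ≤ T.m₂ ∧ T.cF.toNat ≤ T.m₂ := by
  have := Nat.le_mul_of_pos_left (T.bound + T.q) (show 0 < T.q + 1 by omega)
  unfold m₂
  omega

/-- Every leading part is the leading part of a reduction. -/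
theorem box_le_sup {m : ℕ} (hm : T.m₂ ≤ m) : T.box (m + 1) ≤ T.R (m + 1) ⊔ T.box m := by
  intro ψ hψ
  obtain ⟨h0, h1⟩ := T.mem_box.mp hψ
  obtain ⟨hb, -, hbig, -⟩ := T.m₂_le
  have hq := T.two_le
  -- the second component
  set m' := T.bound + T.q with hm'
  set l := m + 1 - (T.q + 1) * m' with hl
  have hle : (T.q + 1) * m' ≤ m := hbig.trans hm
  have hqq : T.q ≤ T.q * T.q := Nat.le_mul_self _
  have hqm : m' + m' ≤ m := le_trans (by nlinarith) hle
  obtain ⟨A, hA⟩ : ∃ A, A = m' * (T.q * T.q + T.q - 1) + T.q * l := ⟨_, rfl⟩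
  have hdeg : m' + A = (m + 1) * T.q := by
    have hm1 : m + 1 = (T.q + 1) * m' + l := by omega
    have h2 : T.q * T.q + T.q - 1 + 1 = T.q * T.q + T.q := by omega
    calc m' + A = m' * (T.q * T.q + T.q - 1 + 1) + T.q * l := by rw [hA]; ring
      _ = (m + 1) * T.q := by rw [h2, hm1]; ring
  rw [← hdeg] at h1
  obtain ⟨v, hv, hrest⟩ := exists_top T.RG T.Hb_nonneg T.jG_ne T.hj (a := A) (r := T.q) (s := m')
    (by omega) (T.le_degree (by omega)) h1
  obtain ⟨φ, hφ, hφW, hφ1⟩ := T.cusp m' (by unfold bound at *; omega) v hv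
  have hφt : φ * T.t ^ l ∈ riemannRochSpace ((m + 1) • T.H) := by
    rw [show m + 1 = m' * (T.q + 1) + l by rw [mul_comm]; omega, add_smul]
    refine mul_mem_rr hφ ?_
    clear_value l
    clear hl hdeg hrest h1 hA
    induction l with
    | zero => rw [pow_zero, zero_smul]; exact one_mem_rr le_rfl
    | succ l ih => rw [pow_succ, succ_nsmul]; exact mul_mem_rr ih T.t_mem
  have hφtW : ∀ i, φ * T.t ^ l ∈ T.M.W i := fun i => mul_mem (hφW i) (pow_mem (T.t_W i) l)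
  have hφtR : (fun i => T.M.rd i (φ * T.t ^ l)) ∈ T.R (m + 1) :=
    T.mem_R.mpr ⟨_, hφt, hφtW, rfl⟩
  have hφt1 : T.M.rd 1 (φ * T.t ^ l) = v * T.jG ^ A := by
    rw [T.M.rd_mul (hφW 1) (pow_mem (T.t_W 1) l), T.M.rd_pow (T.t_W 1), hφ1, T.t_rd1, ← pow_mul,
      mul_assoc, ← pow_add, hA]
  set χ : Fin 2 → G := ψ - fun i => T.M.rd i (φ * T.t ^ l) with hχ
  have hχbox := T.mem_box.mp (Submodule.sub_mem _ hψ (T.R_le_box _ hφtR))
  have hχ1 : χ 1 ∈ riemannRochSpace ((m * T.q) • T.Hb) := by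
    show ψ 1 - T.M.rd 1 (φ * T.t ^ l) ∈ _
    rw [hφt1]
    refine rr_mono (nsmul_le_nsmul_left T.Hb_nonneg ?_) hrest
    rw [hdeg, add_mul, one_mul]
    omega
  -- the first component
  have hχ0 : χ 0 ∈ riemannRochSpace (((m + 1 - T.q) + T.q) • T.Hb) := by
    rw [Nat.sub_add_cancel (by omega)]
    exact hχbox.1
  obtain ⟨u, hu, hrest0⟩ := exists_top T.RG T.Hb_nonneg T.jG_ne T.hj (a := T.q) (r := 1)
    (s := m + 1 - T.q) (by omega) (T.le_degree (by omega)) hχ0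
  obtain ⟨φ₀, hφ₀, hφ₀W, hφ₀0, hφ₀1⟩ := T.liftα _ (by unfold bound at *; omega) u hu
  have hmem : φ₀ * T.t' ∈ riemannRochSpace ((m + 1) • T.H) := by
    rw [show m + 1 = (m + 1 - T.q) + T.q by
      rw [Nat.sub_add_cancel]; omega, add_smul]
    exact mul_mem_rr hφ₀ T.t'_mem
  have hmemW : ∀ i, φ₀ * T.t' ∈ T.M.W i := fun i => mul_mem (hφ₀W i) (T.t'_W i)
  have hR0 : (fun i => T.M.rd i (φ₀ * T.t')) ∈ T.R (m + 1) := T.mem_R.mpr ⟨_, hmem, hmemW, rfl⟩
  have hbox : χ - (fun i => T.M.rd i (φ₀ * T.t')) ∈ T.box m := by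
    refine T.mem_box.mpr ⟨?_, ?_⟩
    · show χ 0 - T.M.rd 0 (φ₀ * T.t') ∈ _
      rw [T.M.rd_mul (hφ₀W 0) (T.t'_W 0), hφ₀0, T.t'_rd0]
      refine rr_mono (nsmul_le_nsmul_left T.Hb_nonneg ?_) hrest0
      omega
    · show χ 1 - T.M.rd 1 (φ₀ * T.t') ∈ _
      rw [T.M.rd_mul (hφ₀W 1) (T.t'_W 1), T.t'_rd1]
      refine Submodule.sub_mem _ hχ1 ?_
      have hFr := (T.reg _ φ₀ hφ₀ hφ₀W).2
      rw [show T.jG = T.jG ^ 1 from (pow_one _).symm]
      refine T.mul_pow_mem_L hFr ?_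
      have h3 : (m + 1 - T.q) + T.q = m + 1 := Nat.sub_add_cancel (by omega)
      nlinarith
  refine Submodule.mem_sup.mpr ⟨(fun i => T.M.rd i (φ * T.t ^ l)) +
    fun i => T.M.rd i (φ₀ * T.t'), add_mem hφtR hR0,
    χ - fun i => T.M.rd i (φ₀ * T.t'), hbox, by rw [hχ]; abel⟩

/-- Reductions of pole order `m` are exactly the reductions with poles bounded by `m • HY`. -/
theorem R_succ_inf_box {m : ℕ} (hm : T.m₂ ≤ m) : T.R (m + 1) ⊓ T.box m = T.R m := by
  have := T.finite_R m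
  have := T.finite_R (m + 1)
  have := T.finite_box m
  have := T.finite_box (m + 1)
  symm
  refine Submodule.eq_of_le_of_finrank_eq (le_inf (T.R_mono m.le_succ) (T.R_le_box m)) ?_
  have hsup : T.R (m + 1) ⊔ T.box m = T.box (m + 1) :=
    le_antisymm (sup_le (T.R_le_box _) (T.box_mono m.le_succ)) (T.box_le_sup hm)
  have h := Submodule.finrank_sup_add_finrank_inf_eq (T.R (m + 1)) (T.box m)
  rw [hsup, finrank_box, finrank_box, finrank_R] at h
  rw [finrank_R]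
  obtain ⟨hb, -, -, hcF⟩ := T.m₂_le
  have hq := T.two_le
  have hF : ∀ t, m ≤ t → T.cF ≤ Divisor.degree (t • T.H) := fun t ht => by
    rw [map_nsmul, nsmul_eq_mul, T.deg_eq]
    have h1 : (1 : ℤ) ≤ ((T.q : ℤ) + 1) * Divisor.degree T.Hb := by
      have := T.deg_pos
      nlinarith
    have : (t : ℤ) ≤ t * (((T.q : ℤ) + 1) * Divisor.degree T.Hb) :=
      le_mul_of_one_le_right (by positivity) h1
    omega
  have hmq : m ≤ m * T.q := Nat.le_mul_of_pos_right m (by omega)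
  have e1 := T.RF.exact' _ (hF m le_rfl)
  have e2 := T.RF.exact' _ (hF (m + 1) m.le_succ)
  have e3 := T.RG.exact' _ (T.le_degree (show T.bound ≤ m by omega))
  have e4 := T.RG.exact' _ (T.le_degree (show T.bound ≤ m + 1 by omega))
  have e5 := T.RG.exact' _ (T.le_degree (show T.bound ≤ m * T.q by omega))
  have e6 := T.RG.exact' _ (T.le_degree (show T.bound ≤ (m + 1) * T.q by nlinarith))
  simp only [map_nsmul, nsmul_eq_mul, T.deg_eq] at e1 e2 e3 e4 e5 e6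
  have h' := congrArg (fun x : ℕ => (x : ℤ)) h
  push_cast at h' e1 e2 e3 e4 e5 e6
  have : (Module.finrank K (riemannRochSpace (K := K) (F := F) (m • T.H)) : ℤ) =
      Module.finrank k (↥(T.R (m + 1) ⊓ T.box m)) := by linarith
  exact_mod_cast this

theorem R_inf_box {m M : ℕ} (hm : T.m₂ ≤ m) (hM : m ≤ M) : T.R M ⊓ T.box m = T.R m := by
  induction hM with
  | refl => exact inf_eq_left.mpr (T.R_le_box m)
  | @step M hM ih =>
    rw [← inf_eq_right.mpr (T.box_mono hM), ← inf_assoc,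
      show T.R (M + 1) ⊓ T.box M = T.R M from T.R_succ_inf_box (hm.trans hM), ih]

/-- A pair which is a reduction of some pole order. -/
def InR (ψ : Fin 2 → G) : Prop := ∃ m, ψ ∈ T.R m

theorem mem_R_of_InR {m : ℕ} (hm : T.m₂ ≤ m) {ψ : Fin 2 → G} (h : T.InR ψ) (hb : ψ ∈ T.box m) :
    ψ ∈ T.R m := by
  obtain ⟨M, hM⟩ := h
  rw [← T.R_inf_box hm (le_max_left m M)]
  exact ⟨T.R_mono (le_max_right m M) hM, hb⟩

/-- Reduced pairs are closed under addition. -/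
theorem InR.add {T : Setting K F k G} {ψ χ : Fin 2 → G} (hψ : T.InR ψ) (hχ : T.InR χ) :
    T.InR (ψ + χ) := by
  obtain ⟨m, hm⟩ := hψ
  obtain ⟨m', hm'⟩ := hχ
  exact ⟨max m m', add_mem (T.R_mono (le_max_left m m') hm) (T.R_mono (le_max_right m m') hm')⟩

/-- Reduced pairs are closed under subtraction. -/
theorem InR.sub {T : Setting K F k G} {ψ χ : Fin 2 → G} (hψ : T.InR ψ) (hχ : T.InR χ) :
    T.InR (ψ - χ) := by
  obtain ⟨m, hm⟩ := hψ
  obtain ⟨m', hm'⟩ := hχ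
  exact ⟨max m m', sub_mem (T.R_mono (le_max_left m m') hm) (T.R_mono (le_max_right m m') hm')⟩

/-- Reduced pairs are closed under multiplication. -/
theorem InR.mul {T : Setting K F k G} {ψ χ : Fin 2 → G} (hψ : T.InR ψ) (hχ : T.InR χ) :
    T.InR (ψ * χ) := by
  obtain ⟨m, hm⟩ := hψ
  obtain ⟨m', hm'⟩ := hχ
  obtain ⟨φ, hφ, hW, rfl⟩ := T.mem_R.mp hm
  obtain ⟨φ', hφ', hW', rfl⟩ := T.mem_R.mp hm'
  refine ⟨m + m', T.mem_R.mpr ⟨φ * φ', by rw [add_smul]; exact mul_mem_rr hφ hφ',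
    fun i => mul_mem (hW i) (hW' i), funext fun i => T.M.rd_mul (hW i) (hW' i)⟩⟩

theorem inR_zero : T.InR 0 := ⟨0, zero_mem _⟩

theorem Fr_affine {u : G} (hu : u ∈ affine T.Hb) : T.Fr u ∈ affine T.Hb := by
  obtain ⟨m₀, hm₀⟩ := exists_mem_L T.Hb_nonneg T.RG hu
  obtain ⟨φ, hφ, hW, -, h1⟩ := T.liftα (max m₀ T.m₁) (le_max_right _ _) u (hm₀ _ (le_max_left _ _))
  exact h1 ▸ mem_affine_of_mem (T.reg _ φ hφ hW).2

theorem inR_alpha {u : G} (hu : u ∈ affine T.Hb) : T.InR ![u, T.Fr u] := by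
  obtain ⟨m₀, hm₀⟩ := exists_mem_L T.Hb_nonneg T.RG hu
  obtain ⟨φ, hφ, hW, h0, h1⟩ := T.liftα (max m₀ T.m₁) (le_max_right _ _) u
    (hm₀ _ (le_max_left _ _))
  exact ⟨_, T.mem_R.mpr ⟨φ, hφ, hW, funext (Fin.forall_fin_two.mpr ⟨h0, h1⟩)⟩⟩

theorem inR_beta {u : G} (hu : u ∈ affine T.Hb) : T.InR ![T.Fr u, u] := by
  obtain ⟨m₀, hm₀⟩ := exists_mem_L T.Hb_nonneg T.RG hu
  obtain ⟨φ, hφ, hW, h0, h1⟩ := T.liftβ (max m₀ T.m₁) (le_max_right _ _) u
    (hm₀ _ (le_max_left _ _))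
  exact ⟨_, T.mem_R.mpr ⟨φ, hφ, hW, funext (Fin.forall_fin_two.mpr ⟨h0, h1⟩)⟩⟩

/-- Both entries of a reduced pair are regular off the support of `Hb`. -/
theorem InR.affine {T : Setting K F k G} {ψ : Fin 2 → G} (h : T.InR ψ) (i : Fin 2) :
    ψ i ∈ TwoComp.affine T.Hb := by
  obtain ⟨m, hm⟩ := h
  obtain ⟨h0, h1⟩ := T.mem_box.mp (T.R_le_box m hm)
  revert i
  exact Fin.forall_fin_two.mpr ⟨mem_affine_of_mem h0, mem_affine_of_mem h1⟩

end Setting

end Fermat.Agent.TwoComp
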