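import Fermat.Agent.TwoComp.LevelFrobenius
import Fermat.Agent.TwoComp.LevelBounds
import Fermat.Agent.TwoComp.CuspResidue
import Fermat.Agent.TwoComp.Setting
import Fermat.Agent.GoodReduction.FromFunctionField

/-!
# The two-component setting of level `N * q`

It is built from a good model at level `N` and the involution exchanging the degeneracy maps.
-/

set_option autoImplicit false

noncomputable section

open AlgebraicCurve ModularCurve Polynomial Fermat.Agent.GaloisBasics Fermat.Agent.CarayolFF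
open Fermat.Agent.GoodReduction (GoodModel LSpace RiemannData)
open Fermat.Agent.GoodReductionModular (GaussInput gaussReduction)
open Fermat.Agent.FunctionField (IsFunctionField poleDiv)

namespace Fermat.Agent.TwoComp

variable {N q : ℕ} [NeZero N] [NeZero q]

/-- The polar divisor records the negative parts of the orders. -/
theorem poleDiv_apply {K F : Type*} [Field K] [Field F] [Algebra K F] [IsFunctionField K F]
    (x : F) (v : Place K F) : poleDiv K x v = max (-v.ord x) 0 := by
  simp [poleDiv, Finsupp.sup_apply]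

/-- Spaces cut out by the poles of a function are carried along a map of function fields. -/
theorem map_mem_rr_poleDiv {K F F' : Type*} [Field K] [Field F] [Field F'] [Algebra K F]
    [Algebra K F'] [IsFunctionField K F] [IsFunctionField K F'] (φ : F →ₐ[K] F') {x f : F}
    (hx : x ≠ 0) {m : ℕ} (hf : f ∈ riemannRochSpace (m • poleDiv K x)) :
    φ f ∈ riemannRochSpace (m • poleDiv K (φ x)) := by
  let := algebraAlong φ
  have := isScalarTower_along φ
  have : Module.Finite F F' := Hecke.finiteAlong_of_isFunctionField φ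
  exact algebraMap_mem_rr_poleDiv (F' := F') hx hf

omit [NeZero q] in
/-- An integer prime to `q` is nonzero in the residue field. -/
theorem natCast_residue_ne_zero {A : ValuationSubring Qbar} (hq : q.Prime)
    (hA : A.LiesOverPrime q) {n : ℕ} (hn : n.Coprime q) :
    (n : IsLocalRing.ResidueField A) ≠ 0 := by
  have := residueField_charP hA hq
  rw [Ne, CharP.cast_eq_zero_iff _ q]
  exact hq.coprime_iff_not_dvd.mp hn.symm

namespace Conj

/- Shortcuts, found once instead of at every use. -/
local instance (priority := high) algResidueSetting {κ : Type} [Field κ] (M : ℕ) :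
    Algebra κ (modularFunctionFieldFullC κ M) := inferInstance

local instance (priority := high) algLevelSetting (M : ℕ) : Algebra Qbar (FB M) := inferInstance

-- Declared before the variables, which every command would elaborate again.
set_option hygiene false in set_option quotPrecheck false in
local notation "k" => IsLocalRing.ResidueField A

variable (C : Conj N q)

theorem w_mem (hq : q.Prime) {m : ℕ} {f : FB (N * q)}
    (hf : f ∈ riemannRochSpace (m • jPoles (N * q))) :
    C.w f ∈ riemannRochSpace ((q * m) • jPoles (N * q)) := by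
  have h : C.w f ∈ riemannRochSpace (m • poleDiv Qbar (C.w (jB (N * q)))) :=
    map_mem_rr_poleDiv C.w.toAlgHom (jB_ne_zero _) hf
  rw [← upα_jB N q, C.w_alpha] at h
  exact mem_rr_mul_jPoles N hq h

variable {A : ValuationSubring Qbar} (hq : q.Prime) (hA : A.LiesOverPrime q)
  (HN : GaussInput (FB N) (modularFunctionFieldFullC (IsLocalRing.ResidueField A) N)
    (IsLocalRing.residue A))

theorem rd_of_emb {i : Fin 2} {φ : FB (N * q)} {u : modularFunctionFieldFullC k N}
    (h : C.emb i φ ∈ gaussRing A ∧ gres A (C.emb i φ) = (u : LaurentSeries k)) :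
    φ ∈ (C.model hq hA HN).W i ∧ (C.model hq hA HN).rd i φ = u :=
  ⟨(C.mem_W_iff hq hA HN i φ).mpr h.1, Subtype.ext ((C.coe_rd hq hA HN h.1).trans h.2)⟩

theorem emb_alpha {f : FB N} (h : (f : LaurentSeries Qbar) ∈ gaussRing A) :
    (C.emb 0 (upα N q f) ∈ gaussRing A ∧
        gres A (C.emb 0 (upα N q f)) = gres A (f : LaurentSeries Qbar)) ∧
      (C.emb 1 (upα N q f) ∈ gaussRing A ∧
        gres A (C.emb 1 (upα N q f)) = qExpand k q (gres A (f : LaurentSeries Qbar))) := by
  rw [C.emb_zero, C.emb_one, C.w_alpha, coe_heckeAlphaBar, coe_heckeBetaBar]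
  exact ⟨⟨h, rfl⟩, gres_qExpand q h⟩

theorem emb_beta {f : FB N} (h : (f : LaurentSeries Qbar) ∈ gaussRing A) :
    (C.emb 0 (upβ N q f) ∈ gaussRing A ∧
        gres A (C.emb 0 (upβ N q f)) = qExpand k q (gres A (f : LaurentSeries Qbar))) ∧
      (C.emb 1 (upβ N q f) ∈ gaussRing A ∧
        gres A (C.emb 1 (upβ N q f)) = gres A (f : LaurentSeries Qbar)) := by
  rw [C.emb_zero, C.emb_one, C.w_beta, coe_heckeAlphaBar, coe_heckeBetaBar]
  exact ⟨gres_qExpand q h, h, rfl⟩

/-- The two reductions of `α f` are the reduction of `f` and its Frobenius. -/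
theorem rd_alpha {f : FB N} (h : (f : LaurentSeries Qbar) ∈ gaussRing A)
    {u : modularFunctionFieldFullC k N}
    (hu : gres A (f : LaurentSeries Qbar) = (u : LaurentSeries k)) :
    (upα N q f ∈ (C.model hq hA HN).W 0 ∧ (C.model hq hA HN).rd 0 (upα N q f) = u) ∧
      (upα N q f ∈ (C.model hq hA HN).W 1 ∧
        (C.model hq hA HN).rd 1 (upα N q f) = frobG N hq hA u) :=
  ⟨C.rd_of_emb hq hA HN ⟨(C.emb_alpha h).1.1, (C.emb_alpha h).1.2.trans hu⟩,
    C.rd_of_emb hq hA HN ⟨(C.emb_alpha h).2.1, (C.emb_alpha h).2.2.trans (congrArg _ hu)⟩⟩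

/-- The two reductions of `β f` are the Frobenius of the reduction of `f` and the reduction. -/
theorem rd_beta {f : FB N} (h : (f : LaurentSeries Qbar) ∈ gaussRing A)
    {u : modularFunctionFieldFullC k N}
    (hu : gres A (f : LaurentSeries Qbar) = (u : LaurentSeries k)) :
    (upβ N q f ∈ (C.model hq hA HN).W 0 ∧
        (C.model hq hA HN).rd 0 (upβ N q f) = frobG N hq hA u) ∧
      (upβ N q f ∈ (C.model hq hA HN).W 1 ∧ (C.model hq hA HN).rd 1 (upβ N q f) = u) :=
  ⟨C.rd_of_emb hq hA HN ⟨(C.emb_beta h).1.1, (C.emb_beta h).1.2.trans (congrArg _ hu)⟩,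
    C.rd_of_emb hq hA HN ⟨(C.emb_beta h).2.1, (C.emb_beta h).2.2.trans hu⟩⟩

omit [NeZero N] in
theorem jB_residue : (jB N : LaurentSeries Qbar) ∈ gaussRing A ∧
    gres A (jB N : LaurentSeries Qbar) = jqModC k := gres_jqModC

variable {g : ℕ} {c : ℤ} {Hd : Divisor Qbar (FB N)}
  {Hb : Divisor (IsLocalRing.ResidueField A)
    (modularFunctionFieldFullC (IsLocalRing.ResidueField A) N)}
  (Gm : GoodModel (gaussReduction HN) g c Hd Hb)

omit [NeZero q] in
include hq hA Gm in
/-- A good model carries the poles of `j` to the poles of its reduction. -/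
theorem jPoles_divMap (hqN : ¬ q ∣ N) : Gm.divMap (jPoles N) = poleDiv k (jR k N) := by
  have hN : (N : k) ≠ 0 :=
    natCast_residue_ne_zero hq hA (hq.coprime_iff_not_dvd.mpr hqN).symm
  have hy : GoodReductionModular.liftK A (jqModC A) = jqModC Qbar :=
    ModularFunctionField.coeffMap_jqC _
  have hmem : jB N ∈ (gaussReduction HN).V :=
    ⟨jqModC A, 1, by rw [hy]; exact jqModC_mem_FB N, by rw [map_one]; exact one_mem _,
      by rw [map_one]; exact one_ne_zero, by rw [map_one, mul_one, hy]; rfl⟩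
  have hres : (gaussReduction HN).res ⟨jB N, hmem⟩ = jR k N := Subtype.ext (by
    rw [GoodReductionModular.gaussReduction_res_eq HN ⟨jB N, hmem⟩ (y₁ := jqModC A) (y₂ := 1)
      (by simp) (by rw [map_one, mul_one, hy]; rfl), map_one, div_one,
      ModularFunctionField.coeffMap_jqC]
    rfl)
  have hne : jR k N ≠ 0 := FunctionField.transcendental_ne_zero (transcendental_jR k N)
  have h := divMap_poleDiv Gm (x := ⟨jB N, hmem⟩) (by rw [hres]; exact hne)
    (by rw [hres, degree_poleDiv_jR hN]; exact (degree_jPoles N).symm)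
  rw [hres] at h
  exact h

omit [NeZero q] in
include hq hA Gm in
/-- A good model preserves the spaces cut out by the poles of `j`. -/
theorem resSpace_jPoles (hqN : ¬ q ∣ N) {m : ℕ} (hm : c ≤ m * Divisor.degree (jPoles N)) :
    (gaussReduction HN).resSpace (LSpace (m • jPoles N)) =
      LSpace (m • poleDiv k (jR k N)) := by
  rw [resSpace_eq_of_divMap Gm (by rw [map_nsmul, nsmul_eq_mul]; exact hm), map_nsmul,
    jPoles_divMap hq hA HN Gm hqN]

omit [NeZero N] in
include HN in
theorem gaussInt_of_mem {f : FB N} (h : (f : LaurentSeries Qbar) ∈ gaussRing A) :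
    GoodReductionModular.IsGaussInt (FB N) (IsLocalRing.residue A) (f : LaurentSeries Qbar) := by
  rcases GoodReductionModular.isGaussInt_or_inv HN f with hV | ⟨y₁, y₂, h1, h2, h3, e⟩
  · exact hV
  rcases eq_or_ne f 0 with rfl | hf0
  · exact ⟨0, 1, by rw [map_zero]; exact zero_mem _, by rw [map_one]; exact one_mem _,
      by rw [map_one]; exact one_ne_zero, by simp⟩
  have hne : (f : LaurentSeries Qbar) ≠ 0 := fun h0 => hf0 (Subtype.ext h0)
  have e' : (f : LaurentSeries Qbar) * intIncl A y₁ = intIncl A y₂ := by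
    show _ * GoodReductionModular.liftK A y₁ = GoodReductionModular.liftK A y₂
    rw [← e, IntermediateField.coe_inv, mul_inv_cancel_left₀ hne]
  refine ⟨y₂, y₁, h2, h1, fun h0 => h3 ?_, e'⟩
  have := gres_mul h (intIncl_mem A y₁)
  rw [e', gres_of_mem (intIncl_mem A y₁), gaussRes_intIncl, show intRed A y₁ = 0 from h0, mul_zero,
    gres_of_mem (intIncl_mem A y₂), gaussRes_intIncl] at this
  exact this

omit [NeZero N] in
theorem coe_res_gauss (x : (gaussReduction HN).V) :
    ((x : FB N) : LaurentSeries Qbar) ∈ gaussRing A ∧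
      gres A ((x : FB N) : LaurentSeries Qbar) =
        ((gaussReduction HN).res x : LaurentSeries k) := by
  obtain ⟨y₁, y₂, -, -, h3, e⟩ := GoodReductionModular.exists_gaussReduction_quotient HN x
  obtain ⟨h, he⟩ := gres_eq h3 e
  exact ⟨h, he.trans (GoodReductionModular.gaussReduction_res_eq HN x h3 e).symm⟩

omit [NeZero q] in
include hq hA Gm in
/-- Residues of `L(m (j)_∞)` have poles bounded by `m (j̄)_∞`. -/
theorem gres_mem_rr (hqN : ¬ q ∣ N) {m : ℕ} {f : FB N}
    (hf : f ∈ riemannRochSpace (m • jPoles N)) (h : (f : LaurentSeries Qbar) ∈ gaussRing A)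
    (u : modularFunctionFieldFullC k N) (hu : gres A (f : LaurentSeries Qbar) = u) :
    u ∈ riemannRochSpace (m • poleDiv k (jR k N)) := by
  let x : (gaussReduction HN).V := ⟨f, gaussInt_of_mem HN h⟩
  have hr : (gaussReduction HN).res x = u :=
    Subtype.ext ((coe_res_gauss HN x).2.symm.trans hu)
  have hmem := Gm.res_mem_LSpace (x := x) (X := m • jPoles N) hf
  rwa [hr, map_nsmul, jPoles_divMap hq hA HN Gm hqN] at hmem

omit [NeZero q] in
include hq hA Gm in
/-- Lifts of the spaces cut out by the poles of `j̄`. -/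
theorem exists_lift (hqN : ¬ q ∣ N) {m : ℕ} (hm : c.toNat ≤ m)
    {u : modularFunctionFieldFullC k N} (hu : u ∈ riemannRochSpace (m • poleDiv k (jR k N))) :
    ∃ f ∈ riemannRochSpace (m • jPoles N), (f : LaurentSeries Qbar) ∈ gaussRing A ∧
      gres A (f : LaurentSeries Qbar) = (u : LaurentSeries k) := by
  have hc : c ≤ m * Divisor.degree (jPoles N) := by
    have h1 : (m : ℤ) ≤ m * Divisor.degree (jPoles N) :=
      le_mul_of_one_le_right (by positivity) (degree_jPoles_pos N)
    omega
  have h := resSpace_jPoles hq hA HN Gm hqN hc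
  obtain ⟨x, hx, rfl⟩ := (gaussReduction HN).exists_of_mem_resSpace
    (W := LSpace (m • jPoles N)) (by rw [h]; exact hu)
  exact ⟨x, hx, coe_res_gauss HN x⟩

theorem emb_cusp (hq : q.Prime) (hA : A.LiesOverPrime q) :
    (C.emb 0 (cuspFun N (q := q)) ∈ gaussRing A) ∧
      (C.emb 1 (cuspFun N (q := q)) ∈ gaussRing A ∧
        gres A (C.emb 1 (cuspFun N (q := q))) = (-1) ^ (q + 1) * jqModC k ^ (q * q + q - 1)) := by
  have hb := gres_jd (A := A) q
  have hj := gres_jqModC (A := A)
  have htr : jqModC k ≠ 0 := fun h => ToricChar.jqModC_transcendental k (h ▸ isAlgebraic_zero)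
  have hinv : ∀ {x : LaurentSeries Qbar} (hx : x ∈ gaussRing A), gres A x ≠ 0 →
      x⁻¹ ∈ gaussRing A ∧ gres A x⁻¹ = (gres A x)⁻¹ := by
    intro x hx h0
    have hu : IsGaussUnit A x := ⟨hx, by rw [← gres_of_mem hx]; exact h0⟩
    refine ⟨hu.inv.mem, eq_inv_of_mul_eq_one_right ?_⟩
    rw [← gres_mul hx hu.inv.mem, mul_inv_cancel₀ hu.ne_zero, gres_one]
  refine ⟨?_, ?_⟩
  · -- at infinity the constant term is a polynomial in `j`
    rw [C.emb_zero, cuspFun, IntermediateField.coe_div, coe_upβ_jB, phiCoeff, coe_aeval_jB,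
      div_eq_mul_inv]
    refine mul_mem ?_ (hinv hb.1 ?_).1
    · induction ((ModularFunctionField.modularPoly q).coeff 0) using Polynomial.induction_on' with
      | add a b ha hb => rw [Polynomial.eval₂_add]; exact add_mem ha hb
      | monomial i a =>
        rw [Polynomial.eval₂_monomial]
        exact mul_mem (intCast_mem _ a) (pow_mem hj.1 i)
    · rw [hb.2]
      exact (_root_.map_ne_zero _).mpr htr
  · have hkey : (C.emb 1 (cuspFun N (q := q))) =
        ((ModularFunctionField.modularPoly q).coeff 0).eval₂ (Int.castRingHom _)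
          (qExpand Qbar q (jqModC Qbar)) / jqModC Qbar := by
      rw [C.emb_one, cuspFun, map_div₀, C.w_beta, ← upα_jB N q, IntermediateField.coe_div,
        coe_alpha_j, phiCoeff]
      congr 1
      have e : C.w (aeval (upα N q (jB N))
          (((ModularFunctionField.modularPoly q).coeff 0).map (Int.castRingHom Qbar))) =
          upβ N q (aeval (jB N)
            (((ModularFunctionField.modularPoly q).coeff 0).map (Int.castRingHom Qbar))) := by
        rw [Polynomial.aeval_algHom_apply, C.w_alpha]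
      rw [e, coe_heckeBetaBar, coe_aeval_jB, Polynomial.hom_eval₂]
      congr 1
      exact RingHom.ext_int _ _
    obtain ⟨hc0, hce⟩ := gres_phiConst hq hA
    obtain ⟨hi, hie⟩ := hinv hj.1 (by rw [hj.2]; exact htr)
    rw [hkey, div_eq_mul_inv]
    refine ⟨mul_mem hc0 hi, ?_⟩
    rw [gres_mul hc0 hi, hce, hie, hj.2, mul_assoc]
    congr 1
    rw [← div_eq_mul_inv, div_eq_iff htr, ← pow_succ]
    congr 1
    have := hq.pos
    omega

variable (N) in
/-- The data that the trace respects the pole bounds. -/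
def TrBound (C : Conj N q) : Prop :=
  ∀ (m : ℕ) (φ : FB (N * q)), φ ∈ riemannRochSpace (m • jPoles (N * q)) →
    C.tr φ ∈ riemannRochSpace (m • jPoles N)

include hq hA Gm in
theorem rd_mem_rr (hqN : ¬ q ∣ N) (htr : TrBound N C) {m : ℕ} {φ : FB (N * q)}
    (hφ : φ ∈ riemannRochSpace (m • jPoles (N * q)))
    (h0 : (φ : LaurentSeries Qbar) ∈ gaussRing A)
    (h1 : (C.w φ : LaurentSeries Qbar) ∈ gaussRing A)
    (u : modularFunctionFieldFullC k N)
    (hu : (u : LaurentSeries k) = gres A (φ : LaurentSeries Qbar)) :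
    u ∈ riemannRochSpace (m • poleDiv k (jR k N)) := by
  obtain ⟨ht, hte⟩ := C.gres_tr hq hA h0 h1
  exact gres_mem_rr hq hA HN Gm hqN (htr m φ hφ) ht u (hte.trans hu.symm)

/-- The setting of level `N * q`. -/
def setting (hqN : ¬ q ∣ N) (htr : TrBound N C) :
    Setting Qbar (FB (N * q)) k (modularFunctionFieldFullC k N) where
  M := C.model hq hA HN
  horth := (C.gaussData hq hA HN).hasOrth
  gF := genusFF Qbar (FB (N * q))
  cF := (GoodReduction.exists_riemannData (K := Qbar) (F := FB (N * q))).choose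
  RF := (GoodReduction.exists_riemannData (K := Qbar) (F := FB (N * q))).choose_spec _ le_rfl
  gG := g
  cG := c
  RG := Gm.riemann'
  q := q
  two_le := hq.two_le
  H := jPoles (N * q)
  H_nonneg := FunctionField.poleDiv_nonneg _
  Hb := poleDiv k (jR k N)
  deg_pos := by
    rw [FunctionField.degree_poleDiv (transcendental_jR k N)]
    exact_mod_cast FunctionField.degFun_pos (transcendental_jR k N)
  deg_eq := by
    rw [degree_jPoles_mul N q hq hqN, degree_jPoles,
      degree_poleDiv_jR (natCast_residue_ne_zero hq hA (hq.coprime_iff_not_dvd.mpr hqN).symm)]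
  jG := jR k N
  hj := poleDiv_apply _
  Fr := frobG N hq hA
  Fr_pow := frobG_pow hq hA
  Fr_j := frobG_jR hq hA
  t := upα N q (jB N)
  t_mem := upα_jB N q ▸ jB_mem_rr (N * q)
  t_W := Fin.forall_fin_two.mpr
    ⟨(C.rd_alpha hq hA HN jB_residue.1 (u := jR k N) jB_residue.2).1.1,
      (C.rd_alpha hq hA HN jB_residue.1 (u := jR k N) jB_residue.2).2.1⟩
  t_rd0 := (C.rd_alpha hq hA HN jB_residue.1 jB_residue.2).1.2
  t_rd1 := (C.rd_alpha hq hA HN jB_residue.1 (u := jR k N) jB_residue.2).2.2.trans
    (frobG_jR hq hA)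
  t' := upβ N q (jB N)
  t'_mem := upβ_jB_mem N hq
  t'_W := Fin.forall_fin_two.mpr
    ⟨(C.rd_beta hq hA HN jB_residue.1 (u := jR k N) jB_residue.2).1.1,
      (C.rd_beta hq hA HN jB_residue.1 (u := jR k N) jB_residue.2).2.1⟩
  t'_rd0 := (C.rd_beta hq hA HN jB_residue.1 (u := jR k N) jB_residue.2).1.2.trans
    (frobG_jR hq hA)
  t'_rd1 := (C.rd_beta hq hA HN jB_residue.1 jB_residue.2).2.2
  reg m φ hφ hW := by
    have h0 : (φ : LaurentSeries Qbar) ∈ gaussRing A := (C.mem_W_iff hq hA HN 0 φ).mp (hW 0)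
    have h1 : (C.w φ : LaurentSeries Qbar) ∈ gaussRing A := (C.mem_W_iff hq hA HN 1 φ).mp (hW 1)
    refine ⟨C.rd_mem_rr hq hA HN Gm hqN htr hφ h0 h1 _ (C.coe_rd hq hA HN h0), ?_⟩
    rw [mul_comm m q]
    exact C.rd_mem_rr hq hA HN Gm hqN htr (C.w_mem hq hφ) h1 (by rw [C.w_w]; exact h0) _
      (C.coe_rd hq hA HN h1)
  m₁ := c.toNat
  liftα m hm u hu := by
    obtain ⟨f, hf, hfR, hfe⟩ := exists_lift hq hA HN Gm hqN hm hu
    obtain ⟨r0, r1⟩ := C.rd_alpha hq hA HN hfR hfe
    exact ⟨upα N q f, upα_mem N q hf, Fin.forall_fin_two.mpr ⟨r0.1, r1.1⟩, r0.2, r1.2⟩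
  liftβ m hm u hu := by
    obtain ⟨f, hf, hfR, hfe⟩ := exists_lift hq hA HN Gm hqN hm hu
    obtain ⟨r0, r1⟩ := C.rd_beta hq hA HN hfR hfe
    exact ⟨upβ N q f, upβ_mem N hq hf, Fin.forall_fin_two.mpr ⟨r0.1, r1.1⟩, r0.2, r1.2⟩
  cusp m hm u hu := by
    obtain ⟨f, hf, hfR, hfe⟩ := exists_lift hq hA HN Gm hqN hm
      (u := (-1) ^ ((q + 1) * m) * u) (by
        rcases neg_one_pow_eq_or (modularFunctionFieldFullC k N) ((q + 1) * m) with h | h
        · rw [h, one_mul]; exact hu
        · rw [h, neg_one_mul]; exact Submodule.neg_mem _ hu)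
    obtain ⟨e0, e1⟩ := C.emb_beta hfR
    obtain ⟨c0, c1, c1e⟩ := C.emb_cusp hq hA
    have h0 : C.emb 0 (upβ N q f * cuspFun N ^ m) ∈ gaussRing A := by
      rw [map_mul, map_pow]; exact mul_mem e0.1 (pow_mem c0 m)
    have r1 := C.rd_of_emb hq hA HN (φ := upβ N q f * cuspFun N ^ m)
      (u := u * jR k N ^ (m * (q * q + q - 1))) (i := 1) (by
        rw [map_mul, map_pow]
        refine ⟨mul_mem e1.1 (pow_mem c1 m), ?_⟩
        rw [gres_mul e1.1 (pow_mem c1 m), gres_pow c1, e1.2, hfe, c1e]
        show ((((-1) ^ ((q + 1) * m) * u : modularFunctionFieldFullC k N)) : LaurentSeries k) *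
          ((-1) ^ (q + 1) * jqModC k ^ (q * q + q - 1)) ^ m =
            ((u * jR k N ^ (m * (q * q + q - 1)) : modularFunctionFieldFullC k N) : LaurentSeries k)
        push_cast
        rw [mul_pow, ← pow_mul, ← pow_mul, mul_comm (q * q + q - 1) m]
        have hsq : ((-1 : LaurentSeries k) ^ ((q + 1) * m)) * (-1) ^ ((q + 1) * m) = 1 := by
          rw [← mul_pow, neg_one_mul, neg_neg, one_pow]
        show _ = _ * (jqModC k) ^ (m * (q * q + q - 1))
        linear_combination (u : LaurentSeries k) * jqModC k ^ (m * (q * q + q - 1)) * hsq)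
    exact ⟨_, cuspFun_mem N hq hf,
      Fin.forall_fin_two.mpr ⟨(C.mem_W_iff hq hA HN 0 _).mpr h0, r1.1⟩, r1.2⟩

end Conj

end Fermat.Agent.TwoComp
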