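import Fermat.Agent.GoodReductionS18.ResidualField
import Fermat.Agent.ModularFunctionField.Descent
import Fermat.Agent.GoodReduction.PlaceMap
import Fermat.Agent.GoodReductionModular.Gauss
import Fermat.Agent.TwoComp.LevelBounds
import Mathlib.LinearAlgebra.Dimension.Finrank

/-!
# The poles of `j` on the reduced curve

The reduced `j` has degree `ψ(N)`, so a good model carries the poles of `j` to those of its
reduction.
-/

set_option autoImplicit false

noncomputable section

open AlgebraicCurve ModularCurve IntermediateField
open Fermat.Agent.FunctionField (IsFunctionField degFun poleDiv)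

namespace Fermat.Agent.TwoComp

variable (k : Type) [Field k] (N : ℕ) [NeZero N]

instance isFunctionField_fibre : IsFunctionField k (modularFunctionFieldFullC k N) :=
  GoodReductionS18.isFunctionField_fullC k N

/-- `j` on the reduced curve. -/
def jR : modularFunctionFieldFullC k N := ⟨jqModC k, jqModC_mem_full k N⟩

omit [NeZero N] in
/-- The reduced `j` is transcendental. -/
theorem transcendental_jR : Transcendental k (jR k N) := fun h =>
  GoodReductionS18.transcendental_jqModC_residual k
    (h.algHom (modularFunctionFieldFullC k N).val)

variable {k N}

/-- The reduced `j` has degree `ψ(N)` when `N` is prime to the characteristic. -/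
theorem degFun_jR (hN : (N : k) ≠ 0) : degFun k (jR k N) = dedekindPsi N := by
  let E := IntermediateField.adjoin (ModularFunctionField.jField k)
    ({jqNModC k N} : Set (LaurentSeries k))
  have hE : ∀ x : LaurentSeries k, x ∈ modularFunctionFieldFullC k N ↔ x ∈ E := fun x => by
    rw [ModularFunctionField.modularFunctionFieldFullC_eq_restrictScalars hN]
    rfl
  let e : modularFunctionFieldFullC k N ≃+* E :=
    { toFun := fun x => ⟨x.1, (hE _).mp x.2⟩
      invFun := fun x => ⟨x.1, (hE _).mpr x.2⟩
      left_inv := fun x => rfl
      right_inv := fun x => rfl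
      map_mul' := fun x y => rfl
      map_add' := fun x y => rfl }
  have hmap : (k⟮jR k N⟯).map (modularFunctionFieldFullC k N).val =
      ModularFunctionField.jField k := by
    rw [IntermediateField.adjoin_map, Set.image_singleton]
    rfl
  let i : k⟮jR k N⟯ ≃+* ModularFunctionField.jField k :=
    ((IntermediateField.equivMap _ (modularFunctionFieldFullC k N).val).trans
      (IntermediateField.equivOfEq hmap)).toRingEquiv
  rw [degFun, Algebra.finrank_eq_of_equiv_equiv i e (RingHom.ext fun x => Subtype.ext rfl)]
  exact ModularFunctionField.finrank_adjoin_jqNModC hN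

theorem degree_poleDiv_jR (hN : (N : k) ≠ 0) :
    Divisor.degree (poleDiv k (jR k N)) = dedekindPsi N := by
  rw [FunctionField.degree_poleDiv (transcendental_jR k N), degFun_jR hN]

section GoodModel

variable {K F : Type} [Field K] [Field F] [Algebra K F] {κ : Type} [Field κ] [Algebra k κ]
  {A : ValuationSubring K} {π : A →+* k} {red : GoodReduction.Reduction F κ A π} {g : ℕ} {c : ℤ}
  {H : Divisor K F} {Hb : Divisor k κ}

/-- A good model preserves the spaces of every divisor of positive degree whose reduction is
known. -/
theorem resSpace_eq_of_divMap (G : GoodReduction.GoodModel red g c H Hb) {D : Divisor K F}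
    (hD : c ≤ Divisor.degree D) :
    red.resSpace (GoodReduction.LSpace D) = GoodReduction.LSpace (G.divMap D) := by
  have e1 := G.riemann.exact' D hD
  have e2 := G.riemann'.exact' (G.divMap D) (by rw [G.degree_divMap]; exact hD)
  have e3 := G.finrank_resSpace_LSpace D
  have e4 := G.degree_divMap D
  have := G.riemann'.finite (G.divMap D)
  refine Submodule.eq_of_le_of_finrank_eq ?_ (by omega)
  intro y hy
  obtain ⟨x, hx, rfl⟩ := red.exists_of_mem_resSpace hy
  exact G.res_mem_LSpace hx

variable [IsFunctionField K F] [IsFunctionField k κ]

/-- A good model carries the poles of a function to the poles of its reduction, if the degree is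
preserved. -/
theorem divMap_poleDiv (G : GoodReduction.GoodModel red g c H Hb) {x : red.V}
    (hx : red.res x ≠ 0)
    (hdeg : Divisor.degree (poleDiv k (red.res x)) = Divisor.degree (poleDiv K (x : F))) :
    G.divMap (poleDiv K (x : F)) = poleDiv k (red.res x) := by
  classical
  have hnn : 0 ≤ G.divMap (poleDiv K (x : F)) := by
    intro v
    rw [G.divMap_apply, Finsupp.mapDomain, Finsupp.sum_apply]
    refine Finset.sum_nonneg fun w _ => ?_
    show (0 : ℤ) ≤ Finsupp.single (G.placeMap w) _ v
    rw [Finsupp.single_apply]
    split
    · exact Finsupp.le_def.mp (FunctionField.poleDiv_nonneg (x : F)) w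
    · exact le_rfl
  have hle : poleDiv k (red.res x) ≤ G.divMap (poleDiv K (x : F)) := by
    intro v
    have h1 : G.divMap (-(G.riemann.div (x : F))) ≤ G.divMap (poleDiv K (x : F)) := by
      intro w
      simp only [G.divMap_apply, Finsupp.mapDomain, Finsupp.sum_apply]
      have : ∀ D : Divisor K F, (D.sum fun u n => (Finsupp.single (G.placeMap u) n) w) =
          D.sum fun u n => if G.placeMap u = w then n else 0 := fun D => by
        simp [Finsupp.sum, Finsupp.single_apply]
      rw [this, this, Finsupp.sum_of_support_subset _
        (Finset.subset_union_left (s₂ := (poleDiv K (x : F)).support)) _ (by simp),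
        Finsupp.sum_of_support_subset _
        (Finset.subset_union_right (s₁ := (-(G.riemann.div (x : F))).support)) _ (by simp)]
      refine Finset.sum_le_sum fun u _ => ?_
      split
      · rw [Finsupp.neg_apply, G.riemann.div_apply]
        exact FunctionField.neg_ord_le_poleDiv (x : F) u
      · exact le_rfl
    rw [map_neg, G.divMap_div hx] at h1
    rw [show poleDiv k (red.res x) v = max (-v.ord (red.res x)) 0 from by
      simp [poleDiv, Finsupp.sup_apply]]
    refine max_le ?_ (hnn v)
    have := h1 v
    rwa [Finsupp.neg_apply, G.riemann'.div_apply] at this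
  exact (G.riemann'.eq_of_le_of_degree_eq hle (by rw [G.degree_divMap, hdeg])).symm

end GoodModel

end Fermat.Agent.TwoComp
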