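import Fermat.Agent.TwoComp.Count
import Fermat.Agent.KummerReduction.Shift
import Fermat.Agent.KummerReduction.Twist

/-!
# Double twists on the two-component fibre

The pole data at the poles and at a moved divisor are disjoint, so a Kummer class twisted twice by
symmetries of the setting is trivial.
-/

set_option autoImplicit false

noncomputable section

open AlgebraicCurve WithZero Fermat.Agent.GoodReduction Fermat.Agent.KummerReduction
open Fermat.Agent.FunctionField (IsFunctionField)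

namespace Fermat.Agent.TwoComp.Setting

variable {K F k G : Type} [Field K] [Field F] [Field k] [Field G] [Algebra K F] [Algebra k G]
variable (T : Setting K F k G) [IsFunctionField k G]

local notation "Nd" => {P : Place k G // T.IsNode P}

omit [IsFunctionField k G] in
theorem rd_t_pos (i : Fin 2) (v : Place k G) (hv : T.HY i v ≠ 0) :
    0 < T.HY i v ∧ v.ord (T.M.rd i T.t) = -T.HY i v := by
  have hj := T.hj v
  have hq := T.two_le
  revert hv
  revert i
  rw [Fin.forall_fin_two]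
  refine ⟨fun hv => ?_, fun hv => ?_⟩
  · rw [HY_zero] at hv ⊢
    rw [T.t_rd0]
    rcases le_total (-v.ord T.jG) 0 with h | h
    · rw [max_eq_right h] at hj; exact absurd hj hv
    · rw [max_eq_left h] at hj; omega
  · rw [HY_one, Finsupp.smul_apply, nsmul_eq_mul] at hv ⊢
    rw [T.t_rd1, FunctionField.ord_pow]
    rcases le_total (-v.ord T.jG) 0 with h | h
    · rw [max_eq_right h] at hj; rw [hj, mul_zero] at hv; exact absurd rfl hv
    · rw [max_eq_left h] at hj
      rw [hj] at hv ⊢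
      refine ⟨mul_pos (by exact_mod_cast (show 0 < T.q by omega))
          (lt_of_le_of_ne h fun h0 => hv ?_),
        by ring⟩
      rw [← h0, mul_zero]

omit [IsFunctionField k G] in
theorem exists_HY_ne (i : Fin 2) : ∃ v, T.HY i v ≠ 0 := by
  obtain ⟨v, hv⟩ : ∃ v, T.Hb v ≠ 0 := by
    by_contra hc
    push Not at hc
    have := T.deg_pos
    rw [show T.Hb = 0 from Finsupp.ext hc, map_zero] at this
    exact lt_irrefl _ this
  refine ⟨v, ?_⟩
  revert i
  rw [Fin.forall_fin_two, HY_zero, HY_one, Finsupp.smul_apply, nsmul_eq_mul]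
  refine ⟨hv, mul_ne_zero ?_ hv⟩
  have := T.two_le
  exact_mod_cast (show T.q ≠ 0 by omega)

omit [IsFunctionField k G] in
theorem ord_sub_const (i : Fin 2) (a : k) (v : Place k G) (hv : T.HY i v ≠ 0) :
    v.ord (T.M.rd i T.t - algebraMap k G a) = v.ord (T.M.rd i T.t) := by
  obtain ⟨hpos, hord⟩ := T.rd_t_pos i v hv
  have hne : T.M.rd i T.t ≠ 0 := fun h => by rw [h, Place.ord_zero] at hord; omega
  have hlt : v.adicValuation (algebraMap k G a) < v.adicValuation (T.M.rd i T.t) := by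
    refine (v.adicValuation_algebraMap_le_one a).trans_lt ?_
    rw [v.adicValuation_eq_exp_neg_ord hne, ← exp_zero, exp_lt_exp]
    omega
  have h := Valuation.map_sub_eq_of_lt_left (v := v.adicValuation) hlt
  have hne' : T.M.rd i T.t - algebraMap k G a ≠ 0 := fun h0 => by
    rw [h0, map_zero] at h
    exact hne ((Valuation.zero_iff _).mp h.symm)
  rw [v.adicValuation_eq_exp_neg_ord hne, v.adicValuation_eq_exp_neg_ord hne', exp_inj] at h
  omega

omit [IsFunctionField k G] in
theorem rd_sub_ne (i : Fin 2) (a : k) : T.M.rd i T.t - algebraMap k G a ≠ 0 := by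
  obtain ⟨v, hv⟩ := T.exists_HY_ne i
  intro h
  have h' := T.ord_sub_const i a v hv
  obtain ⟨hpos, hord⟩ := T.rd_t_pos i v hv
  rw [h, Place.ord_zero, hord] at h'
  omega

omit [IsFunctionField k G] in
theorem rd_t_sub (c : T.M.A) (i : Fin 2) :
    T.M.rd i (T.t - algebraMap K F c) = T.M.rd i T.t - algebraMap k G (T.M.π c) := by
  rw [T.M.rd_sub (T.t_W i) (T.M.mem_W_algebraMap.mpr c.2), T.M.rd_algebraMap]

/-- `t - c` as a shift of the pole data, for a constant reducing outside `𝔽_{q²}`. -/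
def moved (c : T.M.A) (hc : T.M.π c ^ (T.q * T.q) ≠ T.M.π c) (k₀ : ℕ) (hk₀ : k₀ ≠ 0) :
    T.poles.Shift k₀ where
  u := T.t - algebraMap K F c
  ne_zero h := T.rd_sub_ne 0 (T.M.π c) (by rw [← T.rd_t_sub, h, T.M.rd_zero])
  mem := by
    rw [T.poles_H]
    refine rr_mono ?_ (Submodule.sub_mem _ T.t_mem ?_)
    · calc T.H = 1 • T.H := (one_smul ℕ T.H).symm
        _ ≤ k₀ • T.H := nsmul_le_nsmul_left T.H_nonneg (Nat.one_le_iff_ne_zero.mpr hk₀)
    · rw [Algebra.algebraMap_eq_smul_one]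
      exact Submodule.smul_mem _ _ (one_mem_rr T.H_nonneg)
  integral i := sub_mem (T.t_W i) (T.M.mem_W_algebraMap.mpr c.2)
  rd_ne i := by rw [T.rd_t_sub]; exact T.rd_sub_ne i _
  val_eq s := by
    have h0 : T.jG - algebraMap k G (T.M.π c) ∈ affine T.Hb :=
      sub_mem T.jG_affine (Subalgebra.algebraMap_mem _ _)
    have h1 : T.jG ^ T.q - algebraMap k G (T.M.π c) ∈ affine T.Hb :=
      sub_mem (pow_mem T.jG_affine _) (Subalgebra.algebraMap_mem _ _)
    rw [T.nodes_comp, T.nodes_comp, T.rd_t_sub, T.rd_t_sub, T.t_rd0, T.t_rd1,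
      T.val_eq_iff s h0 h1, map_sub T.Fr, T.Fr.commutes, sub_sub_sub_cancel_right, map_pow, T.Fr_j,
      ← Valuation.map_neg, neg_sub]
    have h := s.2.1.2 T.jG T.jG_affine
    rwa [T.Fr_j, map_pow, T.Fr_j] at h
  val_ne s e := by
    have h0 : T.jG - algebraMap k G (T.M.π c) ∈ affine T.Hb :=
      sub_mem T.jG_affine (Subalgebra.algebraMap_mem _ _)
    have h1 : T.jG ^ T.q - algebraMap k G (T.M.π c) ∈ affine T.Hb :=
      sub_mem (pow_mem T.jG_affine _) (Subalgebra.algebraMap_mem _ _)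
    have key : T.nodes.val s 0 (T.jG - algebraMap k G (T.M.π c)) ≠ 0 := by
      intro h
      have hlt := (T.val_nodes_eq_iff (h0 _ (T.Hb_place s 0)) 0).mp h
      rw [map_zero, sub_zero, T.nodes_place_zero] at hlt
      -- `j ≡ c̄` at the node forces `c̄` into `𝔽_{q²}`
      set P := s.1
      have hS : T.IsSpecial P := s.2.1
      have h2 := (T.Fr_Fr_lt_one hS).mpr hlt
      rw [map_sub T.Fr, map_sub T.Fr, T.Fr.commutes, T.Fr.commutes, T.Fr_j, map_pow, T.Fr_j,
        ← pow_mul] at h2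
      have hjc : T.jG ∈ P.toValuationSubring := T.jG_affine P hS.1
      have h3 : value (T.RG.deg_one P) ⟨T.jG, hjc⟩ = T.M.π c := (value_eq_iff _ _ _).mpr hlt
      have h4 : value (T.RG.deg_one P) (⟨T.jG, hjc⟩ ^ (T.q * T.q)) = T.M.π c :=
        (value_eq_iff _ _ _).mpr (by rw [SubmonoidClass.coe_pow]; exact h2)
      rw [map_pow, h3] at h4
      exact hc h4
    revert e
    rw [Fin.forall_fin_two]
    refine ⟨?_, ?_⟩
    · rw [T.nodes_comp, T.rd_t_sub, T.t_rd0]; exact key
    · rw [T.nodes_comp, T.rd_t_sub, T.t_rd1]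
      intro h
      apply key
      rw [← h, T.val_eq_iff s h0 h1, map_sub T.Fr, T.Fr.commutes, sub_sub_sub_cancel_right, map_pow,
        T.Fr_j, ← Valuation.map_neg, neg_sub]
      have h' := s.2.1.2 T.jG T.jG_affine
      rwa [T.Fr_j, map_pow, T.Fr_j] at h'
  Du := T.RF.div (T.t - algebraMap K F c)
  Du_eq v := T.RF.div_apply _ v
  Dr i := T.RG.div (T.M.rd i (T.t - algebraMap K F c))
  Dr_eq i v := T.RG.div_apply _ v

theorem moved_Dr (c : T.M.A) (hc : T.M.π c ^ (T.q * T.q) ≠ T.M.π c) (k₀ : ℕ) (hk₀ : k₀ ≠ 0)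
    (i : Fin 2) (v : Place k G) :
    (T.moved c hc k₀ hk₀).Dr i v = v.ord (T.M.rd i T.t - algebraMap k G (T.M.π c)) := by
  show T.RG.div (T.M.rd i (T.t - algebraMap K F c)) v = _
  rw [T.RG.div_apply, T.rd_t_sub]

variable [IsAlgClosed K] {n : ℕ} [NeZero n]

omit [IsAlgClosed K] in
/-- The poles and a moved copy of them: disjoint, with a common bound. -/
theorem exists_moved_poles (hk : Infinite k) :
    ∃ P' Q : PoleData T.M T.nodes, T.poles.H ≤ Q.H ∧ P'.H ≤ Q.H ∧ (∀ i, 0 ≤ T.poles.HY i) ∧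
      (∀ i, 0 ≤ P'.HY i) ∧ (∀ i v, T.poles.HY i v = 0 ∨ P'.HY i v = 0) ∧
      (∀ i, Q.HY i ≤ T.poles.HY i + P'.HY i) ∧
      ∀ g : F, g ≠ 0 → (∀ v : Place K F, (n : ℤ) ∣ v.ord g) →
        T.poles.Count g n ∧ P'.Count g n := by
  classical
  obtain ⟨cb, hcb⟩ : ∃ cb : k, cb ^ (T.q * T.q) ≠ cb := by
    by_contra hall
    push Not at hall
    have hp : (Polynomial.X ^ (T.q * T.q) - Polynomial.X : Polynomial k) ≠ 0 :=
      FiniteField.X_pow_card_sub_X_ne_zero k (by have := T.two_le; nlinarith)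
    exact Set.infinite_univ.mono (fun x _ => by
      show x ∈ {y | Polynomial.IsRoot (Polynomial.X ^ (T.q * T.q) - Polynomial.X : Polynomial k) y}
      simp [hall x]) (Polynomial.finite_setOfPred_isRoot hp)
  obtain ⟨c, rfl⟩ := T.M.π_surjective cb
  set S₁ := T.moved c hcb 1 one_ne_zero
  set S₂ := T.moved c hcb 2 two_ne_zero
  have hDu : S₂.Du = S₁.Du := rfl
  have hnn1 : ∀ i, 0 ≤ T.poles.HY i := fun i => by
    rw [T.poles_HY]
    revert i
    rw [Fin.forall_fin_two, HY_zero, HY_one]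
    exact ⟨T.Hb_nonneg, nsmul_nonneg T.Hb_nonneg _⟩
  refine ⟨T.poles.shift S₁, T.poles.shift S₂, ?_, ?_, hnn1, ?_, ?_, ?_, ?_⟩
  · rw [PoleData.shift_H, T.poles_H, two_nsmul, hDu, add_assoc]
    refine le_add_of_nonneg_right ?_
    have h := (T.poles.shift S₁).H_nonneg
    rwa [PoleData.shift_H, T.poles_H, one_smul] at h
  · rw [PoleData.shift_H, PoleData.shift_H, T.poles_H, one_smul, two_nsmul, hDu, add_assoc]
    exact le_add_of_nonneg_left T.H_nonneg
  · intro i
    rw [PoleData.shift_HY, one_smul, T.poles_HY]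
    refine Finsupp.le_def.mpr fun v => ?_
    rw [Finsupp.zero_apply, Finsupp.add_apply, T.moved_Dr c hcb]
    by_cases hv : T.HY i v = 0
    · rw [hv, zero_add]
      rcases eq_or_ne (T.M.rd i T.t - algebraMap k G (T.M.π c)) 0 with h0 | h0
      · rw [h0, Place.ord_zero]
      · have hmem := (T.poles.reg 1 (T.t - algebraMap K F c)
          (show T.t - algebraMap K F c ∈ riemannRochSpace (1 • T.poles.H) from S₁.mem)
          S₁.integral i) v
        rw [one_smul, T.poles_HY, hv, exp_zero, T.rd_t_sub, v.adicValuation_le_one_iff] at hmem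
        exact hmem.resolve_left h0
    · rw [T.ord_sub_const i _ v hv, (T.rd_t_pos i v hv).2, add_neg_cancel]
  · intro i v
    rw [PoleData.shift_HY, one_smul, T.poles_HY, Finsupp.add_apply, T.moved_Dr c hcb]
    by_cases hv : T.HY i v = 0
    · exact Or.inl hv
    · right
      rw [T.ord_sub_const i _ v hv, (T.rd_t_pos i v hv).2, add_neg_cancel]
  · intro i
    rw [PoleData.shift_HY, PoleData.shift_HY, one_smul, two_nsmul, ← add_assoc]
    exact le_of_eq rfl
  · exact fun g hg hdvd => ⟨T.count hg hdvd,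
      PoleData.shift_count S₁ one_ne_zero (T.count hg hdvd)⟩

/-- Two twists kill a class whose reductions move only by `n`-th powers. -/
theorem exists_root_double_twist (hk : Infinite k) (hcont : T.M.HasContent)
    (hdesc : T.M.HasDescent) (hn : (n : k) ≠ 0) (S U : Symm T.M T.nodes)
    (hU : U.Fixes T.poles)
    (hSord : ∀ g : F, (∀ v : Place K F, (n : ℤ) ∣ v.ord g) →
      ∀ v : Place K F, (n : ℤ) ∣ v.ord (S.σF g))
    (hUord : ∀ g : F, (∀ v : Place K F, (n : ℤ) ∣ v.ord g) →
      ∀ v : Place K F, (n : ℤ) ∣ v.ord (U.σF g))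
    {e : ℕ} (he : ∀ c : k, c ^ n = 1 → U.φk c * c ^ e = 1)
    {f : F} (hf : f ≠ 0) (hord : ∀ v : Place K F, (n : ℤ) ∣ v.ord f)
    (h : ∀ i (c : K), f * algebraMap K F c ∈ T.M.W i → T.M.rd i (f * algebraMap K F c) ≠ 0 →
      ∃ a : G, S.φG (T.M.rd i (f * algebraMap K F c)) *
        T.M.rd i (f * algebraMap K F c) ^ (n - 1) = a ^ n) :
    ∃ s : F, s ^ n * (U.σF (S.σF f * f ^ (n - 1)) * (S.σF f * f ^ (n - 1)) ^ e) = 1 := by
  obtain ⟨P', Q, hP, hP', hnn, hnn', hdisj, hle, hcount⟩ := T.exists_moved_poles (n := n) hk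
  exact KummerReduction.exists_root_double_twist T.horth hcont hdesc hn hP hP' hnn hnn' hdisj hle
    hcount S U hU hSord hUord he hf hord h

end Fermat.Agent.TwoComp.Setting
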