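import Fermat.Agent.TwoComp.LevelSetting
import Fermat.Agent.TwoComp.Main

/-!
# Galois symmetries of the two-component setting

An element of the decomposition group acts coefficientwise on both components; it fixes the nodes
as soon as it composes with the square of Frobenius to a power map.
-/

set_option autoImplicit false

noncomputable section

open AlgebraicCurve ModularCurve Fermat.Agent.GaloisBasics Fermat.Agent.CarayolFF
open Fermat.Agent.GoodReduction (GoodModel)
open Fermat.Agent.GoodReductionModular (GaussInput gaussReduction)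
open Fermat.Agent.KummerReduction (Symm)

namespace Fermat.Agent.TwoComp

/- Shortcuts, found once instead of at every use. -/
local instance (priority := high) algResidueSymm {κ : Type} [Field κ] (M : ℕ) :
    Algebra κ (modularFunctionFieldFullC κ M) := inferInstance

local instance (priority := high) algLevelSymm (M : ℕ) : Algebra Qbar (FB M) := inferInstance

variable {N q : ℕ} [NeZero N] [NeZero q]

/-- Coefficientwise action on the functions of level `M`. -/
abbrev galF (M : ℕ) (σ : GalQ) : FB M ≃+* FB M :=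
  arithmeticRingAut (modularFunctionFieldFull M) σ

theorem galF_jd (M : ℕ) (σ : GalQ) {d : ℕ} [NeZero d]
    (h : qExpand Qbar d (jqModC Qbar) ∈ FB M) :
    galF M σ ⟨_, h⟩ = ⟨_, h⟩ := by
  refine Subtype.ext ?_
  show coeffMap (σ : Qbar →+* Qbar) (qExpand Qbar d (jqModC Qbar)) = _
  rw [ModularFunctionField.coeffMap_qExpand', ModularFunctionField.coeffMap_jqC]

theorem galF_jB (M : ℕ) [NeZero M] (σ : GalQ) : galF M σ (jB M) = jB M :=
  Subtype.ext (ModularFunctionField.coeffMap_jqC (σ : Qbar →+* Qbar))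

theorem galF_eq_smul (M : ℕ) (σ : GalQ) (f : FB M) :
    galF M σ f = arithmeticGalois (modularFunctionFieldFull M) σ • f := rfl

theorem dvd_ord_galF (M : ℕ) (σ : GalQ) {n : ℤ} {f : FB M}
    (h : ∀ v : Place Qbar (FB M), n ∣ v.ord f) (v : Place Qbar (FB M)) :
    n ∣ v.ord (galF M σ f) := by
  set g := arithmeticGalois (modularFunctionFieldFull M) σ
  have hv := SemilinearAut.ord_smul g (g⁻¹ • v) f
  rw [smul_inv_smul] at hv
  rw [galF_eq_smul, hv]
  exact h _

theorem galF_mem_rr (M : ℕ) [NeZero M] (σ : GalQ) {m : ℕ} {f : FB M}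
    (hf : f ∈ riemannRochSpace (m • jPoles M)) :
    galF M σ f ∈ riemannRochSpace (m • jPoles M) := by
  set g := arithmeticGalois (modularFunctionFieldFull M) σ
  rw [mem_riemannRochSpace_iff] at hf ⊢
  intro v
  have hv : ∀ φ : FB M, v.ord (g • φ) = (g⁻¹ • v).ord φ := fun φ => by
    have := SemilinearAut.ord_smul g (g⁻¹ • v) φ
    rwa [smul_inv_smul] at this
  rcases hf (g⁻¹ • v) with h | h
  · exact Or.inl (by rw [h, map_zero])
  refine Or.inr ?_
  have hj : (g⁻¹ • v).ord (jB M) = v.ord (jB M) := by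
    rw [← hv, ← galF_eq_smul, galF_jB]
  rw [Finsupp.smul_apply, jPoles, poleDiv_apply] at h ⊢
  rw [galF_eq_smul, hv]
  rwa [hj] at h

variable (C : Conj N q)

/-- The involution commutes with the Galois action. -/
theorem Conj.w_galF (hqp : q.Prime) (σ : GalQ) (φ : FB (N * q)) :
    C.w (galF (N * q) σ φ) = galF (N * q) σ (C.w φ) := by
  refine CarayolFF.induction_of_eq_adjoin (laurentBaseChange_full Qbar (N * q))
    (P := fun φ => C.w (galF (N * q) σ φ) = galF (N * q) σ (C.w φ)) ?_ ?_ ?_ ?_ ?_ φ
  · rintro _ ⟨e, he, hdvd, rfl⟩ h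
    obtain ⟨a, b, ha, hb, rfl⟩ := Nat.dvd_mul.mp hdvd
    have : NeZero a := ⟨ne_zero_of_dvd_ne_zero (NeZero.ne N) ha⟩
    have : NeZero b := ⟨ne_zero_of_dvd_ne_zero (NeZero.ne q) hb⟩
    rw [galF_jd]
    suffices hw : ∃ (d : ℕ) (_ : NeZero d) (h' : qExpand Qbar d (jqModC Qbar) ∈ FB (N * q)),
        C.w ⟨_, h⟩ = ⟨_, h'⟩ by
      obtain ⟨d, hd, h', e⟩ := hw
      rw [e, galF_jd]
    by_cases hq : b = 1
    · subst hq
      let j : FB N := Hecke.gen Qbar N ha
      have hx : (⟨_, h⟩ : FB (N * q)) = upα N q j := Subtype.ext (by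
        rw [coe_heckeAlphaBar]
        exact qExpand_congr (mul_one a) _)
      refine ⟨q * a, inferInstance, ?_, ?_⟩
      · exact Hecke.qExpand_jC_mem Qbar (N * q)
          (by rw [mul_comm q a]; exact Nat.mul_dvd_mul_right ha q)
      · rw [hx, C.w_alpha]
        refine Subtype.ext ?_
        rw [coe_heckeBetaBar]
        show qExpand Qbar q (qExpand Qbar a (jqModC Qbar)) = qExpand Qbar (q * a) (jqModC Qbar)
        rw [qExpand_qExpand]
    · -- the other generators are the pullbacks along `τ ↦ qτ`
      obtain rfl : b = q := ((Nat.dvd_prime hqp).mp hb).resolve_left hq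
      let j : FB N := Hecke.gen Qbar N ha
      have hx : (⟨_, h⟩ : FB (N * b)) = upβ N b j := Subtype.ext (by
        rw [coe_heckeBetaBar]
        show qExpand Qbar (a * b) (jqModC Qbar) = qExpand Qbar b (qExpand Qbar a (jqModC Qbar))
        rw [qExpand_qExpand]
        exact qExpand_congr (mul_comm a b) _)
      refine ⟨a, inferInstance, ?_, ?_⟩
      · exact Hecke.qExpand_jC_mem Qbar (N * b) (Dvd.dvd.mul_right ha b)
      · rw [hx, C.w_beta]
        refine Subtype.ext ?_
        rw [coe_heckeAlphaBar]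
        rfl
  · intro c
    show C.w (galF (N * q) σ (algebraMap Qbar _ c)) = galF (N * q) σ (C.w (algebraMap Qbar _ c))
    rw [galF, arithmeticRingAut_algebraMap, C.w.commutes, C.w.commutes,
      arithmeticRingAut_algebraMap]
  · intro x y hx hy
    simp only [map_add, hx, hy]
  · intro x hx
    simp only [map_inv₀, hx]
  · intro x y hx hy
    simp only [map_mul, hx, hy]

variable {A : ValuationSubring Qbar}

/-- The action of a decomposition element on the residue field. -/
def resHom {σ : GalQ} (hσ : σ ∈ A.decompositionSubgroup ℚ) :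
    IsLocalRing.ResidueField A →+* IsLocalRing.ResidueField A :=
  MulSemiringAction.toRingHom (A.decompositionSubgroup ℚ) (IsLocalRing.ResidueField A) ⟨σ, hσ⟩

/-- The restriction of a decomposition element to the valuation ring. -/
def intHom {σ : GalQ} (hσ : σ ∈ A.decompositionSubgroup ℚ) : A →+* A :=
  ((σ : Qbar →+* Qbar).comp A.subtype).codRestrict A
    fun a => (apply_mem_iff hσ (a : Qbar)).mpr a.2

theorem residue_intHom {σ : GalQ} (hσ : σ ∈ A.decompositionSubgroup ℚ) (a : A) :
    IsLocalRing.residue A (intHom hσ a) = resHom hσ (IsLocalRing.residue A a) := by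
  show _ = (⟨σ, hσ⟩ : A.decompositionSubgroup ℚ) • IsLocalRing.residue A a
  rw [← IsLocalRing.ResidueField.residue_smul]
  rfl

theorem gres_galois {σ : GalQ} (hσ : σ ∈ A.decompositionSubgroup ℚ) {x : LaurentSeries Qbar}
    (hx : x ∈ gaussRing A) :
    coeffMap (σ : Qbar →+* Qbar) x ∈ gaussRing A ∧
      gres A (coeffMap (σ : Qbar →+* Qbar) x) = coeffMap (resHom hσ) (gres A x) := by
  obtain ⟨h, e⟩ := gaussRes_map (coeffMap (σ : Qbar →+* Qbar)) (coeffMap (intHom hσ))
    (coeffMap (resHom hσ))
    (fun a => by ext n; rfl) (fun a => by ext n; exact residue_intHom hσ (a.coeff n)) hx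
  exact ⟨h, by rw [gres_of_mem h, gres_of_mem hx]; exact e⟩

variable (N) in
/-- Coefficientwise action of a residual automorphism on the reduced curve. -/
def coeffG {k : Type} [Field k] (φ : k →+* k) :
    modularFunctionFieldFullC k N →+* modularFunctionFieldFullC k N :=
  ((coeffMap φ).comp (modularFunctionFieldFullC k N).val.toRingHom).codRestrict
    (modularFunctionFieldFullC k N) fun x => by
    obtain ⟨x, hx⟩ := x
    show coeffMap φ x ∈ modularFunctionFieldFullC k N
    change x ∈ IntermediateField.adjoin k (divisorExpansionsC k N) at hx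
    induction hx using IntermediateField.adjoin_induction with
    | mem y hy =>
      obtain ⟨d, hd0, hd, rfl⟩ := hy
      rw [ModularFunctionField.coeffMap_qExpand', ModularFunctionField.coeffMap_jqC]
      exact jqModCd_mem_full k N hd
    | algebraMap c =>
      rw [algebraMap_laurentSeries_eq_single, coeffMap_single, ← algebraMap_laurentSeries_eq_single]
      exact IntermediateField.algebraMap_mem _ _
    | add a b _ _ ha hb => rw [map_add]; exact add_mem ha hb
    | inv a _ ha => rw [map_inv₀]; exact inv_mem ha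
    | mul a b _ _ ha hb => rw [map_mul]; exact mul_mem ha hb

omit [NeZero N] in
theorem coe_coeffG {k : Type} [Field k] (φ : k →+* k) (x : modularFunctionFieldFullC k N) :
    (coeffG N φ x : LaurentSeries k) = coeffMap φ (x : LaurentSeries k) := rfl

omit [NeZero N] in
theorem coeffG_algebraMap {k : Type} [Field k] (φ : k →+* k) (c : k) :
    coeffG N φ (algebraMap k (modularFunctionFieldFullC k N) c) =
      algebraMap k (modularFunctionFieldFullC k N) (φ c) := by
  refine Subtype.ext ?_
  show coeffMap φ (algebraMap k (LaurentSeries k) c) = algebraMap k (LaurentSeries k) (φ c)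
  rw [algebraMap_laurentSeries_eq_single, coeffMap_single, algebraMap_laurentSeries_eq_single]

omit [NeZero N] in
theorem coeffG_id {k : Type} [Field k] {φ : k →+* k} (h : ∀ c, φ c = c)
    (x : modularFunctionFieldFullC k N) : coeffG N φ x = x := by
  refine Subtype.ext ?_
  rw [coe_coeffG]
  ext n
  exact h _

omit [NeZero N] in
/-- Frobenius twice after `c ↦ c ^ (q * q)` on coefficients is the `q * q`-th power. -/
theorem frobG_frobG_coeffG (hq : q.Prime) (hA : A.LiesOverPrime q)
    {φ : IsLocalRing.ResidueField A →+* IsLocalRing.ResidueField A}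
    (h : ∀ c, φ c = c ^ (q * q))
    (u : modularFunctionFieldFullC (IsLocalRing.ResidueField A) N) :
    frobG N hq hA (frobG N hq hA (coeffG N φ u)) = u ^ (q * q) := by
  have := Fact.mk hq
  have := residueField_charP hA hq
  have : CharP (LaurentSeries (IsLocalRing.ResidueField A)) q :=
    charP_of_injective_ringHom
      (f := (HahnSeries.C : IsLocalRing.ResidueField A →+* _)) HahnSeries.C_injective q
  obtain ⟨x, hx⟩ := u
  refine Subtype.ext ?_
  show qExpand _ q (qExpand _ q (coeffMap φ x)) = x ^ (q * q)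
  change x ∈ IntermediateField.adjoin _ (divisorExpansionsC (IsLocalRing.ResidueField A) N) at hx
  induction hx using IntermediateField.adjoin_induction with
  | mem y hy =>
    obtain ⟨d, hd0, hd, rfl⟩ := hy
    rw [ModularFunctionField.coeffMap_qExpand', ModularFunctionField.coeffMap_jqC,
      qExpand_jd_eq_pow hq hA d, map_pow, qExpand_jd_eq_pow hq hA d, ← pow_mul]
  | algebraMap c =>
    simp only [algebraMap_laurentSeries_eq_single, coeffMap_single, qExpand_single, mul_zero, h,
      HahnSeries.single_pow, smul_zero]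
  | add a b _ _ ha hb =>
    rw [map_add, map_add, map_add, ha, hb, ← pow_two, add_pow_char_pow]
  | inv a _ ha => rw [map_inv₀, map_inv₀, map_inv₀, ha, inv_pow]
  | mul a b _ _ ha hb => rw [map_mul, map_mul, map_mul, ha, hb, mul_pow]

namespace Conj

-- Declared before the variables, which every command would elaborate again.
set_option hygiene false in set_option quotPrecheck false in
local notation "𝕋" => setting C hq hA HN Gm hqN htr

variable (hq : q.Prime) (hA : A.LiesOverPrime q)
  (HN : GaussInput (FB N) (modularFunctionFieldFullC (IsLocalRing.ResidueField A) N)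
    (IsLocalRing.residue A))
  {g : ℕ} {c : ℤ} {Hd : Divisor Qbar (FB N)}
  {Hb : Divisor (IsLocalRing.ResidueField A)
    (modularFunctionFieldFullC (IsLocalRing.ResidueField A) N)}
  (Gm : GoodModel (gaussReduction HN) g c Hd Hb) (hqN : ¬ q ∣ N) (htr : TrBound N C)

include hq in
theorem emb_galF {σ : GalQ} (hσ : σ ∈ A.decompositionSubgroup ℚ) (i : Fin 2)
    {φ : FB (N * q)} (h : C.emb i φ ∈ gaussRing A) :
    C.emb i (galF (N * q) σ φ) ∈ gaussRing A ∧
      gres A (C.emb i (galF (N * q) σ φ)) = coeffMap (resHom hσ) (gres A (C.emb i φ)) := by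
  have key : C.emb i (galF (N * q) σ φ) = coeffMap (σ : Qbar →+* Qbar) (C.emb i φ) := by
    revert i
    rw [Fin.forall_fin_two]
    refine ⟨fun _ => rfl, fun _ => ?_⟩
    rw [C.emb_one, C.w_galF hq]
    rfl
  rw [key]
  exact gres_galois hσ h

include hq hA in
theorem mem_W_galF {σ : GalQ} (hσ : σ ∈ A.decompositionSubgroup ℚ) (i : Fin 2) (φ : FB (N * q))
    (h : φ ∈ (C.model hq hA HN).W i) : galF (N * q) σ φ ∈ (C.model hq hA HN).W i :=
  (C.mem_W_iff hq hA HN i _).mpr (C.emb_galF hq hσ i ((C.mem_W_iff hq hA HN i φ).mp h)).1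

include hq hA in
theorem rd_galF {σ : GalQ} (hσ : σ ∈ A.decompositionSubgroup ℚ) (i : Fin 2) (φ : FB (N * q))
    (h : φ ∈ (C.model hq hA HN).W i) :
    (C.model hq hA HN).rd i (galF (N * q) σ φ) =
      coeffG N (resHom hσ) ((C.model hq hA HN).rd i φ) := by
  have h' := (C.mem_W_iff hq hA HN i φ).mp h
  obtain ⟨hm, he⟩ := C.emb_galF hq hσ i h'
  refine Subtype.ext ?_
  rw [C.coe_rd hq hA HN hm, coe_coeffG, C.coe_rd hq hA HN h', he]

/-- The symmetry of a decomposition element fixing every node. -/
def galSymm {σ : GalQ} (hσ : σ ∈ A.decompositionSubgroup ℚ)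
    (hnode : ∀ P, (𝕋).IsSpecial P → ∀ u ∈ P.toValuationSubring,
      coeffG N (resHom hσ) u ∈ P.toValuationSubring)
    (hval : ∀ s e ψ, ψ ∈ ((𝕋).nodes.place s e).toValuationSubring →
      (𝕋).nodes.val s e (coeffG N (resHom hσ) ψ) = resHom hσ ((𝕋).nodes.val s e ψ)) :
    Symm (𝕋).M (𝕋).nodes where
  σK := σ.toRingEquiv
  σF := galF (N * q) σ
  φk := resHom hσ
  φG := coeffG N (resHom hσ)
  commF c := arithmeticRingAut_algebraMap _ σ c
  commG c := coeffG_algebraMap _ c
  mem_W i φ h := C.mem_W_galF hq hA HN hσ i φ h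
  rd_comm i φ h := C.rd_galF hq hA HN hσ i φ h
  node_mem s e ψ h := by
    refine hnode _ ?_ ψ h
    revert e
    rw [Fin.forall_fin_two, (𝕋).nodes_place_zero, (𝕋).nodes_place_one]
    exact ⟨fun _ => s.2.1, fun _ => (𝕋).isSpecial_partner s.2.1⟩
  node_val := hval

/-- Inertia. -/
def inertiaSymm {σ : GalQ} (hσ : σ ∈ A.decompositionSubgroup ℚ)
    (h : ∀ c, resHom hσ c = c) : Symm (𝕋).M (𝕋).nodes :=
  galSymm C hq hA HN Gm hqN htr hσ
    (fun P _ u hu => by rw [coeffG_id h]; exact hu)
    (fun s e ψ _ => by rw [coeffG_id h, h])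

theorem special_place (s : {P // (𝕋).IsNode P}) (e : Fin 2) :
    (𝕋).IsSpecial ((𝕋).nodes.place s e) := by
  revert e
  rw [Fin.forall_fin_two, (𝕋).nodes_place_zero, (𝕋).nodes_place_one]
  exact ⟨s.2.1, (𝕋).isSpecial_partner s.2.1⟩

/-- The square of a Frobenius element. -/
def frobSqSymm {σ : GalQ} (hσ : σ ∈ A.decompositionSubgroup ℚ)
    (h : ∀ c, resHom hσ c = c ^ (q * q)) : Symm (𝕋).M (𝕋).nodes :=
  galSymm C hq hA HN Gm hqN htr hσ
    (fun P hP u hu => by
      rw [← (𝕋).mem_Fr_Fr hP]
      show frobG N hq hA (frobG N hq hA (coeffG N (resHom hσ) u)) ∈ P.toValuationSubring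
      rw [frobG_frobG_coeffG hq hA h]
      exact pow_mem hu _)
    (fun s e ψ hψ => by
      have hP := special_place C hq hA HN Gm hqN htr s e
      have e' : (𝕋).Fr ((𝕋).Fr (coeffG N (resHom hσ) ψ)) = ψ ^ (q * q) :=
        frobG_frobG_coeffG hq hA h ψ
      have hmem : coeffG N (resHom hσ) ψ ∈ ((𝕋).nodes.place s e).toValuationSubring := by
        rw [← (𝕋).mem_Fr_Fr hP, e']
        exact pow_mem hψ _
      rw [h, ← (𝕋).nodes.val_pow hψ, (𝕋).val_nodes_eq_iff hmem]
      have h1 := (𝕋).sub_Fr_Fr_lt_one hP hmem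
      rw [e'] at h1
      have h2 := ((𝕋).val_nodes_eq_iff (e := e) (pow_mem hψ (q * q))
        ((𝕋).nodes.val s e (ψ ^ (q * q)))).mp rfl
      have h3 := Valuation.map_add _
        (coeffG N (resHom hσ) ψ - ψ ^ (q * q))
        (ψ ^ (q * q) - algebraMap _ _ ((𝕋).nodes.val s e (ψ ^ (q * q)))) |>.trans_lt (max_lt h1 h2)
      rwa [sub_add_sub_cancel] at h3)

end Conj

end Fermat.Agent.TwoComp
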