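import Fermat.Agent.TwoComp.Symmetry
import Fermat.Agent.TwoComp.Conjugates
import Fermat.Agent.KummerReduction.Swap

/-!
# Frobenius composed with the involution

The involution exchanging the degeneracy maps, composed with a Frobenius element at `q`, exchanges
the two components and the two branches at each node. So on a class with `n`-th power residues on
both components it acts as `-q`.
-/

set_option autoImplicit false

noncomputable section

open AlgebraicCurve ModularCurve Fermat.Agent.GaloisBasics Fermat.Agent.CarayolFF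
open Fermat.Agent.GoodReduction (GoodModel)
open Fermat.Agent.GoodReductionModular (GaussInput gaussReduction)
open Fermat.Agent.KummerReduction (SwapSymm Datum)
open Fermat.Agent.FunctionField (IsFunctionField)

namespace Fermat.Agent.TwoComp

namespace Setting

variable {K F k G : Type} [Field K] [Field F] [Field k] [Field G] [Algebra K F] [Algebra k G]
variable (T : Setting K F k G) [IsFunctionField k G]

/-- A map which Frobenius carries to the `q`-th power exchanges the values on the two branches. -/
theorem val_flip {ψ χ : G} (h : T.Fr χ = ψ ^ T.q) (s : {P : Place k G // T.IsNode P}) (e : Fin 2)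
    (hψ : ψ ∈ (T.nodes.place s (Fin.rev e)).toValuationSubring) :
    T.nodes.val s e χ = T.nodes.val s (Fin.rev e) ψ ^ T.q := by
  have key : (∀ x, x ∈ (T.nodes.place s e).toValuationSubring ↔
      T.Fr x ∈ (T.nodes.place s (Fin.rev e)).toValuationSubring) →
      (∀ x, (T.nodes.place s e).adicValuation x < 1 ↔
      (T.nodes.place s (Fin.rev e)).adicValuation (T.Fr x) < 1) →
      T.nodes.val s e χ = T.nodes.val s (Fin.rev e) ψ ^ T.q := by
    intro hmem hlt
    have hχ : χ ∈ (T.nodes.place s e).toValuationSubring :=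
      (hmem χ).mpr (by rw [h]; exact pow_mem hψ _)
    rw [← T.nodes.val_pow hψ, T.val_nodes_eq_iff hχ, hlt, map_sub, T.Fr.commutes, h]
    exact (T.val_nodes_eq_iff (pow_mem hψ _) _).mp rfl
  revert e
  rw [Fin.forall_fin_two]
  refine ⟨fun hψ key => key (fun x => ?_) (fun x => ?_),
    fun hψ key => key (fun x => T.mem_partner s.2.1) (fun x => T.partner_lt_one s.2.1)⟩
  · show x ∈ (T.nodes.place s 0).toValuationSubring ↔
      T.Fr x ∈ (T.nodes.place s 1).toValuationSubring
    rw [T.nodes_place_zero, T.nodes_place_one, T.mem_partner, T.mem_Fr_Fr s.2.1]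
  · show (T.nodes.place s 0).adicValuation x < 1 ↔ (T.nodes.place s 1).adicValuation (T.Fr x) < 1
    rw [T.nodes_place_zero, T.nodes_place_one, T.partner_lt_one, T.Fr_Fr_lt_one s.2.1]

end Setting

/- Shortcuts, found once instead of at every use. -/
local instance (priority := high) algResidueSwap {κ : Type} [Field κ] (M : ℕ) :
    Algebra κ (modularFunctionFieldFullC κ M) := inferInstance

local instance (priority := high) algLevelSwap (M : ℕ) : Algebra Qbar (FB M) := inferInstance

-- Declared before the variables, which every command would elaborate again.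
set_option hygiene false in set_option quotPrecheck false in
local notation "k" => IsLocalRing.ResidueField A
set_option hygiene false in set_option quotPrecheck false in
local notation "𝕋" => setting C hq hA HN Gm hqN htr

variable {N q : ℕ} [NeZero N] [NeZero q] {A : ValuationSubring Qbar}

omit [NeZero N] in
/-- Frobenius after `c ↦ c ^ q` on coefficients is the `q`-th power. -/
theorem frobG_coeffG (hq : q.Prime) (hA : A.LiesOverPrime q)
    {φ : IsLocalRing.ResidueField A →+* IsLocalRing.ResidueField A} (h : ∀ c, φ c = c ^ q)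
    (u : modularFunctionFieldFullC (IsLocalRing.ResidueField A) N) :
    frobG N hq hA (coeffG N φ u) = u ^ q := by
  have := Fact.mk hq
  have := residueField_charP hA hq
  have : CharP (LaurentSeries (IsLocalRing.ResidueField A)) q :=
    charP_of_injective_ringHom
      (f := (HahnSeries.C : IsLocalRing.ResidueField A →+* _)) HahnSeries.C_injective q
  obtain ⟨x, hx⟩ := u
  refine Subtype.ext ?_
  show qExpand _ q (coeffMap φ x) = x ^ q
  change x ∈ IntermediateField.adjoin _ (divisorExpansionsC (IsLocalRing.ResidueField A) N) at hx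
  induction hx using IntermediateField.adjoin_induction with
  | mem y hy =>
    obtain ⟨d, hd0, hd, rfl⟩ := hy
    rw [ModularFunctionField.coeffMap_qExpand', ModularFunctionField.coeffMap_jqC,
      qExpand_jd_eq_pow hq hA d]
  | algebraMap c =>
    simp only [algebraMap_laurentSeries_eq_single, coeffMap_single, qExpand_single, mul_zero, h,
      HahnSeries.single_pow, smul_zero]
  | add a b _ _ ha hb => rw [map_add, map_add, ha, hb, add_pow_char]
  | inv a _ ha => rw [map_inv₀, map_inv₀, ha, inv_pow]
  | mul a b _ _ ha hb => rw [map_mul, map_mul, ha, hb, mul_pow]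

namespace Conj

variable (C : Conj N q) (hq : q.Prime) (hA : A.LiesOverPrime q)
  (HN : GaussInput (FB N) (modularFunctionFieldFullC (IsLocalRing.ResidueField A) N)
    (IsLocalRing.residue A))
  {g : ℕ} {c : ℤ} {Hd : Divisor Qbar (FB N)}
  {Hb : Divisor (IsLocalRing.ResidueField A)
    (modularFunctionFieldFullC (IsLocalRing.ResidueField A) N)}
  (Gm : GoodModel (gaussReduction HN) g c Hd Hb) (hqN : ¬ q ∣ N) (htr : TrBound N C)

include hq in
theorem emb_w_galF (σ : GalQ) (i : Fin 2) (φ : FB (N * q)) :
    C.emb i (C.w (galF (N * q) σ φ)) = coeffMap (σ : Qbar →+* Qbar) (C.emb (Fin.rev i) φ) := by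
  revert i
  rw [Fin.forall_fin_two, show Fin.rev (0 : Fin 2) = 1 from rfl,
    show Fin.rev (1 : Fin 2) = 0 from rfl, C.emb_zero, C.emb_one, C.emb_one, C.emb_zero, C.w_w,
    C.w_galF hq]
  exact ⟨rfl, rfl⟩

/-- A Frobenius element composed with the involution. -/
def swapSymm {σ : GalQ} (hσ : σ ∈ A.decompositionSubgroup ℚ) (h : ∀ c, resHom hσ c = c ^ q) :
    SwapSymm (𝕋).M (𝕋).nodes where
  σK := σ.toRingEquiv
  σF := (galF (N * q) σ).trans C.w.toRingEquiv
  φk := resHom hσ
  φG := coeffG N (resHom hσ)
  p := Fin.rev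
  commF c := by
    show C.w (galF (N * q) σ (algebraMap Qbar _ c)) = _
    rw [galF, arithmeticRingAut_algebraMap, C.w.commutes]
    rfl
  mem_W i φ hφ := (C.mem_W_iff hq hA HN i _).mpr (by
    show C.emb i (C.w (galF (N * q) σ φ)) ∈ gaussRing A
    rw [C.emb_w_galF hq]
    exact (gres_galois hσ ((C.mem_W_iff hq hA HN _ φ).mp hφ)).1)
  rd_comm i φ hφ := by
    have h' := (C.mem_W_iff hq hA HN _ φ).mp hφ
    obtain ⟨hm, he⟩ := gres_galois hσ h'
    rw [← C.emb_w_galF hq] at hm he
    refine Subtype.ext ?_
    show ((C.model hq hA HN).rd i (C.w (galF (N * q) σ φ)) : LaurentSeries k) =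
      (coeffG N (resHom hσ) ((C.model hq hA HN).rd (Fin.rev i) φ) : LaurentSeries k)
    rw [C.coe_rd hq hA HN hm, coe_coeffG, C.coe_rd hq hA HN h', he]
  comp_p _ _ := rfl
  node_val s e ψ hψ := by
    rw [h]
    exact (𝕋).val_flip (frobG_coeffG hq hA h ψ) s e hψ

/-- The involution preserves divisibility of all orders. -/
theorem dvd_ord_w {n : ℤ} {f : FB (N * q)} (h : ∀ v : Place Qbar (FB (N * q)), n ∣ v.ord f)
    (v : Place Qbar (FB (N * q))) : n ∣ v.ord (C.w f) := by
  have hv := Place.ord_smul C.w (C.w⁻¹ • v) f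
  rw [smul_inv_smul] at hv
  rw [hv]
  exact h _

include C hq hA HN Gm hqN htr in
/-- With `n`-th power residues on both components, `w ∘ σ` acts as `-q`. -/
theorem exists_root_swap {σ : GalQ} (hσ : A.IsFrobeniusAt σ q) {n : ℕ} (hn : n.Coprime q)
    (hn0 : n ≠ 0) {f : FB (N * q)} (hf : f ≠ 0)
    (hord : ∀ v : Place Qbar (FB (N * q)), (n : ℤ) ∣ v.ord f)
    (hres : ∀ i, ∃ (y : Qbar) (a : modularFunctionFieldFullC k N), y ≠ 0 ∧ a ≠ 0 ∧
      C.emb i f * HahnSeries.C y ^ n ∈ gaussRing A ∧
      gres A (C.emb i f * HahnSeries.C y ^ n) = (a : LaurentSeries k) ^ n) :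
    ∃ s : FB (N * q), s ^ n * (C.w (galF (N * q) σ f) * f ^ q) = 1 := by
  have := residueField_isAlgClosed A
  have : NeZero n := ⟨hn0⟩
  have : Infinite k := IsAlgClosed.instInfinite
  choose y a hy ha hmem hgres using hres
  have hemb : ∀ i, C.emb i (f * algebraMap Qbar (FB (N * q)) (y i) ^ n) =
      C.emb i f * HahnSeries.C (y i) ^ n := fun i => by
    rw [map_mul, map_pow]
    exact congrArg (fun t => C.emb i f * t ^ n) ((C.gaussData hq hA HN).emb_algebraMap i (y i))
  let x : Datum (𝕋).M n :=
    { f := f
      γ := y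
      γ_ne := hy
      a := a
      a_ne := ha
      mem := fun i => (C.mem_W_iff hq hA HN i _).mpr ((hemb i).symm ▸ hmem i)
      red_eq := fun i => Subtype.ext (by
        show ((C.model hq hA HN).rd i _ : LaurentSeries k) = _
        rw [C.coe_rd hq hA HN ((hemb i).symm ▸ hmem i), hemb i, hgres i]
        rfl) }
  have hfr : ∀ z : k, resHom hσ.mem_decompositionSubgroup z = z ^ q := hσ.smul_residue_eq
  set S := C.swapSymm hq hA HN Gm hqN htr hσ.mem_decompositionSubgroup hfr
  obtain ⟨P', Q, hP, hP', hnn, hnn', hdisj, hle, hcount⟩ :=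
    (𝕋).exists_moved_poles (n := n) inferInstance
  refine x.exists_root_swap (𝕋).horth (C.gaussData hq hA HN).hasDescent
    (natCast_residue_ne_zero hq hA hn) hP hP' hnn hnn' hdisj hle hcount S (d := q)
    (fun m φ hφ => ?_) (fun u hu => C.dvd_ord_w (dvd_ord_galF (N * q) σ hu))
    (fun z _ => hfr z) hf hord
  rw [(𝕋).poles_H] at hφ ⊢
  exact C.w_mem hq (galF_mem_rr (N * q) σ hφ)

end Conj

/-- The involution is determined by the degeneracy maps. -/
theorem Conj.w_eq (C C' : Conj N q) (hq : q.Prime) (x : FB (N * q)) : C.w x = C'.w x :=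
  hom_ext_alpha_beta hq (f := C.w.toRingEquiv.toRingHom) (g := C'.w.toRingEquiv.toRingHom)
    (fun u => (C.w_alpha u).trans (C'.w_alpha u).symm)
    (fun u => (C.w_beta u).trans (C'.w_beta u).symm) x

end Fermat.Agent.TwoComp
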