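import Fermat.Agent.GoodReduction.RiemannData
import Fermat.Agent.FunctionField.PlaceBasics

/-!
# Functions regular off the support of a divisor

Approximation in the ring of functions regular off an effective divisor of positive degree, a
membership criterion for its ideals, and surjectivity of multiplication on leading parts.
-/

set_option autoImplicit false

noncomputable section

open AlgebraicCurve WithZero Fermat.Agent.GoodReduction

namespace Fermat.Agent.TwoComp

variable {k G : Type} [Field k] [Field G] [Algebra k G]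

/-- The functions regular outside the support of `Hb`. -/
def affine (Hb : Divisor k G) : Subalgebra k G where
  carrier := {x | ∀ P : Place k G, Hb P = 0 → x ∈ P.toValuationSubring}
  mul_mem' hx hy P hP := mul_mem (hx P hP) (hy P hP)
  add_mem' hx hy P hP := add_mem (hx P hP) (hy P hP)
  algebraMap_mem' c P _ := P.algebraMap_mem' c

theorem mem_affine_of_mem {Hb : Divisor k G} {x : G} {m : ℕ}
    (hx : x ∈ riemannRochSpace (m • Hb)) : x ∈ affine Hb := fun P hP => by
  rw [FunctionField.mem_iff_adicValuation_le_one]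
  simpa [hP] using hx P

theorem exists_mem_L {Hb : Divisor k G} (hHb : 0 ≤ Hb) {c : ℤ} {g : ℕ} (R : RiemannData k G g c)
    {x : G} (hx : x ∈ affine Hb) : ∃ m₀ : ℕ, ∀ m, m₀ ≤ m → x ∈ riemannRochSpace (m • Hb) := by
  rcases eq_or_ne x 0 with rfl | hx0
  · exact ⟨0, fun m _ => zero_mem _⟩
  refine ⟨(R.div x).support.sup fun P => (-P.ord x).toNat, fun m hm => ?_⟩
  rw [mem_riemannRochSpace_iff]
  refine fun P => Or.inr ?_
  rw [Finsupp.smul_apply, nsmul_eq_mul]
  by_cases hP : Hb P = 0
  · rw [hP, mul_zero, neg_zero]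
    exact ((P.adicValuation_le_one_iff).mp
      ((FunctionField.mem_iff_adicValuation_le_one P).mp (hx P hP))).resolve_left hx0
  · have h1 : 1 ≤ Hb P := lt_of_le_of_ne (Finsupp.le_def.mp hHb P) (Ne.symm hP)
    by_cases hs : P ∈ (R.div x).support
    · have h2 : (-P.ord x).toNat ≤ m :=
        (Finset.le_sup (f := fun P => (-Place.ord P x).toNat) hs).trans hm
      have h3 : (m : ℤ) ≤ m * Hb P := le_mul_of_one_le_right (Int.natCast_nonneg m) h1
      omega
    · rw [Finsupp.notMem_support_iff, R.div_apply] at hs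
      have : 0 ≤ (m : ℤ) * Hb P := by positivity
      omega

theorem val_le_exp_neg_one {P : Place k G} {x : G} (h : P.adicValuation x < 1) :
    P.adicValuation x ≤ exp (-1) := by
  rcases (FunctionField.adicValuation_lt_one_iff P).mp h with rfl | h'
  · simp
  · exact P.adicValuation_le_exp_iff.mpr (Or.inr (by omega))

/-- A place of degree one has residues in the constants. -/
theorem exists_residue {P : Place k G} (hdeg : P.deg = 1) {x : G}
    (hx : x ∈ P.toValuationSubring) :
    ∃ a : k, P.adicValuation (x - algebraMap k G a) < 1 := by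
  obtain ⟨a, ha⟩ := (finrank_eq_one_iff_of_nonzero' (1 : P.ResidueField) one_ne_zero).mp hdeg
    (IsLocalRing.residue _ ⟨x, hx⟩)
  refine ⟨a, ?_⟩
  have h : IsLocalRing.residue _ (⟨x, hx⟩ - algebraMap k P.toValuationSubring a) = 0 := by
    rw [map_sub, ← ha, Algebra.smul_def, mul_one, sub_eq_zero]
    rfl
  rw [IsLocalRing.residue_eq_zero_iff, IsLocalRing.mem_maximalIdeal, mem_nonunits_iff] at h
  refine lt_of_le_of_ne ((FunctionField.mem_iff_adicValuation_le_one P).mp
    (sub_mem hx (P.algebraMap_mem' a))) fun h1 => h ?_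
  exact (P.adicValuation_coe_eq_one_iff _).mp h1

variable {g : ℕ} {c : ℤ} (R : RiemannData k G g c) {Hb : Divisor k G}

include R in
/-- Approximation by functions regular off `Hb`. -/
theorem exists_approx (hdeg : 0 < Divisor.degree Hb) (τ : Place k G → G)
    (E : Divisor k G) (hE : 0 ≤ E) (hsupp : ∀ P, E P ≠ 0 → Hb P = 0)
    (hτ : ∀ P, E P ≠ 0 → τ P ∈ P.toValuationSubring) :
    ∃ z ∈ affine Hb, ∀ P, E P ≠ 0 → P.adicValuation (τ P - z) ≤ exp (-E P) := by
  classical
  induction hn : (Divisor.degree E).toNat using Nat.strong_induction_on generalizing E with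
  | _ n ih =>
    by_cases h0 : E = 0
    · exact ⟨0, zero_mem _, fun P hP => absurd (by simp [h0]) hP⟩
    obtain ⟨P, hP⟩ : ∃ P, E P ≠ 0 := by
      by_contra h
      push Not at h
      exact h0 (Finsupp.ext h)
    have hP1 : 1 ≤ E P := lt_of_le_of_ne (Finsupp.le_def.mp hE P) (Ne.symm hP)
    set E' : Divisor k G := E - Finsupp.single P 1 with hE'
    have hE'P : E' P = E P - 1 := by simp [hE']
    have hE'Q : ∀ Q, Q ≠ P → E' Q = E Q := fun Q hQ => by
      simp [hE', Finsupp.single_eq_of_ne hQ]
    have hE'0 : 0 ≤ E' := Finsupp.le_def.mpr fun Q => by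
      rcases eq_or_ne Q P with rfl | hQ
      · rw [hE'P, Finsupp.zero_apply]; omega
      · rw [hE'Q Q hQ]; exact Finsupp.le_def.mp hE Q
    have hsub : ∀ Q, E' Q ≠ 0 → E Q ≠ 0 := fun Q hQ => by
      rcases eq_or_ne Q P with rfl | hQ'
      · exact hP
      · rwa [← hE'Q Q hQ']
    have hdE : Divisor.degree E' = Divisor.degree E - 1 := by
      rw [hE', map_sub, R.degree_single]
    have hd0 : 0 ≤ Divisor.degree E' := by
      simpa using R.degree_mono hE'0
    obtain ⟨z, hz, hzE⟩ := ih _ (by omega) E' hE'0 (fun Q h => hsupp Q (hsub Q h))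
      (fun Q h => hτ Q (hsub Q h)) rfl
    -- a function with exact order `E' P` at `P`
    set m : ℕ := (c + 1 + Divisor.degree E').toNat with hm
    have hD : c + 1 ≤ Divisor.degree (m • Hb - E') := by
      rw [map_sub, map_nsmul, nsmul_eq_mul]
      have : (m : ℤ) ≤ m * Divisor.degree Hb := le_mul_of_one_le_right (by positivity) hdeg
      omega
    obtain ⟨e, he, he0, heP⟩ := R.exists_ord_eq hD P
    have hHP : Hb P = 0 := hsupp P hP
    have heP' : P.ord e = E' P := by
      simp only [Finsupp.sub_apply, Finsupp.smul_apply, hHP, smul_zero, zero_sub] at heP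
      omega
    have heL : e ∈ riemannRochSpace (m • Hb) := by
      refine LSpace_mono ?_ he
      exact sub_le_self _ hE'0
    have hepos : P.adicValuation e = exp (-E' P) := (FunctionField.ord_eq_iff P he0).mp heP'
    have hd : P.adicValuation (τ P - z) ≤ exp (-E' P) := by
      by_cases h : E' P = 0
      · rw [h, neg_zero, exp_zero, ← FunctionField.mem_iff_adicValuation_le_one]
        exact sub_mem (hτ P hP) (hz P hHP)
      · exact hzE P h
    have hw : (τ P - z) / e ∈ P.toValuationSubring := by
      rw [FunctionField.mem_iff_adicValuation_le_one, map_div₀, hepos]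
      exact div_le_one_of_le₀ hd zero_le
    obtain ⟨a, ha⟩ := exists_residue (R.deg_one P) hw
    refine ⟨z + algebraMap k G a * e,
      add_mem hz (mul_mem (Subalgebra.algebraMap_mem _ a) (mem_affine_of_mem heL)),
      fun Q hQ => ?_⟩
    rcases eq_or_ne Q P with rfl | hQP
    · have hsplit : τ Q - (z + algebraMap k G a * e) =
          ((τ Q - z) / e - algebraMap k G a) * e := by
        field_simp
        ring
      rw [hsplit, map_mul, hepos]
      refine le_trans (mul_le_mul_left (val_le_exp_neg_one ha) _) ?_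
      rw [← exp_add, exp_le_exp]
      omega
    · have h1 : Q.adicValuation (τ Q - z) ≤ exp (-E Q) := by
        rw [← hE'Q Q hQP]
        exact hzE Q (by rwa [hE'Q Q hQP])
      have h2 : Q.adicValuation (algebraMap k G a * e) ≤ exp (-E Q) := by
        rw [map_mul]
        refine (mul_le_of_le_one_left zero_le (Q.adicValuation_algebraMap_le_one a)).trans ?_
        have := he Q
        rwa [Finsupp.sub_apply, Finsupp.smul_apply, hsupp Q hQ, smul_zero, zero_sub,
          hE'Q Q hQP] at this
      rw [← sub_sub]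
      exact (Valuation.map_sub _ _ _).trans (max_le h1 h2)

include R in
/-- A function vanishing at the common zeros of an ideal with simple zeros lies in it. -/
theorem mem_of_stable (hdeg : 0 < Divisor.degree Hb) {J : AddSubgroup G}
    (hJA : ∀ x ∈ J, x ∈ affine Hb) (hmul : ∀ x ∈ J, ∀ w ∈ affine Hb, w * x ∈ J)
    {b : G} (hb : b ∈ J) (hb0 : b ≠ 0)
    (hsimple : ∀ P : Place k G, Hb P = 0 → ∃ y ∈ J, y ≠ 0 ∧ P.ord y ≤ 1)
    {x : G} (hx : x ∈ affine Hb)
    (hx0 : ∀ P : Place k G, Hb P = 0 → (∀ y ∈ J, P.adicValuation y < 1) →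
      P.adicValuation x < 1) : x ∈ J := by
  classical
  have haff : ∀ {y : G} {P : Place k G}, y ∈ affine Hb → Hb P = 0 → P.adicValuation y ≤ 1 :=
    fun {y P} hy hP => (FunctionField.mem_iff_adicValuation_le_one P).mp (hy P hP)
  set T : Finset (Place k G) := (R.div b).support.filter fun P => Hb P = 0 with hT
  have hTH : ∀ P ∈ T, Hb P = 0 := fun P h => (Finset.mem_filter.mp h).2
  -- an element of `J` with the least order at each zero of `b`
  have hy : ∀ P ∈ T, ∃ y ∈ J, exp (-1) ≤ P.adicValuation y ∧
      P.adicValuation x ≤ P.adicValuation y := by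
    intro P hP
    by_cases h : ∀ y ∈ J, P.adicValuation y < 1
    · obtain ⟨y, hyJ, hy0, hy1⟩ := hsimple P (hTH P hP)
      refine ⟨y, hyJ, ?_, ?_⟩
      · rw [P.adicValuation_eq_exp_neg_ord hy0, exp_le_exp]; omega
      · refine (val_le_exp_neg_one (hx0 P (hTH P hP) h)).trans ?_
        rw [P.adicValuation_eq_exp_neg_ord hy0, exp_le_exp]; omega
    · push Not at h
      obtain ⟨y, hyJ, hy1⟩ := h
      refine ⟨y, hyJ, le_trans ?_ hy1, (haff hx (hTH P hP)).trans hy1⟩
      rw [← exp_zero, exp_le_exp]; omega
  choose! Y hYJ hY1 hYx using hy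
  have he : ∀ Q ∈ T, ∃ e ∈ affine Hb, ∀ P ∈ T,
      P.adicValuation ((if P = Q then 1 else 0) - e) ≤ exp (-2) := by
    intro Q _
    obtain ⟨e, he, heE⟩ := exists_approx R hdeg (fun P => if P = Q then (1 : G) else 0)
      (∑ P ∈ T, Finsupp.single P 2) (Finset.sum_nonneg fun P _ => by simp)
      (fun P hP => by
        by_contra h
        refine hP ?_
        rw [Finsupp.finsetSum_apply]
        exact Finset.sum_eq_zero fun Q hQ => Finsupp.single_eq_of_ne fun h' =>
          h (h'.symm ▸ hTH Q hQ))
      (fun P _ => by split <;> simp [one_mem, zero_mem])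
    refine ⟨e, he, fun P hP => ?_⟩
    have h2 : (∑ Q ∈ T, Finsupp.single Q (2 : ℤ)) P = 2 := by
      rw [Finsupp.finsetSum_apply, Finset.sum_eq_single P]
      · simp
      · exact fun Q _ hQ => Finsupp.single_eq_of_ne hQ.symm
      · exact fun h => absurd hP h
    have := heE P (by rw [h2]; norm_num)
    rwa [h2] at this
  choose! e he_mem he_val using he
  set y : G := ∑ Q ∈ T, e Q * Y Q with hydef
  have hyJ : y ∈ J := sum_mem fun Q hQ => hmul _ (hYJ Q hQ) _ (he_mem Q hQ)
  have hyval : ∀ P ∈ T, P.adicValuation y = P.adicValuation (Y P) := by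
    intro P hP
    refine Valuation.map_eq_of_sub_lt _ (lt_of_le_of_lt ?_
      ((exp_lt_exp.mpr (by norm_num : (-2 : ℤ) < -1)).trans_le (hY1 P hP)))
    have hsum : y - Y P = ∑ Q ∈ T, -(((if P = Q then 1 else 0) - e Q) * Y Q) := by
      simp only [hydef, sub_mul, neg_sub, Finset.sum_sub_distrib, ite_mul, one_mul, zero_mul,
        Finset.sum_ite_eq, if_pos hP]
    rw [hsum]
    refine Valuation.map_sum_le _ fun Q hQ => ?_
    rw [Valuation.map_neg, map_mul]
    exact (mul_le_mul' (he_val Q hQ P hP) (haff (hJA _ (hYJ Q hQ)) (hTH P hP))).trans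
      (le_of_eq (mul_one _))
  -- divide `x` by `y` up to a multiple of `b`
  obtain ⟨z, hz, hzE⟩ := exists_approx R hdeg (fun _ => x / y)
    (∑ P ∈ T, Finsupp.single P (P.ord b))
    (Finset.sum_nonneg fun P hP => Finsupp.le_def.mpr fun Q => by
      rcases eq_or_ne Q P with rfl | hQ
      · simpa using ((Q.adicValuation_le_one_iff).mp (haff (hJA b hb) (hTH Q hP))).resolve_left hb0
      · simp [Finsupp.single_eq_of_ne hQ])
    (fun P hP => by
      by_contra h
      refine hP ?_
      rw [Finsupp.finsetSum_apply]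
      exact Finset.sum_eq_zero fun Q hQ => Finsupp.single_eq_of_ne fun h' =>
        h (h'.symm ▸ hTH Q hQ))
    (fun P hP => by
      have hPT : P ∈ T := by
        by_contra h
        refine hP ?_
        rw [Finsupp.finsetSum_apply]
        exact Finset.sum_eq_zero fun Q hQ => Finsupp.single_eq_of_ne fun h' =>
          h (h'.symm ▸ hQ)
      rw [FunctionField.mem_iff_adicValuation_le_one, map_div₀, hyval P hPT]
      exact div_le_one_of_le₀ (hYx P hPT) zero_le)
  have hw : (x - z * y) / b ∈ affine Hb := by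
    intro P hP
    rw [FunctionField.mem_iff_adicValuation_le_one, map_div₀]
    by_cases hPT : P ∈ T
    · refine div_le_one_of_le₀ ?_ zero_le
      have hsum : (∑ Q ∈ T, Finsupp.single Q (Q.ord b)) P = P.ord b := by
        rw [Finsupp.finsetSum_apply, Finset.sum_eq_single P]
        · simp
        · exact fun Q _ hQ => Finsupp.single_eq_of_ne hQ.symm
        · exact fun h => absurd hPT h
      have hne : P.ord b ≠ 0 := by
        have := Finsupp.mem_support_iff.mp (Finset.mem_filter.mp hPT).1
        rwa [R.div_apply] at this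
      have h := hzE P (by rwa [hsum])
      rw [hsum, ← P.adicValuation_eq_exp_neg_ord hb0] at h
      have hy0 : y ≠ 0 := fun h0 => by
        have h1 := hY1 P hPT
        rw [← hyval P hPT, h0, map_zero] at h1
        exact exp_ne_zero (le_antisymm h1 zero_le)
      have hfac : x - z * y = (x / y - z) * y := by field_simp
      rw [hfac, map_mul]
      exact (mul_le_mul' h (haff (hJA y hyJ) hP)).trans (le_of_eq (mul_one _))
    · have hb1 : P.adicValuation b = 1 := by
        rw [FunctionField.adicValuation_eq_one_iff P hb0]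
        by_contra h
        exact hPT (Finset.mem_filter.mpr
          ⟨Finsupp.mem_support_iff.mpr (by rwa [R.div_apply]), hP⟩)
      rw [hb1, div_one]
      exact haff (sub_mem hx (mul_mem hz (hJA y hyJ))) hP
  have hxeq : x = z * y + (x - z * y) / b * b := by field_simp; ring
  rw [hxeq]
  exact add_mem (hmul _ hyJ _ hz) (hmul _ hb _ hw)

include R in
/-- Leading parts of large degree are multiples of a power of `j`. -/
theorem exists_top (hHb : 0 ≤ Hb) {j : G} (hj0 : j ≠ 0)
    (hj : ∀ v : Place k G, Hb v = max (-v.ord j) 0)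
    {a r s : ℕ} (hr : r ≤ s) (hs : c ≤ Divisor.degree ((s - r) • Hb))
    {x : G} (hx : x ∈ riemannRochSpace ((s + a) • Hb)) :
    ∃ v ∈ riemannRochSpace (s • Hb), x - v * j ^ a ∈ riemannRochSpace ((s + a - r) • Hb) := by
  have := fun D => R.finite D
  have hja : j ^ a ≠ 0 := pow_ne_zero _ hj0
  have hord : ∀ v : Place k G, v.ord (j ^ a) = (a : ℤ) * v.ord j := fun v =>
    FunctionField.ord_pow v j a
  set T : G →ₗ[k] G := LinearMap.mulRight k (j ^ a)
  have hTinj : Function.Injective T := mul_left_injective₀ hja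
  set U := (riemannRochSpace (s • Hb)).map T
  set W : Submodule k G := riemannRochSpace ((s + a - r) • Hb)
  have hUW : U ⊔ W ≤ riemannRochSpace ((s + a) • Hb) := by
    refine sup_le ?_ (LSpace_mono (nsmul_le_nsmul_left hHb (by omega)))
    rintro _ ⟨v, hv, rfl⟩
    rw [add_smul]
    refine R.mul_mem hv ?_
    rw [mem_LSpace hja]
    intro P
    rw [hord, Finsupp.smul_apply, nsmul_eq_mul, hj, ← mul_add]
    exact mul_nonneg (by positivity) (by have := le_max_left (-P.ord j) 0; omega)
  have hinf : U ⊓ W = (riemannRochSpace ((s - r) • Hb)).map T := by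
    apply le_antisymm
    · rintro _ ⟨⟨v, hv, rfl⟩, hw⟩
      refine ⟨v, ?_, rfl⟩
      rcases eq_or_ne v 0 with rfl | hv0
      · exact zero_mem _
      have hvs := (mem_LSpace hv0).mp hv
      have hw' := (mem_LSpace (mul_ne_zero hv0 hja)).mp hw
      rw [SetLike.mem_coe, mem_LSpace hv0]
      intro P
      have h1 := hvs P
      have h2 := hw' P
      rw [P.ord_mul hv0 hja, hord] at h2
      simp only [Finsupp.smul_apply, nsmul_eq_mul] at h1 h2 ⊢
      by_cases hP : Hb P = 0
      · rw [hP, mul_zero, zero_add] at h1 ⊢; exact h1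
      · have : P.ord j = -Hb P := by have := hj P; omega
        rw [this] at h2
        push_cast [Nat.cast_sub hr, Nat.cast_sub (show r ≤ s + a by omega)] at h1 h2 ⊢
        nlinarith
    · rintro _ ⟨v, hv, rfl⟩
      refine ⟨⟨v, LSpace_mono (nsmul_le_nsmul_left hHb (Nat.sub_le s r)) hv, rfl⟩, ?_⟩
      show v * j ^ a ∈ riemannRochSpace ((s + a - r) • Hb)
      rw [show (s + a - r) = (s - r) + a by omega, add_smul]
      refine R.mul_mem hv ?_
      rw [mem_LSpace hja]
      intro P
      rw [hord, Finsupp.smul_apply, nsmul_eq_mul, hj, ← mul_add]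
      exact mul_nonneg (by positivity) (by have := le_max_left (-P.ord j) 0; omega)
  have hfin : ∀ D, Module.finrank k ((riemannRochSpace D).map T) =
      Module.finrank k (riemannRochSpace (K := k) (F := G) D) := fun D =>
    (Submodule.equivMapOfInjective T hTinj _).finrank_eq.symm
  have hsum := Submodule.finrank_sup_add_finrank_inf_eq U W
  rw [hinf, hfin, hfin] at hsum
  have hdeg : ∀ t : ℕ, s - r ≤ t → c ≤ Divisor.degree (t • Hb) := fun t ht =>
    hs.trans (R.degree_mono (nsmul_le_nsmul_left hHb ht))
  have e1 := R.exact' _ (hdeg s (by omega))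
  have e2 := R.exact' _ (hdeg (s + a - r) (by omega))
  have e3 := R.exact' _ hs
  have e4 := R.exact' _ (hdeg (s + a) (by omega))
  simp only [map_nsmul, nsmul_eq_mul] at e1 e2 e3 e4
  push_cast [Nat.cast_sub hr, Nat.cast_sub (show r ≤ s + a by omega)] at e1 e2 e3 e4
  have heq : U ⊔ W = riemannRochSpace ((s + a) • Hb) :=
    Submodule.eq_of_le_of_finrank_eq hUW (by
      have h : (Module.finrank k (↥(U ⊔ W)) : ℤ) =
          Module.finrank k (riemannRochSpace ((s + a) • Hb)) := by
        have hsum' := congrArg (fun n : ℕ => (n : ℤ)) hsum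
        push_cast at hsum'
        linarith
      exact_mod_cast h)
  rw [← heq] at hx
  obtain ⟨_, ⟨v, hv, rfl⟩, w, hw, rfl⟩ := Submodule.mem_sup.mp hx
  exact ⟨v, hv, by simpa [T] using hw⟩

end Fermat.Agent.TwoComp
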