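import Fermat.Agent.TwoComp.Nodes

/-!
# The dimension count for the two-component fibre
-/

set_option autoImplicit false

noncomputable section

open AlgebraicCurve WithZero Fermat.Agent.GoodReduction Fermat.Agent.KummerReduction
open Fermat.Agent.FunctionField (IsFunctionField)

namespace Fermat.Agent.TwoComp

/-- When `div f = n D`, the Kummer space is a Riemann–Roch space. -/
theorem kummerSpace_eq {K F : Type} [Field K] [Field F] [Algebra K F] {f : F} (hf : f ≠ 0)
    {n : ℕ} [NeZero n] {D : Divisor K F} (hD : ∀ v : Place K F, v.ord f = n * D v)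
    (E : Divisor K F) : kummerSpace f n E = riemannRochSpace (E + D) := by
  ext φ
  rcases eq_or_ne φ 0 with rfl | hφ
  · simp
  rw [mem_kummerSpace, mem_riemannRochSpace_iff, mem_riemannRochSpace_iff]
  refine forall_congr' fun v => ?_
  simp only [hφ, mul_ne_zero (pow_ne_zero n hφ) hf, false_or]
  rw [v.ord_mul (pow_ne_zero n hφ) hf, FunctionField.ord_pow, hD, Finsupp.smul_apply,
    Finsupp.add_apply, nsmul_eq_mul]
  have hn : (0 : ℤ) < n := by exact_mod_cast Nat.pos_of_ne_zero (NeZero.ne n)
  constructor <;> intro h <;> nlinarith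

namespace Setting

variable {K F k G : Type} [Field K] [Field F] [Field k] [Field G] [Algebra K F] [Algebra k G]
variable (T : Setting K F k G) [IsFunctionField k G]

local notation "Nd" => {P : Place k G // T.IsNode P}

theorem regular_box {m : ℕ} {ψ : Fin 2 → G} (hψ : ψ ∈ T.box m) (s : Nd) (e : Fin 2) :
    ψ e ∈ (T.nodes.place s e).toValuationSubring := by
  obtain ⟨h0, h1⟩ := T.mem_box.mp hψ
  revert e
  rw [Fin.forall_fin_two]
  exact ⟨mem_affine_of_mem h0 _ (T.Hb_place s 0), mem_affine_of_mem h1 _ (T.Hb_place s 1)⟩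

/-- The gluing conditions as a linear map. -/
def defect (ζ : Nd → k) (m : ℕ) : T.box m →ₗ[k] (Nd → k) where
  toFun ψ s := T.nodes.val s 1 (ψ.1 1) - ζ s * T.nodes.val s 0 (ψ.1 0)
  map_add' ψ χ := by
    funext s
    simp only [Submodule.coe_add, Pi.add_apply]
    rw [Nodes.val_add _ (T.regular_box ψ.2 s 1) (T.regular_box χ.2 s 1),
      Nodes.val_add _ (T.regular_box ψ.2 s 0) (T.regular_box χ.2 s 0)]
    ring
  map_smul' c ψ := by
    funext s
    simp only [Submodule.coe_smul, Pi.smul_apply, RingHom.id_apply, smul_eq_mul]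
    rw [Nodes.val_smul _ c (T.regular_box ψ.2 s 1), Nodes.val_smul _ c (T.regular_box ψ.2 s 0)]
    ring

theorem glued_eq (ζ : Nd → k) (m : ℕ) :
    T.poles.glued ζ m = (LinearMap.ker (T.defect ζ m)).map (T.box m).subtype := by
  ext ψ
  rw [PoleData.mem_glued, Submodule.mem_map]
  constructor
  · rintro ⟨h1, h2⟩
    have hb : ψ ∈ T.box m := Submodule.mem_pi.mpr fun i _ => h1 i
    exact ⟨⟨ψ, hb⟩, LinearMap.mem_ker.mpr (funext fun s => sub_eq_zero.mpr (h2 s)), rfl⟩
  · rintro ⟨χ, hχ, rfl⟩
    exact ⟨fun i => Submodule.mem_pi.mp χ.2 i (Set.mem_univ i),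
      fun s => sub_eq_zero.mp (congrFun (LinearMap.mem_ker.mp hχ) s)⟩

/-- Functions with prescribed values at the second branches, uniformly in the pole bound. -/
theorem exists_values : ∃ m₃ : ℕ, ∀ m, m₃ ≤ m → ∀ a : Nd → k,
    ∃ x ∈ riemannRochSpace ((m * T.q) • T.Hb), ∀ s : Nd, T.nodes.val s 1 x = a s := by
  classical
  have := Fintype.ofFinite Nd
  have hinj : ∀ s r : Nd, T.nodes.place s 1 = T.nodes.place r 1 → s = r := by
    intro s r h
    rw [T.nodes_place_one, T.nodes_place_one] at h
    refine Subtype.ext ?_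
    have h1 := T.partner_partner s.2.1
    have h2 := T.partner_partner r.2.1
    simp only [h] at h1
    exact h1.symm.trans h2
  set E : Divisor k G := ∑ s : Nd, Finsupp.single (T.nodes.place s 1) 1 with hE
  have hval : ∀ r : Nd, E (T.nodes.place r 1) = 1 := fun r => by
    rw [hE, Finsupp.finsetSum_apply, Finset.sum_eq_single r]
    · simp
    · exact fun s _ hs => Finsupp.single_eq_of_ne fun h => hs (hinj _ _ h.symm)
    · exact fun h => absurd (Finset.mem_univ r) h
  have hsupp : ∀ P, E P ≠ 0 → T.Hb P = 0 := fun P hP => by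
    by_contra h
    refine hP ?_
    rw [hE, Finsupp.finsetSum_apply]
    exact Finset.sum_eq_zero fun s _ => Finsupp.single_eq_of_ne fun h' =>
      h (h'.symm ▸ T.Hb_place s 1)
  have hbase : ∀ r : Nd, ∃ e ∈ TwoComp.affine T.Hb,
      ∀ s : Nd, T.nodes.val s 1 e = if s = r then 1 else 0 := by
    intro r
    obtain ⟨e, he, heE⟩ := exists_approx T.RG T.deg_pos
      (fun P => if P = T.nodes.place r 1 then (1 : G) else 0) E
      (Finset.sum_nonneg fun s _ => by simp) hsupp
      (fun P _ => by split <;> simp [one_mem, zero_mem])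
    refine ⟨e, he, fun s => ?_⟩
    rw [T.val_nodes_eq_iff (he _ (T.Hb_place s 1))]
    have h := heE (T.nodes.place s 1) (by rw [hval]; exact one_ne_zero)
    rw [hval, Valuation.map_sub_swap] at h
    refine lt_of_le_of_lt ?_ (show (exp (-1) : ℤᵐ⁰) < 1 by rw [← exp_zero, exp_lt_exp]; omega)
    rcases eq_or_ne s r with rfl | hsr
    · simpa using h
    · rw [if_neg fun h' => hsr (hinj _ _ h')] at h
      simpa [hsr] using h
  choose e he heval using hbase
  choose M hM using fun r => exists_mem_L T.Hb_nonneg T.RG (he r)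
  refine ⟨Finset.univ.sup M, fun m hm a => ⟨∑ r, a r • e r, Submodule.sum_mem _ fun r _ =>
    Submodule.smul_mem _ _ (hM r _ ?_), fun s => ?_⟩⟩
  · exact ((Finset.le_sup (Finset.mem_univ r)).trans hm).trans
      (Nat.le_mul_of_pos_right m (by have := T.two_le; omega))
  · have hmem : ∀ r, e r ∈ (T.nodes.place s 1).toValuationSubring :=
      fun r => he r _ (T.Hb_place s 1)
    have hsum : ∀ S : Finset Nd, T.nodes.val s 1 (∑ r ∈ S, a r • e r) =
        ∑ r ∈ S, a r * T.nodes.val s 1 (e r) := by
      intro S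
      induction S using Finset.induction_on with
      | empty => simp [Nodes.val_zero]
      | insert r S hr ih =>
        rw [Finset.sum_insert hr, Finset.sum_insert hr, Nodes.val_add, ih,
          Nodes.val_smul _ _ (hmem r)]
        · rw [Algebra.smul_def]; exact mul_mem (Place.algebraMap_mem' _ _) (hmem r)
        · exact Subring.sum_mem (T.nodes.place s 1).toValuationSubring.toSubring fun r' _ => by
            rw [Algebra.smul_def]; exact mul_mem (Place.algebraMap_mem' _ _) (hmem r')
    rw [hsum]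
    simp [heval]

/-- The count holds for every function whose divisor is a multiple of `n`. -/
theorem count {f : F} (hf : f ≠ 0) {n : ℕ} [NeZero n]
    (hdvd : ∀ v : Place K F, (n : ℤ) ∣ v.ord f) : T.poles.Count f n := by
  classical
  have := Fintype.ofFinite Nd
  -- `div f = n D`
  set D : Divisor K F := (T.RF.div f).mapRange (fun x : ℤ => x / n) (Int.zero_ediv _) with hDdef
  have hD : ∀ v : Place K F, v.ord f = n * D v := fun v => by
    rw [hDdef, Finsupp.mapRange_apply, T.RF.div_apply, Int.mul_ediv_cancel' (hdvd v)]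
  have hdeg : Divisor.degree D = 0 := by
    have h : T.RF.div f = (n : ℕ) • D := Finsupp.ext fun v => by
      rw [Finsupp.smul_apply, T.RF.div_apply, nsmul_eq_mul]; exact hD v
    have h' := T.RF.degree_div f
    rw [h, map_nsmul, nsmul_eq_mul, mul_eq_zero] at h'
    exact h'.resolve_left (by exact_mod_cast NeZero.ne n)
  obtain ⟨m₃, hm₃⟩ := T.exists_values
  refine ⟨T.m₂ + m₃, fun m hm => ?_⟩
  have hfinD := T.RF.finite (m • T.H + D)
  have hsec : T.poles.sections f n m = riemannRochSpace (m • T.H + D) :=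
    kummerSpace_eq hf hD _
  have hcF : T.cF ≤ Divisor.degree (m • T.H) := by
    rw [map_nsmul, nsmul_eq_mul, T.deg_eq]
    have := T.m₂_le.2.2.2
    have hq := T.two_le
    have h1 : (1 : ℤ) ≤ ((T.q : ℤ) + 1) * Divisor.degree T.Hb := by
      have := T.deg_pos
      nlinarith
    have : (m : ℤ) ≤ m * (((T.q : ℤ) + 1) * Divisor.degree T.Hb) :=
      le_mul_of_one_le_right (by positivity) h1
    omega
  -- glued spaces all have the same dimension
  have hbox := T.finite_box m
  have hone : ((1 : Fin 2 → G)) ∈ T.box m := T.mem_box.mpr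
    ⟨one_mem_rr (nsmul_nonneg T.Hb_nonneg _), one_mem_rr (nsmul_nonneg T.Hb_nonneg _)⟩
  have hsurj : ∀ ζ : Nd → k, Function.Surjective (T.defect ζ m) := by
    intro ζ a
    obtain ⟨x, hx, hxa⟩ := hm₃ m (by omega) a
    have hmem : ![0, x] ∈ T.box m := T.mem_box.mpr ⟨zero_mem _, hx⟩
    refine ⟨⟨_, hmem⟩, funext fun s => ?_⟩
    show T.nodes.val s 1 x - ζ s * T.nodes.val s 0 0 = a s
    rw [Nodes.val_zero, mul_zero, sub_zero, hxa]
  have hdim : ∀ ζ : Nd → k, Module.finrank k (T.poles.glued ζ m) + Fintype.card Nd =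
      Module.finrank k (T.box m) := by
    intro ζ
    rw [T.glued_eq, ← (Submodule.equivMapOfInjective _ (T.box m).injective_subtype _).finrank_eq,
      add_comm, ← Module.finrank_pi (R := k) (ι := Nd),
      ← LinearMap.finrank_range_add_finrank_ker (T.defect ζ m),
      LinearMap.range_eq_top.mpr (hsurj ζ), finrank_top]
  have hglue1 : T.poles.glued (fun _ => 1) m = T.R m := by
    refine le_antisymm (fun ψ hψ => ?_) fun ψ hψ => ⟨fun i => ?_, fun s => ?_⟩
    · have hb : ψ ∈ T.box m := Submodule.mem_pi.mpr fun i _ => hψ.1 i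
      obtain ⟨h0, h1⟩ := T.mem_box.mp hb
      refine T.mem_R_of_InR (by omega) (T.inR_of_glued (mem_affine_of_mem h0) (mem_affine_of_mem h1)
        fun P hP => ?_) hb
      have h := hψ.2 ⟨P, hP⟩
      rw [T.nodes_comp, T.nodes_comp, one_mul] at h
      exact (T.val_eq_iff ⟨P, hP⟩ (mem_affine_of_mem h0) (mem_affine_of_mem h1)).mp h.symm
    · exact Submodule.mem_pi.mp (T.R_le_box m hψ) i (Set.mem_univ i)
    · have hR : T.InR ψ := ⟨m, hψ⟩
      rw [T.nodes_comp, T.nodes_comp, one_mul, eq_comm,
        T.val_eq_iff s (hR.affine 0) (hR.affine 1)]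
      exact s.2.2 _ hR
  have hsame : Module.finrank K (T.poles.sections f n m) =
      Module.finrank K (riemannRochSpace (K := K) (F := F) (m • T.H)) := by
    rw [hsec]
    have e1 := T.RF.exact' _ hcF
    have e2 := T.RF.exact' (m • T.H + D) (by rw [map_add, hdeg, add_zero]; exact hcF)
    rw [map_add, hdeg, add_zero] at e2
    exact_mod_cast e2.trans e1.symm
  refine ⟨hsec ▸ hfinD, fun ζ => ⟨?_, ?_, fun s => ?_⟩⟩
  · rw [T.glued_eq]
    infer_instance
  · rw [hsame, ← T.finrank_R, ← hglue1]
    exact Nat.add_right_cancel ((hdim _).trans (hdim ζ).symm)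
  · obtain ⟨x, hx, hxa⟩ := hm₃ m (by omega) ζ
    refine ⟨![1, x], ⟨fun i => ?_, fun r => ?_⟩, ?_⟩
    · exact Submodule.mem_pi.mp (T.mem_box.mpr ⟨(T.mem_box.mp hone).1, hx⟩ : ![1, x] ∈ T.box m) i
        (Set.mem_univ i)
    · rw [T.nodes_comp, T.nodes_comp]
      show T.nodes.val r 1 x = ζ r * T.nodes.val r 0 1
      rw [hxa, Nodes.val_one, mul_one]
    · rw [T.nodes_comp]
      show T.nodes.val s 0 (1 : G) ≠ 0
      rw [Nodes.val_one]
      exact one_ne_zero

end Setting

end Fermat.Agent.TwoComp
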