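import Fermat.Agent.TwoComp.Reductions
import Fermat.Agent.TwoComp.FibreDegree

/-!
# Frobenius on the reduced curve of level `N`

`φ(τ) ↦ φ(qτ)` maps the function field in characteristic `q` onto its `q`-th powers.
-/

set_option autoImplicit false

noncomputable section

open ModularCurve Fermat.Agent.GaloisBasics IntermediateField

namespace Fermat.Agent.TwoComp

variable {N q : ℕ} [NeZero N] [NeZero q] {A : ValuationSubring Qbar}

local notation "k" => IsLocalRing.ResidueField A

theorem qExpand_algebraMap (c : k) :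
    qExpand k q (algebraMap k (LaurentSeries k) c) = algebraMap k (LaurentSeries k) c := by
  rw [algebraMap_laurentSeries_eq_single, qExpand_single, mul_zero]

omit [NeZero N] in
theorem exists_root_qExpand (hq : q.Prime) (hA : A.LiesOverPrime q) {x : LaurentSeries k}
    (hx : x ∈ modularFunctionFieldFullC k N) :
    ∃ w ∈ modularFunctionFieldFullC k N, qExpand k q x = w ^ q := by
  have := Fact.mk hq
  have := residueField_charP hA hq
  have : CharP (LaurentSeries k) q :=
    charP_of_injective_ringHom (f := (HahnSeries.C : k →+* LaurentSeries k))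
      HahnSeries.C_injective q
  have := residueField_isAlgClosed A
  change x ∈ IntermediateField.adjoin k (divisorExpansionsC k N) at hx
  induction hx using adjoin_induction with
  | mem y hy =>
    obtain ⟨d, hd0, hd, rfl⟩ := hy
    exact ⟨_, jqModCd_mem_full k N hd, qExpand_jd_eq_pow hq hA d⟩
  | algebraMap c =>
    obtain ⟨r, hr⟩ := IsAlgClosed.exists_pow_nat_eq c hq.pos
    exact ⟨algebraMap k (LaurentSeries k) r, IntermediateField.algebraMap_mem _ r,
      by rw [qExpand_algebraMap, ← map_pow, hr]⟩
  | add a b _ _ ha hb =>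
    obtain ⟨u, hu, e⟩ := ha
    obtain ⟨v, hv, e'⟩ := hb
    exact ⟨u + v, add_mem hu hv, by rw [map_add, e, e', add_pow_char]⟩
  | inv a _ ha =>
    obtain ⟨u, hu, e⟩ := ha
    exact ⟨u⁻¹, inv_mem hu, by rw [map_inv₀, e, inv_pow]⟩
  | mul a b _ _ ha hb =>
    obtain ⟨u, hu, e⟩ := ha
    obtain ⟨v, hv, e'⟩ := hb
    exact ⟨u * v, mul_mem hu hv, by rw [map_mul, e, e', mul_pow]⟩

variable (N) in
/-- Frobenius on the reduced curve. -/
def frobG (hq : q.Prime) (hA : A.LiesOverPrime q) :
    modularFunctionFieldFullC k N →ₐ[k] modularFunctionFieldFullC k N where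
  toFun x := ⟨qExpand k q (x : LaurentSeries k), by
    obtain ⟨w, hw, e⟩ := exists_root_qExpand hq hA x.2
    exact e ▸ pow_mem hw q⟩
  map_one' := Subtype.ext (map_one (qExpand k q))
  map_mul' x y := Subtype.ext (map_mul (qExpand k q) (x : LaurentSeries k) y)
  map_zero' := Subtype.ext (map_zero (qExpand k q))
  map_add' x y := Subtype.ext (map_add (qExpand k q) (x : LaurentSeries k) y)
  commutes' c := Subtype.ext (qExpand_algebraMap c)

omit [NeZero N] in
theorem coe_frobG (hq : q.Prime) (hA : A.LiesOverPrime q) (x : modularFunctionFieldFullC k N) :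
    (frobG N hq hA x : LaurentSeries k) = qExpand k q (x : LaurentSeries k) := rfl

omit [NeZero N] in
theorem frobG_pow (hq : q.Prime) (hA : A.LiesOverPrime q) (u : modularFunctionFieldFullC k N) :
    ∃ w, frobG N hq hA u = w ^ q := by
  obtain ⟨w, hw, e⟩ := exists_root_qExpand hq hA u.2
  exact ⟨⟨w, hw⟩, Subtype.ext e⟩

omit [NeZero N] in
theorem frobG_jR (hq : q.Prime) (hA : A.LiesOverPrime q) :
    frobG N hq hA (jR k N) = jR k N ^ q := by
  refine Subtype.ext ?_
  show qExpand k q (jqModC k) = jqModC k ^ q
  simpa [qExpand_one_apply] using qExpand_jd_eq_pow hq hA 1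

end Fermat.Agent.TwoComp
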