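import Fermat.Agent.TwoComp.Approx
import Fermat.Agent.FunctionField.PlaceExists

/-!
# Pullback of places along an endomorphism, and values
-/

set_option autoImplicit false

noncomputable section

open AlgebraicCurve WithZero Fermat.Agent.GoodReduction Fermat.Agent.FunctionField

namespace Fermat.Agent.TwoComp

variable {k G : Type} [Field k] [Field G] [Algebra k G]

theorem val_lt_one_iff {P : Place k G} {x : G} :
    P.adicValuation x < 1 ↔ x = 0 ∨ x⁻¹ ∉ P.toValuationSubring := by
  rcases eq_or_ne x 0 with rfl | hx
  · simp
  rw [mem_iff_adicValuation_le_one, map_inv₀,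
    inv_le_one₀ (zero_lt_iff.mpr (P.adicValuation_ne_zero hx)), not_le]
  simp [hx]

theorem val_sub_lt_one {P : Place k G} {x y : G} (hx : P.adicValuation x < 1)
    (hy : P.adicValuation y < 1) : P.adicValuation (x - y) < 1 :=
  (Valuation.map_sub _ _ _).trans_lt (max_lt hx hy)

theorem val_add_lt_one {P : Place k G} {x y : G} (hx : P.adicValuation x < 1)
    (hy : P.adicValuation y < 1) : P.adicValuation (x + y) < 1 :=
  (Valuation.map_add _ _ _).trans_lt (max_lt hx hy)

theorem val_congr {P : Place k G} {x y : G} (h : P.adicValuation (x - y) < 1) :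
    P.adicValuation x < 1 ↔ P.adicValuation y < 1 := by
  constructor <;> intro h'
  · simpa using val_sub_lt_one h' h
  · simpa using val_add_lt_one h h'

theorem not_lt_one_algebraMap {P : Place k G} {a : k} (ha : a ≠ 0) :
    ¬ P.adicValuation (algebraMap k G a) < 1 := by
  rw [FunctionField.adicValuation_algebraMap P ha]
  exact lt_irrefl _

/-- The value of a function regular at a place of degree one. -/
def value {P : Place k G} (hdeg : P.deg = 1) : P.toValuationSubring →+* k :=
  (RingEquiv.ofBijective (algebraMap k P.ResidueField)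
    ⟨RingHom.injective _, fun r => by
      obtain ⟨a, ha⟩ := (finrank_eq_one_iff_of_nonzero' (1 : P.ResidueField) one_ne_zero).mp hdeg r
      exact ⟨a, by rw [← ha, Algebra.smul_def, mul_one]⟩⟩).symm.toRingHom.comp
    (IsLocalRing.residue _)

theorem val_sub_value_lt {P : Place k G} (hdeg : P.deg = 1) (x : P.toValuationSubring) :
    P.adicValuation ((x : G) - algebraMap k G (value hdeg x)) < 1 := by
  have h : algebraMap k P.ResidueField (value hdeg x) = IsLocalRing.residue _ x :=
    RingEquiv.apply_symm_apply (RingEquiv.ofBijective (algebraMap k P.ResidueField)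
      ⟨RingHom.injective _, fun r => by
        obtain ⟨a, ha⟩ :=
          (finrank_eq_one_iff_of_nonzero' (1 : P.ResidueField) one_ne_zero).mp hdeg r
        exact ⟨a, by rw [← ha, Algebra.smul_def, mul_one]⟩⟩) _
  have h' : IsLocalRing.residue _
      (x - algebraMap k P.toValuationSubring (value hdeg x)) = 0 := by
    rw [map_sub, ← h, sub_eq_zero]; rfl
  rw [IsLocalRing.residue_eq_zero_iff, IsLocalRing.mem_maximalIdeal, mem_nonunits_iff] at h'
  exact lt_of_le_of_ne ((mem_iff_adicValuation_le_one P).mp
    (sub_mem x.2 (P.algebraMap_mem' _)))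
    fun h1 => h' ((P.adicValuation_coe_eq_one_iff _).mp h1)

theorem value_eq_iff {P : Place k G} (hdeg : P.deg = 1) (x : P.toValuationSubring) (a : k) :
    value hdeg x = a ↔ P.adicValuation ((x : G) - algebraMap k G a) < 1 := by
  refine ⟨fun h => h ▸ val_sub_value_lt hdeg x, fun h => ?_⟩
  by_contra hne
  refine not_lt_one_algebraMap (P := P) (sub_ne_zero.mpr hne) ?_
  have h2 := val_sub_lt_one h (val_sub_value_lt hdeg x)
  rwa [sub_sub_sub_cancel_left, ← map_sub] at h2

theorem value_algebraMap {P : Place k G} (hdeg : P.deg = 1) (a : k) :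
    value hdeg (algebraMap k P.toValuationSubring a) = a := by
  rw [value_eq_iff, Place.coe_algebraMap, sub_self, map_zero]
  exact zero_lt_one

variable [IsFunctionField k G]

/-- The pullback of a place along an endomorphism not mapping `G` into its ring. -/
def comapPlace (φ : G →ₐ[k] G) (P : Place k G) (h : ∃ x, φ x ∉ P.toValuationSubring) :
    Place k G :=
  placeOfValuationSubring (P.toValuationSubring.comap φ.toRingHom)
    (fun a => by
      rw [ValuationSubring.mem_comap]
      show φ (algebraMap k G a) ∈ _
      rw [φ.commutes]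
      exact P.algebraMap_mem' a)
    (fun htop => by
      obtain ⟨x, hx⟩ := h
      have hx' : x ∈ P.toValuationSubring.comap φ.toRingHom := htop ▸ ValuationSubring.mem_top x
      exact hx (ValuationSubring.mem_comap.mp hx'))

/-- Membership in the ring of a pulled back place. -/
theorem mem_comapPlace (φ : G →ₐ[k] G) (P : Place k G) (h : ∃ x, φ x ∉ P.toValuationSubring)
    {x : G} : x ∈ (comapPlace φ P h).toValuationSubring ↔ φ x ∈ P.toValuationSubring :=
  ValuationSubring.mem_comap

theorem comapPlace_lt_one (φ : G →ₐ[k] G) (P : Place k G)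
    (h : ∃ x, φ x ∉ P.toValuationSubring) {x : G} :
    (comapPlace φ P h).adicValuation x < 1 ↔ P.adicValuation (φ x) < 1 := by
  rw [val_lt_one_iff, val_lt_one_iff, mem_comapPlace, map_inv₀,
    map_eq_zero_iff φ φ.toRingHom.injective]

end Fermat.Agent.TwoComp
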