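import Fermat.Agent.TwoComp.Setting
import Fermat.Agent.TwoComp.Places

/-!
# The nodes of the two-component fibre

A node is a place `P` of level `N`, fixed by the square of the Frobenius pullback, at which every
reduced pair takes equal values on the two branches. The reduced pairs are exactly the pairs of
regular functions with equal values at all nodes.
-/

set_option autoImplicit false

noncomputable section

open AlgebraicCurve WithZero Fermat.Agent.GoodReduction Fermat.Agent.KummerReduction
open Fermat.Agent.FunctionField (IsFunctionField)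

namespace Fermat.Agent.TwoComp.Setting

variable {K F k G : Type} [Field K] [Field F] [Field k] [Field G] [Algebra K F] [Algebra k G]
variable (T : Setting K F k G)

local notation "𝒜" => TwoComp.affine T.Hb

theorem jG_affine : T.jG ∈ 𝒜 := mem_affine_of_mem (m := 1) (by rw [one_smul]; exact T.jG_mem)

theorem Hb_eq_zero_of_mem {P : Place k G} (h : T.jG ∈ P.toValuationSubring) : T.Hb P = 0 := by
  have h' := ((P.adicValuation_le_one_iff).mp
    ((FunctionField.mem_iff_adicValuation_le_one P).mp h)).resolve_left T.jG_ne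
  rw [T.hj, max_eq_right (by omega)]

/-- The Frobenius pullback is injective. -/
theorem Fr_inj : Function.Injective T.Fr := T.Fr.toRingHom.injective

theorem Fr_iter_lt {P : Place k G} {x : G}
    (h : P.adicValuation (T.Fr (T.Fr x)) < 1) :
    P.adicValuation (T.Fr (T.Fr x)) ≤ exp (-2) := by
  obtain ⟨w, hw⟩ := T.Fr_pow (T.Fr x)
  rw [hw, map_pow] at h ⊢
  have hw1 : P.adicValuation w ≤ exp (-1) := by
    refine val_le_exp_neg_one ?_
    by_contra hc
    exact absurd h (not_lt.mpr (one_le_pow_of_one_le' (not_lt.mp hc) _))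
  refine (pow_le_pow_left₀ zero_le hw1 _).trans ?_
  rw [← exp_nsmul, exp_le_exp, nsmul_eq_mul]
  have := T.two_le
  omega

/-- A finite place fixed by the square of the Frobenius pullback. -/
def IsSpecial (P : Place k G) : Prop :=
  T.Hb P = 0 ∧ ∀ u ∈ 𝒜, P.adicValuation (u - T.Fr (T.Fr u)) < 1

/-- A function cutting out the special places. -/
def specialFun : G := T.jG - T.Fr (T.Fr T.jG)

theorem specialFun_ne : T.specialFun ≠ 0 := by
  intro h
  obtain ⟨v, hv⟩ : ∃ v, T.Hb v ≠ 0 := by
    by_contra hc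
    push Not at hc
    have := T.deg_pos
    rw [show T.Hb = 0 from Finsupp.ext hc, map_zero] at this
    exact lt_irrefl _ this
  have hpos : 0 < -v.ord T.jG := by
    rw [T.hj] at hv
    by_contra hc
    exact hv (max_eq_right (not_lt.mp hc))
  rw [specialFun, T.Fr_j, map_pow, T.Fr_j, sub_eq_zero, ← pow_mul] at h
  have h' := congrArg v.ord h
  rw [FunctionField.ord_pow] at h'
  push_cast at h'
  have := T.two_le
  have h4 : (4 : ℤ) ≤ (T.q : ℤ) * T.q := by
    have : (2 : ℤ) ≤ T.q := by exact_mod_cast T.two_le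
    nlinarith
  nlinarith

theorem finite_isSpecial : {P : Place k G | T.IsSpecial P}.Finite := by
  refine (T.RG.div T.specialFun).support.finite_toSet.subset fun P hP => ?_
  have h := hP.2 T.jG T.jG_affine
  rw [Finset.mem_coe, Finsupp.mem_support_iff, T.RG.div_apply]
  have := ((FunctionField.adicValuation_lt_one_iff P).mp h).resolve_left T.specialFun_ne
  exact ne_of_gt this

/-- A function regular off `Hb` with a simple zero at `P`. -/
theorem exists_uniformizer {P : Place k G} (hP : T.Hb P = 0) :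
    ∃ u ∈ 𝒜, u ≠ 0 ∧ P.adicValuation u = exp (-1) := by
  classical
  obtain ⟨f, hf0, hf⟩ := FunctionField.exists_adicValuation_eq P (-1)
  have hfmem : f ∈ P.toValuationSubring := by
    rw [FunctionField.mem_iff_adicValuation_le_one, hf, ← exp_zero, exp_le_exp]; omega
  obtain ⟨z, hz, hzE⟩ := exists_approx T.RG T.deg_pos (fun _ => f) (Finsupp.single P 2)
    (by simp) (fun Q hQ => by
      rcases eq_or_ne Q P with rfl | h
      · exact hP
      · simp [Finsupp.single_eq_of_ne h] at hQ)
    (fun Q hQ => by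
      rcases eq_or_ne Q P with rfl | h
      · exact hfmem
      · simp [Finsupp.single_eq_of_ne h] at hQ)
  have h := hzE P (by simp)
  rw [Finsupp.single_eq_same, Valuation.map_sub_swap] at h
  have hval : P.adicValuation z = exp (-1) := by
    rw [← hf]
    refine Valuation.map_eq_of_sub_lt _ (h.trans_lt ?_)
    rw [hf, exp_lt_exp]; norm_num
  exact ⟨z, hz, fun h0 => exp_ne_zero (by rw [← hval, h0, map_zero]), hval⟩

/-- At a special place some image of `Fr²` has a pole. -/
theorem exists_pole {P : Place k G} (hP : T.IsSpecial P) :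
    ∃ x, T.Fr (T.Fr x) ∉ P.toValuationSubring := by
  obtain ⟨u, hu, hu0, hval⟩ := T.exists_uniformizer hP.1
  refine ⟨u⁻¹, ?_⟩
  have h : P.adicValuation (T.Fr (T.Fr u)) < 1 :=
    (val_congr (hP.2 u hu)).mp (by rw [hval, ← exp_zero, exp_lt_exp]; omega)
  rw [map_inv₀, map_inv₀]
  exact (val_lt_one_iff.mp h).resolve_left
    ((map_ne_zero_iff _ T.Fr_inj).mpr ((map_ne_zero_iff _ T.Fr_inj).mpr hu0))

/-- Simple zeros of the differences `u - Fr² u`. -/
theorem exists_simple {P : Place k G} (hP : T.Hb P = 0) :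
    ∃ u ∈ 𝒜, u - T.Fr (T.Fr u) ≠ 0 ∧ P.ord (u - T.Fr (T.Fr u)) ≤ 1 := by
  by_cases hS : T.IsSpecial P
  · obtain ⟨u, hu, -, hval⟩ := T.exists_uniformizer hP
    have hlt : P.adicValuation (T.Fr (T.Fr u)) < 1 :=
      (val_congr (hS.2 u hu)).mp (by rw [hval, ← exp_zero, exp_lt_exp]; omega)
    have h2 := T.Fr_iter_lt hlt
    have h3 : P.adicValuation (u - T.Fr (T.Fr u)) = exp (-1) := by
      rw [← hval]
      refine Valuation.map_eq_of_sub_lt _ ?_
      rw [sub_sub_cancel_left, Valuation.map_neg, hval]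
      exact h2.trans_lt (exp_lt_exp.mpr (by norm_num))
    have h4 : u - T.Fr (T.Fr u) ≠ 0 := fun h0 => exp_ne_zero (by rw [← h3, h0, map_zero])
    exact ⟨u, hu, h4, le_of_eq ((FunctionField.ord_eq_iff P h4).mpr h3)⟩
  · rw [IsSpecial, not_and] at hS
    have hS' := hS hP
    push Not at hS'
    obtain ⟨u, hu, h⟩ := hS'
    have h4 : u - T.Fr (T.Fr u) ≠ 0 := fun h0 => by rw [h0, map_zero] at h; exact absurd h (by simp)
    refine ⟨u, hu, h4, ?_⟩
    by_contra hc
    exact absurd ((FunctionField.adicValuation_lt_one_iff P).mpr (Or.inr (by omega))) (not_lt.mpr h)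

section Partner

variable [IsFunctionField k G]

/-- The other branch: the pullback of `P` along the Frobenius pullback. -/
def partner (P : Place k G) (hP : T.IsSpecial P) : Place k G :=
  comapPlace T.Fr P (by
    obtain ⟨x, hx⟩ := T.exists_pole hP
    exact ⟨_, hx⟩)

theorem mem_partner {P : Place k G} (hP : T.IsSpecial P) {x : G} :
    x ∈ (T.partner P hP).toValuationSubring ↔ T.Fr x ∈ P.toValuationSubring :=
  mem_comapPlace _ _ _

theorem partner_lt_one {P : Place k G} (hP : T.IsSpecial P) {x : G} :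
    (T.partner P hP).adicValuation x < 1 ↔ P.adicValuation (T.Fr x) < 1 :=
  comapPlace_lt_one _ _ _

theorem isSpecial_partner {P : Place k G} (hP : T.IsSpecial P) :
    T.IsSpecial (T.partner P hP) := by
  refine ⟨T.Hb_eq_zero_of_mem ((T.mem_partner hP).mpr ?_), fun u hu => ?_⟩
  · exact T.Fr_affine T.jG_affine P hP.1
  · rw [T.partner_lt_one, map_sub]
    exact hP.2 _ (T.Fr_affine hu)

theorem partner_partner {P : Place k G} (hP : T.IsSpecial P) :
    T.partner (T.partner P hP) (T.isSpecial_partner hP) = P := by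
  classical
  set Q := T.partner (T.partner P hP) (T.isSpecial_partner hP) with hQ
  by_contra hne
  obtain ⟨z, hz, hzE⟩ := exists_approx T.RG T.deg_pos (fun R => if R = P then (1 : G) else 0)
    (Finsupp.single P 1 + Finsupp.single Q 1) (add_nonneg (by simp) (by simp))
    (fun R hR => by
      rcases eq_or_ne R P with rfl | h
      · exact hP.1
      rcases eq_or_ne R Q with rfl | h'
      · exact (T.isSpecial_partner (T.isSpecial_partner hP)).1
      · simp [Finsupp.single_eq_of_ne h, Finsupp.single_eq_of_ne h'] at hR)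
    (fun R _ => by split <;> simp [one_mem, zero_mem])
  have h1 := hzE P (by simp [Finsupp.single_eq_of_ne (Ne.symm hne)])
  have h2 := hzE Q (by simp [Finsupp.single_eq_of_ne hne])
  rw [if_pos rfl, Finsupp.add_apply, Finsupp.single_eq_same,
    Finsupp.single_eq_of_ne (Ne.symm hne), add_zero] at h1
  rw [if_neg hne, Finsupp.add_apply, Finsupp.single_eq_same,
    Finsupp.single_eq_of_ne hne, zero_add, zero_sub, Valuation.map_neg] at h2
  have hlt : (exp (-1) : ℤᵐ⁰) < 1 := by rw [← exp_zero, exp_lt_exp]; omega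
  have h3 : P.adicValuation (T.Fr (T.Fr z)) < 1 :=
    (T.partner_lt_one hP).mp ((T.partner_lt_one _).mp (h2.trans_lt hlt))
  have h4 : P.adicValuation z < 1 := (val_congr (hP.2 z hz)).mpr h3
  have h5 := val_add_lt_one (h1.trans_lt hlt) h4
  rw [sub_add_cancel, map_one] at h5
  exact lt_irrefl _ h5

theorem mem_Fr_Fr {P : Place k G} (hP : T.IsSpecial P) {x : G} :
    T.Fr (T.Fr x) ∈ P.toValuationSubring ↔ x ∈ P.toValuationSubring := by
  conv_rhs => rw [← T.partner_partner hP]
  rw [T.mem_partner, T.mem_partner]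

theorem Fr_Fr_lt_one {P : Place k G} (hP : T.IsSpecial P) {x : G} :
    P.adicValuation (T.Fr (T.Fr x)) < 1 ↔ P.adicValuation x < 1 := by
  conv_rhs => rw [← T.partner_partner hP]
  rw [T.partner_lt_one, T.partner_lt_one]

/-- Functions regular at a special place take the same value at `x` and at `Fr² x`. -/
theorem sub_Fr_Fr_lt_one {P : Place k G} (hP : T.IsSpecial P) {x : G}
    (hx : x ∈ P.toValuationSubring) : P.adicValuation (x - T.Fr (T.Fr x)) < 1 := by
  set a := value (T.RG.deg_one P) ⟨x, hx⟩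
  have h1 : P.adicValuation (x - algebraMap k G a) < 1 := val_sub_value_lt (T.RG.deg_one P) ⟨x, hx⟩
  have h2 := (T.Fr_Fr_lt_one hP).mpr h1
  rw [map_sub, map_sub, T.Fr.commutes, T.Fr.commutes] at h2
  simpa using val_sub_lt_one h1 h2

end Partner

/-- A special place at which all reduced pairs glue. -/
def IsNode (P : Place k G) : Prop :=
  T.IsSpecial P ∧ ∀ ψ, T.InR ψ → P.adicValuation (T.Fr (ψ 1) - ψ 0) < 1

instance finite_node : Finite {P : Place k G // T.IsNode P} :=
  (T.finite_isSpecial.subset fun _ hP => hP.1).to_subtype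

/-- The second components of the reduced pairs vanishing on the first component. -/
def ker0 : AddSubgroup G where
  carrier := {x | T.InR ![0, x]}
  zero_mem' := by
    show T.InR ![0, 0]
    rw [show (![0, 0] : Fin 2 → G) = 0 from funext (Fin.forall_fin_two.mpr ⟨rfl, rfl⟩)]
    exact T.inR_zero
  add_mem' := by
    intro x y hx hy
    show T.InR ![0, x + y]
    rw [show (![0, x + y] : Fin 2 → G) = ![0, x] + ![0, y] from
      funext (Fin.forall_fin_two.mpr ⟨(add_zero _).symm, rfl⟩)]
    exact InR.add hx hy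
  neg_mem' := by
    intro x hx
    show T.InR ![0, -x]
    rw [show (![0, -x] : Fin 2 → G) = 0 - ![0, x] from
      funext (Fin.forall_fin_two.mpr ⟨by simp, by simp⟩)]
    exact InR.sub T.inR_zero hx

theorem mem_ker0 {x : G} : x ∈ T.ker0 ↔ T.InR ![0, x] := Iff.rfl

theorem ker0_diff {u : G} (hu : u ∈ 𝒜) : u - T.Fr (T.Fr u) ∈ T.ker0 := by
  have h := InR.sub (T.inR_beta hu) (T.inR_alpha (T.Fr_affine hu))
  rw [mem_ker0]
  convert h using 1
  exact funext (Fin.forall_fin_two.mpr ⟨by simp, by simp⟩)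

theorem ker0_mul {x w : G} (hx : x ∈ T.ker0) (hw : w ∈ 𝒜) : w * x ∈ T.ker0 := by
  have h := InR.mul (T.inR_beta hw) hx
  rw [mem_ker0]
  convert h using 1
  exact funext (Fin.forall_fin_two.mpr ⟨by simp, by simp⟩)

theorem ker0_affine {x : G} (hx : x ∈ T.ker0) : x ∈ 𝒜 := hx.affine 1

theorem ker0_of_inR {ψ : Fin 2 → G} (h : T.InR ψ) : ψ 1 - T.Fr (ψ 0) ∈ T.ker0 := by
  have h' := InR.sub h (T.inR_alpha (h.affine 0))
  rw [mem_ker0]
  convert h' using 1
  exact funext (Fin.forall_fin_two.mpr ⟨by simp, by simp⟩)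

/-- Exactness: pairs of regular functions agreeing at all nodes are reductions. -/
theorem inR_of_glued [IsFunctionField k G] {ψ : Fin 2 → G} (h0 : ψ 0 ∈ 𝒜) (h1 : ψ 1 ∈ 𝒜)
    (hnode : ∀ P, T.IsNode P → P.adicValuation (T.Fr (ψ 1) - ψ 0) < 1) : T.InR ψ := by
  have hδA : ψ 1 - T.Fr (ψ 0) ∈ 𝒜 := sub_mem h1 (T.Fr_affine h0)
  have hδ : ψ 1 - T.Fr (ψ 0) ∈ T.ker0 := by
    refine mem_of_stable T.RG T.deg_pos (fun x hx => T.ker0_affine hx)
      (fun x hx w hw => T.ker0_mul hx hw) (T.ker0_diff T.jG_affine) T.specialFun_ne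
      (fun Q hQ => ?_) hδA fun Q hQ hall => ?_
    · obtain ⟨u, hu, hne, hord⟩ := T.exists_simple hQ
      exact ⟨_, T.ker0_diff hu, hne, hord⟩
    have hQS : T.IsSpecial Q := ⟨hQ, fun u hu => hall _ (T.ker0_diff hu)⟩
    set P := T.partner Q hQS
    have hPS : T.IsSpecial P := T.isSpecial_partner hQS
    have hQP : T.partner P hPS = Q := T.partner_partner hQS
    have key : ∀ χ : Fin 2 → G, χ 0 ∈ 𝒜 →
        (Q.adicValuation (χ 1 - T.Fr (χ 0)) < 1 ↔ P.adicValuation (T.Fr (χ 1) - χ 0) < 1) := by
      intro χ hχ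
      conv_lhs => rw [← hQP]
      rw [T.partner_lt_one, map_sub]
      refine val_congr ?_
      rw [show T.Fr (χ 1) - T.Fr (T.Fr (χ 0)) - (T.Fr (χ 1) - χ 0) = χ 0 - T.Fr (T.Fr (χ 0)) by
        ring]
      exact hPS.2 _ hχ
    by_cases hN : T.IsNode P
    · exact (key ψ h0).mpr (hnode P hN)
    · rw [IsNode, not_and] at hN
      have hN' := hN hPS
      push Not at hN'
      obtain ⟨ρ, hρ, hlt⟩ := hN'
      exact absurd ((key ρ (hρ.affine 0)).mp (hall _ (T.ker0_of_inR hρ))) (not_lt.mpr hlt)
  have h := InR.add (T.inR_alpha h0) hδ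
  convert h using 1
  exact funext (Fin.forall_fin_two.mpr ⟨by simp, by simp⟩)

section NodeData

variable [IsFunctionField k G]

/-- The two branches at each node. -/
def nodes : Nodes k G (Fin 2) {P : Place k G // T.IsNode P} where
  comp _ e := e
  place s := ![s.1, T.partner s.1 s.2.1]
  ev _ _ := value (T.RG.deg_one _)
  ev_algebraMap _ _ c := value_algebraMap (T.RG.deg_one _) c

theorem nodes_comp (s : {P : Place k G // T.IsNode P}) (e : Fin 2) : T.nodes.comp s e = e := rfl

theorem nodes_place_zero (s : {P : Place k G // T.IsNode P}) : T.nodes.place s 0 = s.1 := rfl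

theorem nodes_place_one (s : {P : Place k G // T.IsNode P}) :
    T.nodes.place s 1 = T.partner s.1 s.2.1 :=
  rfl

/-- The pole divisor vanishes at the nodes. -/
theorem Hb_place (s : {P : Place k G // T.IsNode P}) (e : Fin 2) :
    T.Hb (T.nodes.place s e) = 0 := by
  revert e
  rw [Fin.forall_fin_two, T.nodes_place_zero, T.nodes_place_one]
  exact ⟨s.2.1.1, (T.isSpecial_partner s.2.1).1⟩

theorem val_nodes_eq_iff {s : {P : Place k G // T.IsNode P}} {e : Fin 2} {x : G}
    (hx : x ∈ (T.nodes.place s e).toValuationSubring) (a : k) :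
    T.nodes.val s e x = a ↔
      (T.nodes.place s e).adicValuation (x - algebraMap k G a) < 1 := by
  rw [Nodes.val_of_mem _ hx]
  exact value_eq_iff (T.RG.deg_one _) _ a

theorem val_eq_iff (s : {P : Place k G // T.IsNode P}) {x y : G} (hx : x ∈ 𝒜) (hy : y ∈ 𝒜) :
    T.nodes.val s 0 x = T.nodes.val s 1 y ↔ s.1.adicValuation (T.Fr y - x) < 1 := by
  have hx' := hx _ (T.Hb_place s 0)
  have hy' := hy _ (T.Hb_place s 1)
  set a := T.nodes.val s 1 y with ha
  have h1 := (T.val_nodes_eq_iff hy' a).mp ha.symm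
  rw [T.nodes_place_one, T.partner_lt_one, map_sub, T.Fr.commutes] at h1
  rw [T.val_nodes_eq_iff hx', T.nodes_place_zero]
  constructor
  · intro h
    have := val_sub_lt_one h1 h
    rwa [sub_sub_sub_cancel_right] at this
  · intro h
    have := val_sub_lt_one h1 h
    convert this using 2
    ring

/-- The poles bounded by multiples of `H`. -/
def poles : PoleData T.M T.nodes where
  H := T.H
  HY := T.HY
  H_nonneg := T.H_nonneg
  HY_node s e := by
    rw [nodes_comp]
    revert e
    rw [Fin.forall_fin_two]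
    refine ⟨T.Hb_place s 0, ?_⟩
    rw [HY_one, Finsupp.smul_apply, T.Hb_place s 1, smul_zero]
  reg m φ hφ hW i := by
    have h := T.reg m φ hφ hW
    revert i
    rw [Fin.forall_fin_two, HY_zero, HY_one, ← mul_smul]
    exact h
  glue m φ hφ hW s := by
    have hR : T.InR (fun i => T.M.rd i φ) := ⟨m, T.mem_R.mpr ⟨φ, hφ, hW, rfl⟩⟩
    rw [nodes_comp, nodes_comp, T.val_eq_iff s (hR.affine 0) (hR.affine 1)]
    exact s.2.2 _ hR

theorem poles_H : T.poles.H = T.H := rfl

theorem poles_HY (i : Fin 2) : T.poles.HY i = T.HY i := rfl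

end NodeData

end Fermat.Agent.TwoComp.Setting
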