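import Fermat.Agent.Hecke.NormFormula
import Fermat.Agent.Hecke.Finite
import Fermat.Agent.FunctionField.PrincipalDivisors
import Fermat.Agent.KummerReduction.Spaces

/-!
# Spaces of functions with poles bounded by the poles of a given function

`f ∈ L(m (x)_∞)` means `v(f) ≤ max(1, v(x)) ^ m` at every place. This is stable under pullback
and trace, and a monic relation with coefficients polynomial in `x` bounds the poles of its root.
-/

set_option autoImplicit false

noncomputable section

open AlgebraicCurve WithZero Polynomial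
open Fermat.Agent.FunctionField (IsFunctionField poleDiv)

namespace Fermat.Agent.TwoComp

section One

variable {K F : Type*} [Field K] [Field F] [Algebra K F] [IsFunctionField K F]

theorem exp_poleDiv_nsmul {x : F} (hx : x ≠ 0) (m : ℕ) (v : Place K F) :
    exp ((m • poleDiv K x) v) = max 1 (v.adicValuation x) ^ m := by
  have h : exp (poleDiv K x v) = max 1 (v.adicValuation x) := by
    rw [v.adicValuation_eq_exp_neg_ord hx, show poleDiv K x v = max (-v.ord x) 0 from by
      simp [poleDiv, Finsupp.sup_apply]]
    rw [← exp_zero]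
    rcases le_total (-v.ord x) 0 with h | h
    · rw [max_eq_right h, max_eq_left (exp_le_exp.mpr h)]
    · rw [max_eq_left h, max_eq_right (exp_le_exp.mpr h)]
  rw [Finsupp.smul_apply, exp_nsmul, h]

theorem mem_rr_poleDiv {x : F} (hx : x ≠ 0) {m : ℕ} {f : F} :
    f ∈ riemannRochSpace (m • poleDiv K x) ↔
      ∀ v : Place K F, v.adicValuation f ≤ max 1 (v.adicValuation x) ^ m := by
  refine ⟨fun h v => ?_, fun h v => ?_⟩
  · rw [← exp_poleDiv_nsmul hx]; exact h v
  · rw [exp_poleDiv_nsmul hx]; exact h v

theorem self_mem_rr_poleDiv (x : F) : x ∈ riemannRochSpace (poleDiv K x) := by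
  rcases eq_or_ne x 0 with rfl | hx
  · exact zero_mem _
  rw [← one_smul ℕ (poleDiv K x), mem_rr_poleDiv hx]
  intro v
  rw [pow_one]
  exact le_max_right _ _

variable (v : Place K F)

omit [IsFunctionField K F] in
theorem adic_aeval_le (p : K[X]) {d : ℕ} (hd : p.natDegree ≤ d) (x : F) :
    v.adicValuation (aeval x p) ≤ max 1 (v.adicValuation x) ^ d := by
  rw [aeval_eq_sum_range]
  refine v.adicValuation.map_sum_le fun i hi => ?_
  rw [Algebra.smul_def, map_mul, map_pow]
  refine le_trans (mul_le_of_le_one_left zero_le (v.adicValuation_algebraMap_le_one _)) ?_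
  refine (pow_le_pow_left₀ zero_le (le_max_right 1 _) i).trans ?_
  exact pow_le_pow_right₀ (le_max_left _ _) ((Nat.lt_succ_iff.mp (Finset.mem_range.mp hi)).trans hd)

omit [IsFunctionField K F] in
/-- A root of a monic equation of degree `d + 1` with constant term of degree `≤ d + 1` and the
other coefficients of degree `≤ d` has poles at most `d` times those of `x`. -/
theorem adic_root_le {d : ℕ} (hd : 1 ≤ d) {x y : F} (c : ℕ → K[X])
    (h0 : (c 0).natDegree ≤ d + 1) (hc : ∀ i, 1 ≤ i → i ≤ d → (c i).natDegree ≤ d)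
    (hrel : y ^ (d + 1) + ∑ i ∈ Finset.range (d + 1), aeval x (c i) * y ^ i = 0) :
    v.adicValuation y ≤ max 1 (v.adicValuation x) ^ d := by
  set X' := max 1 (v.adicValuation x)
  have hX : (1 : ℤᵐ⁰) ≤ X' := le_max_left _ _
  by_contra! hlt
  have hy1 : (1 : ℤᵐ⁰) < v.adicValuation y := (one_le_pow₀ hX).trans_lt hlt
  have hy0 : 0 < v.adicValuation y := zero_lt_one.trans hy1
  have hterm : ∀ i ∈ Finset.range (d + 1),
      v.adicValuation (aeval x (c i) * y ^ i) < v.adicValuation y ^ (d + 1) := by
    intro i hi
    rw [map_mul, map_pow]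
    rcases Nat.eq_zero_or_pos i with rfl | hi0
    · rw [pow_zero, mul_one]
      calc v.adicValuation (aeval x (c 0)) ≤ X' ^ (d + 1) := adic_aeval_le v _ h0 x
        _ ≤ (X' ^ d) ^ (d + 1) := pow_le_pow_left₀ zero_le (le_self_pow hX (by omega)) _
        _ < v.adicValuation y ^ (d + 1) := pow_lt_pow_left₀ hlt zero_le (by omega)
    · have hid : i ≤ d := Nat.lt_succ_iff.mp (Finset.mem_range.mp hi)
      calc v.adicValuation (aeval x (c i)) * v.adicValuation y ^ i
          ≤ X' ^ d * v.adicValuation y ^ i :=
            mul_le_mul_left (adic_aeval_le v _ (hc i hi0 hid) x) _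
        _ < v.adicValuation y * v.adicValuation y ^ i :=
            mul_lt_mul_of_pos_right hlt (pow_pos hy0 i)
        _ = v.adicValuation y ^ (i + 1) := (pow_succ' _ _).symm
        _ ≤ v.adicValuation y ^ (d + 1) := pow_le_pow_right₀ hy1.le (by omega)
  have hsum := v.adicValuation.map_sum_lt (pow_ne_zero (d + 1) hy0.ne') hterm
  have h := congrArg v.adicValuation (eq_neg_of_add_eq_zero_left hrel)
  rw [map_pow, Valuation.map_neg] at h
  exact hsum.ne h.symm

omit [IsFunctionField K F] in
/-- The quotient of the constant term by the root. -/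
theorem adic_const_div_mul_le {d : ℕ} {x y : F} (c : ℕ → K[X])
    (h0 : (c 0).natDegree ≤ d + 1) (hc : ∀ i, 1 ≤ i → i ≤ d → (c i).natDegree ≤ d)
    (hy : y ≠ 0) (hrel : y ^ (d + 1) + ∑ i ∈ Finset.range (d + 1), aeval x (c i) * y ^ i = 0) :
    v.adicValuation (aeval x (c 0) / y) * max 1 (v.adicValuation y) ≤
      max 1 (v.adicValuation x) ^ (d + 1) := by
  set X' := max 1 (v.adicValuation x)
  have hX : (1 : ℤᵐ⁰) ≤ X' := le_max_left _ _
  rcases le_or_gt (v.adicValuation y) 1 with hle | hgt
  · rw [max_eq_left hle, mul_one]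
    have e : aeval x (c 0) / y =
        -(y ^ d + ∑ i ∈ Finset.range d, aeval x (c (i + 1)) * y ^ i) := by
      rw [div_eq_iff hy, neg_mul, add_mul, Finset.sum_mul, ← pow_succ]
      rw [Finset.sum_range_succ'] at hrel
      simp only [pow_succ, mul_assoc, pow_zero, mul_one] at hrel ⊢
      linear_combination hrel
    rw [e, Valuation.map_neg]
    refine (v.adicValuation.map_add _ _).trans (max_le ?_ ?_)
    · rw [map_pow]
      exact (pow_le_one₀ zero_le hle).trans (one_le_pow₀ hX)
    · refine v.adicValuation.map_sum_le fun i hi => ?_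
      rw [map_mul, map_pow]
      refine (mul_le_of_le_one_right zero_le (pow_le_one₀ zero_le hle)).trans ?_
      refine (adic_aeval_le v _ (hc (i + 1) (by omega) (by
        have := Finset.mem_range.mp hi; omega)) x).trans ?_
      exact pow_le_pow_right₀ hX (Nat.le_succ d)
  · rw [max_eq_right hgt.le, ← map_mul, div_mul_cancel₀ _ hy]
    exact adic_aeval_le v _ h0 x

end One

section Tower

variable {K F F' : Type*} [Field K] [Field F] [Field F'] [Algebra K F] [Algebra K F']
  [Algebra F F'] [IsScalarTower K F F'] [FiniteDimensional F F']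
  [IsFunctionField K F] [IsFunctionField K F']

omit [IsFunctionField K F] [IsFunctionField K F'] in
theorem adic_algebraMap_le_one (w : Place K F') (a : F) :
    w.adicValuation (algebraMap F F' a) ≤ 1 ↔ (w.restrict F).adicValuation a ≤ 1 := by
  rw [w.adicValuation_le_one_iff, (w.restrict F).adicValuation_le_one_iff, map_eq_zero,
    w.ord_restrict a]
  have := w.ramificationIndex_pos (F := F)
  rw [mul_nonneg_iff_of_pos_left (by exact_mod_cast this)]

theorem algebraMap_mem_rr_poleDiv {x f : F} (hx : x ≠ 0) {m : ℕ}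
    (hf : f ∈ riemannRochSpace (m • poleDiv K x)) :
    algebraMap F F' f ∈ riemannRochSpace (m • poleDiv K (algebraMap F F' x)) := by
  rw [mem_rr_poleDiv hx] at hf
  rw [mem_rr_poleDiv (by simpa using hx)]
  intro w
  have h := hf (w.restrict F)
  rcases le_or_gt ((w.restrict F).adicValuation x) 1 with hle | hgt
  · rw [max_eq_left hle, one_pow] at h
    exact ((adic_algebraMap_le_one w f).mpr h).trans (one_le_pow₀ (le_max_left _ _))
  · rw [max_eq_right hgt.le] at h
    have h' : (w.restrict F).adicValuation (f / x ^ m) ≤ 1 := by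
      rw [map_div₀, map_pow]
      exact div_le_one_of_le₀ h zero_le
    have h'' := (adic_algebraMap_le_one w _).mpr h'
    rw [map_div₀, map_pow, map_div₀, map_pow, div_le_one₀ (pow_pos (by
      rw [zero_lt_iff]; simpa using hx) m)] at h''
    exact h''.trans (pow_le_pow_left₀ zero_le (le_max_right _ _) m)

theorem trace_mem_rr_poleDiv {x : F} (hx : x ≠ 0) {m : ℕ} {φ : F'}
    (hφ : φ ∈ riemannRochSpace (m • poleDiv K (algebraMap F F' x))) :
    Algebra.trace F F' φ ∈ riemannRochSpace (m • poleDiv K x) := by
  rw [mem_rr_poleDiv (by simpa using hx)] at hφ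
  rw [mem_rr_poleDiv hx]
  intro v
  have key : ∀ ψ : F', (∀ w : Place K F', w.restrict F = v → w.adicValuation ψ ≤ 1) →
      v.adicValuation (Algebra.trace F F' ψ) ≤ 1 := by
    intro ψ hψ
    have hint : IsIntegral v.toValuationSubring ψ :=
      Hecke.isIntegral_of_forall_ord_nonneg v fun w hw => by
        rcases (w.adicValuation_le_one_iff).mp (hψ w hw) with h | h
        · rw [h, Place.ord_zero]
        · exact h
    obtain ⟨y, hy⟩ := IsIntegrallyClosed.isIntegral_iff.mp
      (Algebra.isIntegral_trace (L := F) hint)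
    rw [← hy]
    rcases eq_or_ne (y : F) 0 with h0 | h0
    · show v.adicValuation (y : F) ≤ 1
      rw [h0, map_zero]; exact zero_le_one
    · exact v.adicValuation_le_one_iff.mpr (Or.inr ((FFPlaces.mem_iff_ord_nonneg v h0).mp y.2))
  rcases le_or_gt (v.adicValuation x) 1 with hle | hgt
  · rw [max_eq_left hle, one_pow]
    refine key φ fun w hw => ?_
    have h := (adic_algebraMap_le_one w x).mpr (hw ▸ hle)
    have h' := hφ w
    rwa [max_eq_left h, one_pow] at h'
  · rw [max_eq_right hgt.le]
    have h := key ((x ^ m)⁻¹ • φ) fun w hw => by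
      have h1 : ¬ w.adicValuation (algebraMap F F' x) ≤ 1 := fun h =>
        absurd ((adic_algebraMap_le_one w x).mp h) (not_le.mpr (hw ▸ hgt))
      have h' := hφ w
      rw [max_eq_right (not_le.mp h1).le] at h'
      rw [Algebra.smul_def, map_inv₀, map_pow, map_mul, map_inv₀, map_pow, inv_mul_le_one₀
        (pow_pos (zero_lt_one.trans (not_le.mp h1)) m)]
      exact h'
    rwa [map_smul, smul_eq_mul, map_mul, map_inv₀, map_pow,
      inv_mul_le_one₀ (pow_pos (zero_lt_one.trans hgt) m)] at h

end Tower

end Fermat.Agent.TwoComp
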