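import Fermat.Agent.TwoComp.Roots
import Fermat.Agent.TwoComp.ConjExists

/-!
# Norms on the two components

A function whose norms to level `N` are `n`-th powers has residues `u`, `v` on the two components
with `Fr u * v ^ q` and `Fr v * u ^ q` both `n`-th powers; hence the square of Frobenius fixes
their classes modulo `n`-th powers.
-/

set_option autoImplicit false

noncomputable section

open AlgebraicCurve ModularCurve Fermat.Agent.GaloisBasics Fermat.Agent.CarayolFF
open Fermat.Agent.GoodReduction (GoodModel)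
open Fermat.Agent.GoodReductionModular (GaussInput gaussReduction)
open Fermat.Agent.ModularFunctionField (twist)

namespace Fermat.Agent.TwoComp

variable {N q : ℕ} [NeZero N] [NeZero q] {A : ValuationSubring Qbar}

local notation "k" => IsLocalRing.ResidueField A

/-- The coprime Frobenius algebra behind the datum of `exists_root`. -/
theorem exists_pow_of_frob_rel {G : Type*} [Field G] (F φ : G →+* G) {q n : ℕ}
    (hn : n.Coprime q) (hn0 : n ≠ 0) (hφ : ∀ u, F (F (φ u)) = u ^ (q * q))
    (hcomm : ∀ u, φ (F (F u)) = F (F (φ u))) {u a b : G} (hu : u ≠ 0) {v : G} (hv : v ≠ 0)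
    (e1 : F u * v ^ q = a ^ n) (e2 : F v * u ^ q = b ^ n) :
    ∃ c, φ u * u ^ (n - 1) = c ^ n := by
  have hb : b ≠ 0 := fun h => mul_ne_zero ((map_ne_zero F).mpr hv) (pow_ne_zero q hu)
    (by rw [e2, h, zero_pow hn0])
  have h1 : F (F u) * F v ^ q = F a ^ n := by rw [← map_pow, ← map_mul, e1, map_pow]
  have h2 : F v ^ q * u ^ (q * q) = (b ^ q) ^ n := by
    rw [pow_mul, ← mul_pow, e2, ← pow_mul, ← pow_mul, mul_comm]
  have h3 : F (F u) = u ^ (q * q) * (F a / b ^ q) ^ n := by
    have hFv : F v ^ q ≠ 0 := pow_ne_zero _ ((map_ne_zero F).mpr hv)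
    rw [div_pow, ← h1, ← h2]
    field_simp
  set w := F a / b ^ q
  have h4 : φ u ^ (q * q) * φ w ^ n = u ^ (q * q) := by
    rw [← map_pow, ← map_pow, ← map_mul, ← h3, hcomm, hφ]
  set U := φ u * u ^ (n - 1) with hU
  have hU0 : U ≠ 0 := mul_ne_zero ((map_ne_zero φ).mpr hu) (pow_ne_zero _ hu)
  have hw : φ w ^ n ≠ 0 := fun h => pow_ne_zero (q * q) hu (by rw [← h4, h, mul_zero])
  set V := u ^ (q * q) / φ w
  have h5 : U ^ (q * q) = V ^ n := by
    rw [div_pow, eq_div_iff hw, hU, mul_pow, mul_right_comm, h4, ← pow_mul, ← pow_add, ← pow_mul]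
    congr 1
    obtain ⟨m, rfl⟩ := Nat.exists_eq_succ_of_ne_zero hn0
    rw [Nat.succ_sub_one, Nat.succ_eq_add_one]
    ring
  have hg : ((Nat.gcd (q * q) n : ℕ) : ℤ) = 1 := by
    rw [(Nat.Coprime.mul_left hn.symm hn.symm).gcd_eq_one, Nat.cast_one]
  rw [Nat.gcd_eq_gcd_ab] at hg
  refine ⟨U ^ Nat.gcdB (q * q) n * V ^ Nat.gcdA (q * q) n, ?_⟩
  calc U = U ^ (((q * q : ℕ) : ℤ) * Nat.gcdA (q * q) n + (n : ℤ) * Nat.gcdB (q * q) n) := by
        rw [hg, zpow_one]
    _ = (V ^ n) ^ Nat.gcdA (q * q) n * (U ^ Nat.gcdB (q * q) n) ^ n := by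
        rw [zpow_add₀ hU0, zpow_mul, zpow_natCast, h5, mul_comm (n : ℤ), zpow_mul, zpow_natCast]
    _ = _ := by
        rw [mul_pow, mul_comm]
        congr 1
        rw [← zpow_natCast, ← zpow_natCast, ← zpow_mul, ← zpow_mul, mul_comm]

omit [NeZero N] in
theorem frobG_coeffG_comm (hq : q.Prime) (hA : A.LiesOverPrime q) (φ : k →+* k)
    (u : modularFunctionFieldFullC k N) :
    coeffG N φ (frobG N hq hA (frobG N hq hA u)) =
      frobG N hq hA (frobG N hq hA (coeffG N φ u)) := by
  refine Subtype.ext ?_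
  simp only [coe_coeffG, coe_frobG, ModularFunctionField.coeffMap_qExpand']

/-- A series with nonzero residue is a Gauss unit. -/
theorem isGaussUnit_of_gres {x : LaurentSeries Qbar} (hx : x ∈ gaussRing A) (h0 : gres A x ≠ 0) :
    IsGaussUnit A x :=
  ⟨hx, by rw [← gres_of_mem hx]; exact h0⟩

/-- A nonzero function has a multiple by a constant with nonzero residue. -/
theorem exists_gauss_scale (M : ℕ) {f : FB M} (hf : f ≠ 0) :
    ∃ y : Qbar, ((f * algebraMap Qbar (FB M) y : FB M) : LaurentSeries Qbar) ∈ gaussRing A ∧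
      gres A ((f * algebraMap Qbar (FB M) y : FB M) : LaurentSeries Qbar) ≠ 0 := by
  obtain ⟨d, x, hd, hx, e⟩ := exists_smul_unit_level (A := A) M hf
  refine ⟨d⁻¹, ?_⟩
  have h : ((f * algebraMap Qbar (FB M) d⁻¹ : FB M) : LaurentSeries Qbar) = x := by
    push_cast
    rw [e, mul_right_comm, mul_inv_cancel₀ ((map_ne_zero _).mpr hd), one_mul]
  rw [h]
  exact ⟨hx.mem, by rw [gres_of_mem hx.mem]; exact hx.2⟩

omit [NeZero N] in
/-- A function of level `N` is integral when its expansion in `t = q ^ (1/q)` is. -/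
theorem gres_of_qExpand {f : FB N} (h : qExpand Qbar q (f : LaurentSeries Qbar) ∈ gaussRing A) :
    (f : LaurentSeries Qbar) ∈ gaussRing A ∧
      gres A (qExpand Qbar q (f : LaurentSeries Qbar)) =
        qExpand k q (gres A (f : LaurentSeries Qbar)) := by
  have hmem : (f : LaurentSeries Qbar) ∈ gaussRing A := by
    rcases eq_or_ne f 0 with rfl | h0
    · exact zero_mem _
    obtain ⟨c, x, -, hx, e⟩ := exists_smul_unit_level (A := A) N h0
    obtain ⟨hm, he⟩ := gres_qExpand q hx.mem
    have hx' : IsGaussUnit A (qExpand Qbar q x) := isGaussUnit_of_gres hm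
      (by rw [he, gres_of_mem hx.mem]; exact (map_ne_zero _).mpr hx.2)
    have e' : qExpand Qbar q (f : LaurentSeries Qbar) =
        algebraMap Qbar (LaurentSeries Qbar) c * qExpand Qbar q x := by
      rw [e, map_mul, algebraMap_laurentSeries_eq_single, qExpand_single, mul_zero]
    rw [e]
    exact mul_mem (algebraMap_mem_gaussRing (mem_of_mul_isGaussUnit hx' (e' ▸ h))) hx.mem
  exact ⟨hmem, (gres_qExpand q hmem).2⟩

/-- The residue of a constant times an `n`-th power is an `n`-th power. -/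
theorem exists_root_gres (HN : GaussInput (FB N) (modularFunctionFieldFullC k N)
      (IsLocalRing.residue A)) {n : ℕ} (hn : n ≠ 0) {a h : FB N} {c : Qbar}
    (e : a = algebraMap Qbar (FB N) c * h ^ n) (ha : (a : LaurentSeries Qbar) ∈ gaussRing A)
    (h0 : gres A (a : LaurentSeries Qbar) ≠ 0) :
    ∃ b : modularFunctionFieldFullC k N,
      gres A (a : LaurentSeries Qbar) = (b : LaurentSeries k) ^ n := by
  have := residueField_isAlgClosed A
  have hh : h ≠ 0 := fun h' => h0 (by
    rw [e, h', zero_pow hn, mul_zero, ZeroMemClass.coe_zero, gres_zero])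
  obtain ⟨y, hy, hy0⟩ := exists_gauss_scale (A := A) N hh
  have hy' : y ≠ 0 := fun h' => hy0 (by
    rw [h', map_zero, mul_zero, ZeroMemClass.coe_zero, gres_zero])
  set h' := h * algebraMap Qbar (FB N) y with hh'
  have e' : (a : LaurentSeries Qbar) =
      algebraMap Qbar (LaurentSeries Qbar) (c / y ^ n) * (h' : LaurentSeries Qbar) ^ n := by
    have e'' : a = algebraMap Qbar (FB N) (c / y ^ n) * h' ^ n := by
      rw [e, hh', mul_pow, map_div₀, map_pow]
      field_simp [(map_ne_zero (algebraMap Qbar (FB N))).mpr hy']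
    rw [e'']
    push_cast
    rfl
  have hu : IsGaussUnit A ((h' : LaurentSeries Qbar) ^ n) :=
    isGaussUnit_of_gres (pow_mem hy n) (by rw [gres_pow hy]; exact pow_ne_zero _ hy0)
  have hc : c / y ^ n ∈ A := mem_of_mul_isGaussUnit hu (e' ▸ ha)
  obtain ⟨r, hr⟩ := IsAlgClosed.exists_pow_nat_eq (IsLocalRing.residue A ⟨_, hc⟩)
    (Nat.pos_of_ne_zero hn)
  obtain ⟨hc', hce⟩ := gres_algebraMap (A := A) ⟨_, hc⟩
  refine ⟨algebraMap k _ r * ⟨_, gres_mem_of_input HN h' hy⟩, ?_⟩
  rw [e', gres_mul hc' (pow_mem hy n), hce, gres_pow hy, ← hr, map_pow, ← mul_pow]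
  congr 1
  push_cast
  rw [algebraMap_laurentSeries_eq_single, ← HahnSeries.C_apply]

namespace Conj

variable (C : Conj N q) (hq : q.Prime) (hA : A.LiesOverPrime q)
  (HN : GaussInput (FB N) (modularFunctionFieldFullC (IsLocalRing.ResidueField A) N)
    (IsLocalRing.residue A))

include hq hA in
theorem gres_prod_twist {x : LaurentSeries Qbar} (hx : x ∈ gaussRing A) :
    (∏ i : Fin q, twist (C.z ^ (i : ℕ)) x) ∈ gaussRing A ∧
      gres A (∏ i : Fin q, twist (C.z ^ (i : ℕ)) x) = gres A x ^ q := by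
  classical
  have key : ∀ s : Finset (Fin q),
      (∏ i ∈ s, twist (C.z ^ (i : ℕ)) x) ∈ gaussRing A ∧
      gres A (∏ i ∈ s, twist (C.z ^ (i : ℕ)) x) = gres A x ^ s.card := by
    intro s
    induction s using Finset.induction_on with
    | empty => exact ⟨by rw [Finset.prod_empty]; exact one_mem _,
        by rw [Finset.prod_empty, Finset.card_empty, pow_zero, gres_one]⟩
    | insert a s ha ih =>
      obtain ⟨hm, he⟩ := C.gres_twist hq hA (a : ℕ) hx
      rw [Finset.prod_insert ha, Finset.card_insert_of_notMem ha]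
      exact ⟨mul_mem hm ih.1, by rw [gres_mul hm ih.1, he, ih.2, pow_succ']⟩
  simpa using key Finset.univ

include hq hA in
/-- The residues on the two components of a function whose norm is an `n`-th power. -/
theorem frobG_rel (hC : NormEq C) {n : ℕ} (hn : n ≠ 0) {f : FB (N * q)} {c : Qbar} {h : FB N}
    (hf : CarayolFF.normAlong (upα N q) f = algebraMap Qbar (FB N) c * h ^ n) {x y : Qbar}
    (HN : GaussInput (FB N) (modularFunctionFieldFullC k N) (IsLocalRing.residue A))
    (hx : ((f * algebraMap Qbar _ x : FB (N * q)) : LaurentSeries Qbar) ∈ gaussRing A)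
    (hy : ((C.w f * algebraMap Qbar _ y : FB (N * q)) : LaurentSeries Qbar) ∈ gaussRing A)
    {u v : modularFunctionFieldFullC k N} (hu : u ≠ 0) (hv : v ≠ 0)
    (eu : (u : LaurentSeries k) =
      gres A ((f * algebraMap Qbar _ x : FB (N * q)) : LaurentSeries Qbar))
    (ev : (v : LaurentSeries k) =
      gres A ((C.w f * algebraMap Qbar _ y : FB (N * q)) : LaurentSeries Qbar)) :
    ∃ b, frobG N hq hA u * v ^ q = b ^ n := by
  set a := CarayolFF.normAlong (upα N q) f * algebraMap Qbar (FB N) (x * y ^ q) with ha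
  have hqC : ∀ t : Qbar, qExpand Qbar q (algebraMap Qbar (LaurentSeries Qbar) t) =
      algebraMap Qbar (LaurentSeries Qbar) t := fun t => by
    rw [algebraMap_laurentSeries_eq_single, qExpand_single, mul_zero]
  have htC : ∀ (w : Qbarˣ) (t : Qbar), twist w (algebraMap Qbar (LaurentSeries Qbar) t) =
      algebraMap Qbar (LaurentSeries Qbar) t := fun w t => by
    rw [algebraMap_laurentSeries_eq_single, ← HahnSeries.C_apply, ModularFunctionField.twist_C]
  have e : qExpand Qbar q (a : LaurentSeries Qbar) =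
      qExpand Qbar q ((f * algebraMap Qbar _ x : FB (N * q)) : LaurentSeries Qbar) *
        ∏ i : Fin q, twist (C.z ^ (i : ℕ))
          ((C.w f * algebraMap Qbar _ y : FB (N * q)) : LaurentSeries Qbar) := by
    rw [ha]
    push_cast
    simp only [map_mul, map_pow, hC f, hqC, htC, Finset.prod_mul_distrib, Finset.prod_const,
      Finset.card_univ, Fintype.card_fin]
    ring
  obtain ⟨hP, hPe⟩ := C.gres_prod_twist hq hA hy
  obtain ⟨hQ, hQe⟩ := gres_qExpand q hx
  have hae : gres A (qExpand Qbar q (a : LaurentSeries Qbar)) =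
      qExpand k q (u : LaurentSeries k) * (v : LaurentSeries k) ^ q := by
    rw [e, gres_mul hQ hP, hPe, hQe, eu, ev]
  obtain ⟨ham, hame⟩ := gres_of_qExpand (f := a) (e ▸ mul_mem hQ hP)
  rw [hame] at hae
  have h0 : gres A (a : LaurentSeries Qbar) ≠ 0 := by
    intro h0
    rw [h0, map_zero] at hae
    exact mul_ne_zero ((map_ne_zero _).mpr fun h' => hu (Subtype.ext h'))
      (pow_ne_zero q fun h' => hv (Subtype.ext h')) hae.symm
  obtain ⟨b, hb⟩ := exists_root_gres HN hn (a := a) (c := c * (x * y ^ q)) (h := h)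
    (by rw [ha, hf, map_mul (algebraMap Qbar (FB N)) c]; ring) ham h0
  refine ⟨frobG N hq hA b, Subtype.ext ?_⟩
  push_cast
  rw [coe_frobG, coe_frobG, ← hae, hb, map_pow]

end Conj

end Fermat.Agent.TwoComp
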