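import Fermat.Agent.KummerReduction.GaussDescent
import Fermat.Agent.GaloisBasics.ResidueField
import Fermat.Agent.LocalInertia.CyclicTame
import Fermat.Agent.GoodReductionModular.Bounded
import Mathlib.FieldTheory.IntermediateField.Adjoin.Basic

/-!
# Residue data of the algebraic numbers at a place

The valuation is discrete on every number field, so finitely many bounded series are bounded over a
discretely valued subfield.
-/

set_option autoImplicit false

noncomputable section

open Fermat.Agent.GaloisBasics Fermat.Agent.KummerReduction Fermat.Agent.GoodReductionModular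

namespace Fermat.Agent.TwoComp

variable (A : ValuationSubring Qbar)

/-- The residue map at a place of `ℚ̄`. -/
def resData : ResidueData Qbar (IsLocalRing.ResidueField A) where
  A := A
  π := IsLocalRing.residue A
  π_surjective := IsLocalRing.residue_surjective
  π_eq_zero c := by
    rw [IsLocalRing.residue_eq_zero_iff, ValuationSubring.coe_mem_nonunits_iff]

theorem resData_A : (resData A).A = A := rfl

variable {A} {q : ℕ}

/-- A finite set of algebraic numbers lies in a discretely valued subfield. -/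
theorem exists_discrete (hq : q.Prime) (hA : A.LiesOverPrime q) (s : Finset Qbar) :
    ∃ (L : Subfield Qbar) (ϖ : Qbar), (resData A).Discrete L ϖ ∧ ∀ x ∈ s, x ∈ L := by
  let F := IntermediateField.adjoin ℚ (s : Set Qbar)
  have : FiniteDimensional ℚ F :=
    IntermediateField.finiteDimensional_adjoin fun x _ => Algebra.IsIntegral.isIntegral x
  obtain ⟨π, hπF, hπ⟩ := LocalInertia.exists_uniformizer hq hA F
  have hq1 : A.valuation (q : Qbar) < 1 := A.mem_nonunits_iff.mp hA
  have hq0 : (q : Qbar) ≠ 0 := Nat.cast_ne_zero.mpr hq.ne_zero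
  obtain ⟨e, he⟩ := hπ q (natCast_mem F q) hq0
  have hne : A.valuation (π : Qbar) ≠ 1 := fun h => by
    rw [h, one_zpow] at he
    exact hq1.ne he
  obtain ⟨ϖ, hϖF, hϖ0, hϖ1, hϖ⟩ : ∃ ϖ ∈ F, ϖ ≠ 0 ∧ A.valuation ϖ < 1 ∧
      ∀ x : Qbar, x ∈ F → x ≠ 0 → ∃ j : ℤ, A.valuation x = A.valuation ϖ ^ j := by
    rcases hne.lt_or_gt with h | h
    · exact ⟨π, hπF, π.ne_zero, h, hπ⟩
    · refine ⟨(π : Qbar)⁻¹, inv_mem hπF, inv_ne_zero π.ne_zero, ?_, fun x hx hx0 => ?_⟩
      · rw [map_inv₀]; exact inv_lt_one_of_one_lt₀ h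
      · obtain ⟨j, hj⟩ := hπ x hx hx0
        exact ⟨-j, by rw [map_inv₀, inv_zpow', neg_neg, hj]⟩
  refine ⟨F.toSubfield, ϖ, ⟨hϖF, hϖ0, A.mem_nonunits_iff.mpr hϖ1, fun x hx => hϖ x hx,
    fun c => ?_⟩, fun x hx => IntermediateField.subset_adjoin ℚ _ hx⟩
  rcases eq_or_ne c 0 with rfl | hc
  · exact ⟨0, by rw [zero_mul]; exact zero_mem _⟩
  let F' := IntermediateField.adjoin ℚ ({c} : Set Qbar)
  have : FiniteDimensional ℚ F' :=
    IntermediateField.adjoin.finiteDimensional (Algebra.IsIntegral.isIntegral c)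
  obtain ⟨i, hi⟩ := LocalInertia.exists_valuation_pow_factorial hq hA F'
    (IntermediateField.mem_adjoin_simple_self ℚ c) hc
  obtain ⟨e', he'⟩ := hϖ q (natCast_mem F q) hq0
  set N := (Module.finrank ℚ F').factorial
  have hN : 1 ≤ N := Nat.factorial_pos _
  refine ⟨(e' * i).natAbs, ?_⟩
  rw [resData_A, ← A.valuation_le_one_iff, map_mul, map_pow,
    ← pow_le_one_iff_of_nonneg zero_le (by omega : N ≠ 0), mul_pow, hi, he', ← zpow_mul,
    ← pow_mul, ← zpow_natCast, ← zpow_add₀ ((map_ne_zero _).mpr hϖ0)]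
  rw [← zpow_zero (A.valuation ϖ), zpow_le_zpow_iff_right_of_lt_one₀
    (zero_lt_iff.mpr ((map_ne_zero _).mpr hϖ0)) hϖ1]
  have h1 : -(e' * i) ≤ ((e' * i).natAbs : ℤ) := by omega
  have h2 : ((e' * i).natAbs : ℤ) ≤ ((e' * i).natAbs : ℤ) * N :=
    le_mul_of_one_le_right (by positivity) (by exact_mod_cast hN)
  rw [Nat.cast_mul]
  linarith

/-- Finitely many bounded series are bounded over one discretely valued subfield. -/
theorem exists_boundedOver (hq : q.Prime) (hA : A.LiesOverPrime q)
    (S : Finset (LaurentSeries Qbar)) (hS : ∀ x ∈ S, x ∈ boundedSeries Qbar) :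
    ∃ (L : Subfield Qbar) (ϖ : Qbar) (hd : (resData A).Discrete L ϖ),
      ∀ x ∈ S, x ∈ (resData A).boundedOver L ϖ ((resData A).A.nonunits_le hd.nonunit) := by
  classical
  choose! M hM hMx using hS
  choose! t ht using hM
  obtain ⟨L, ϖ, hd, hL⟩ := exists_discrete hq hA (S.biUnion t)
  refine ⟨L, ϖ, hd, fun x hx => ⟨ResidueData.mem_overSubfield.mpr fun n => ?_, ?_⟩⟩
  · have h := hMx x hx n
    rw [← ht x hx] at h
    refine (Submodule.span_le (p := (L.toAddSubgroup.toIntSubmodule))).mpr ?_ h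
    exact fun y hy => hL y (Finset.mem_biUnion.mpr ⟨x, hx, hy⟩)
  · choose j hj using fun c => hd.archimedean c
    refine ⟨(t x).sup j, ((resData A).mem_intSeries).mpr fun n => ?_⟩
    rw [ResidueData.coeff_C_mul]
    have h := hMx x hx n
    rw [← ht x hx] at h
    generalize x.coeff n = y at h ⊢
    induction h using Submodule.span_induction with
    | mem y hy =>
      rw [← Nat.add_sub_cancel' (Finset.le_sup (f := j) hy), pow_add, mul_comm, ← mul_assoc]
      exact mul_mem (hj y) (pow_mem (show ϖ ∈ (resData A).A from A.nonunits_le hd.nonunit) _)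
    | zero => rw [mul_zero]; exact zero_mem _
    | add y z _ _ hy hz => rw [mul_add]; exact add_mem hy hz
    | smul a y _ hy =>
      rw [zsmul_eq_mul, mul_left_comm]
      exact mul_mem (intCast_mem _ a) hy

/-- Finitely many quotients of bounded series lie in one `fracOver`. -/
theorem exists_fracOver (hq : q.Prime) (hA : A.LiesOverPrime q)
    (S : Finset (LaurentSeries Qbar))
    (hS : ∀ x ∈ S, ∃ a b : LaurentSeries Qbar, a ∈ boundedSeries Qbar ∧ b ∈ boundedSeries Qbar ∧
      b ≠ 0 ∧ x * b = a) :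
    ∃ (L : Subfield Qbar) (ϖ : Qbar) (hd : (resData A).Discrete L ϖ),
      ∀ x ∈ S, x ∈ (resData A).fracOver L ϖ ((resData A).A.nonunits_le hd.nonunit) := by
  classical
  choose! a b ha hb hb0 heq using hS
  obtain ⟨L, ϖ, hd, h⟩ := exists_boundedOver hq hA (S.image a ∪ S.image b) fun x hx => by
    rcases Finset.mem_union.mp hx with hx | hx <;> obtain ⟨y, hy, rfl⟩ := Finset.mem_image.mp hx
    · exact ha y hy
    · exact hb y hy
  refine ⟨L, ϖ, hd, fun x hx => ?_⟩
  have e : x = a x / b x := by rw [← heq x hx, mul_div_cancel_right₀ _ (hb0 x hx)]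
  rw [e]
  exact div_mem
    (Subfield.subset_closure (h _ (Finset.mem_union_left _ (Finset.mem_image_of_mem a hx))))
    (Subfield.subset_closure (h _ (Finset.mem_union_right _ (Finset.mem_image_of_mem b hx))))

end Fermat.Agent.TwoComp
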