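import Fermat.Agent.TwoComp.Symmetry
import Fermat.Agent.TwoComp.TwistRoot
import Fermat.Agent.TwoComp.QuadRoot

/-!
# Twisted Kummer classes at level `N * q`
-/

set_option autoImplicit false

noncomputable section

open AlgebraicCurve ModularCurve Fermat.Agent.GaloisBasics Fermat.Agent.CarayolFF
open Fermat.Agent.GoodReduction (GoodModel)
open Fermat.Agent.GoodReductionModular (GaussInput gaussReduction)

namespace Fermat.Agent.TwoComp.Conj

/- Shortcut, found once instead of at every use. -/
local instance (priority := high) algResidueRoots {κ : Type} [Field κ] (M : ℕ) :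
    Algebra κ (modularFunctionFieldFullC κ M) := inferInstance

local instance (priority := high) algLevelRoots (M : ℕ) : Algebra Qbar (FB M) := inferInstance

-- Declared before the variables, which every command would elaborate again.
set_option hygiene false in set_option quotPrecheck false in
local notation "k" => IsLocalRing.ResidueField A
set_option hygiene false in set_option quotPrecheck false in
local notation "𝕋" => setting C hq hA HN Gm hqN htr

variable {N q : ℕ} [NeZero N] [NeZero q] (C : Conj N q) {A : ValuationSubring Qbar}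
  (hq : q.Prime) (hA : A.LiesOverPrime q)
  (HN : GaussInput (FB N) (modularFunctionFieldFullC (IsLocalRing.ResidueField A) N)
    (IsLocalRing.residue A))
  {g : ℕ} {c : ℤ} {Hd : Divisor Qbar (FB N)}
  {Hb : Divisor (IsLocalRing.ResidueField A)
    (modularFunctionFieldFullC (IsLocalRing.ResidueField A) N)}
  (Gm : GoodModel (gaussReduction HN) g c Hd Hb) (hqN : ¬ q ∣ N) (htr : TrBound N C)

theorem galSymm_fixes {σ : GalQ} (S : KummerReduction.Symm (𝕋).M (𝕋).nodes)
    (hS : ∀ f, S.σF f = galF (N * q) σ f) : S.Fixes (𝕋).poles := by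
  intro m φ hφ
  rw [(𝕋).poles_H] at hφ ⊢
  rw [hS]
  exact galF_mem_rr (N * q) σ hφ

include C hq hA HN Gm hqN htr in
/-- The double twist for two decomposition elements. -/
theorem exists_root {σ : GalQ} (S : KummerReduction.Symm (𝕋).M (𝕋).nodes)
    (hS : ∀ f, S.σF f = galF (N * q) σ f) {n : ℕ} (hn : n.Coprime q) (hn0 : n ≠ 0) {e : ℕ}
    (he : ∀ x : k, x ^ n = 1 → S.φk x * x ^ e = 1) {f : FB (N * q)} (hf : f ≠ 0)
    (hord : ∀ v : Place Qbar (FB (N * q)), (n : ℤ) ∣ v.ord f)
    (h : ∀ i (x : Qbar), f * algebraMap Qbar _ x ∈ (𝕋).M.W i →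
      (𝕋).M.rd i (f * algebraMap Qbar _ x) ≠ 0 →
      ∃ a, S.φG ((𝕋).M.rd i (f * algebraMap Qbar _ x)) *
        (𝕋).M.rd i (f * algebraMap Qbar _ x) ^ (n - 1) = a ^ n) :
    ∃ s : FB (N * q), s ^ n * (galF (N * q) σ (galF (N * q) σ f * f ^ (n - 1)) *
      (galF (N * q) σ f * f ^ (n - 1)) ^ e) = 1 := by
  have := residueField_isAlgClosed A
  have : NeZero n := ⟨hn0⟩
  have : Infinite k := IsAlgClosed.instInfinite
  obtain ⟨s, hs⟩ := (𝕋).exists_root_double_twist inferInstance
    (C.gaussData hq hA HN).hasContent (C.gaussData hq hA HN).hasDescent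
    (natCast_residue_ne_zero hq hA hn) S S (galSymm_fixes C hq hA HN Gm hqN htr S hS)
    (fun g hg v => by rw [hS]; exact dvd_ord_galF (N * q) σ hg v)
    (fun g hg v => by rw [hS]; exact dvd_ord_galF (N * q) σ hg v) he hf hord h
  exact ⟨s, by simpa only [hS] using hs⟩

include C hq hA HN Gm hqN htr in
/-- Inertia satisfies `(σ - 1) ^ 2 = 0` on Kummer classes of level `N * q`. -/
theorem twistRoot {σ : GalQ} (hσ : σ ∈ A.inertiaSubgroupIn ℚ) {n : ℕ} (hn : n.Coprime q)
    (hn0 : n ≠ 0) : TwistRoot (N * q) σ n := by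
  obtain ⟨hd, hfix⟩ := mem_inertiaSubgroupIn_iff_smul.mp hσ
  have h : ∀ x : k, resHom hd x = x := hfix
  intro f hf hord
  refine exists_root C hq hA HN Gm hqN htr (inertiaSymm C hq hA HN Gm hqN htr hd h) (fun _ => rfl)
    hn hn0 (fun x hx => ?_) hf hord
    fun i x _ _ => ⟨(𝕋).M.rd i (f * algebraMap Qbar _ x), ?_⟩
  · show resHom hd x * x ^ (n - 1) = 1
    rw [h, mul_pow_sub_one hn0, hx]
  · show coeffG N (resHom hd) _ * _ ^ (n - 1) = _ ^ n
    rw [coeffG_id h, mul_pow_sub_one hn0]

end Fermat.Agent.TwoComp.Conj
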