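import Fermat.Agent.TwoComp.Residue
import Fermat.Agent.CarayolFF.Norms
import Fermat.Agent.GoodReductionModular.Gauss
import Fermat.Agent.ToricChar.Approx
import Fermat.Prelude.Def_ModularCurve_X0ModL

/-!
# Gauss reduction of modular series at a place over `q`

Reductions of `j(q^d)`, Frobenius, and level `N` membership of reductions.
-/

set_option autoImplicit false

noncomputable section

open ModularCurve Fermat.Agent.GaloisBasics Fermat.Agent.KummerReduction Fermat.Agent.CarayolFF
open Fermat.Agent.ModularFunctionField (coeffMap_jqC coeffMap_qExpand')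

namespace Fermat.Agent.TwoComp

variable {A : ValuationSubring Qbar}

local notation "k" => IsLocalRing.ResidueField A

/-- Residue in the Gauss valuation, extended by zero. -/
def gres (A : ValuationSubring Qbar) (x : LaurentSeries Qbar) :
    LaurentSeries (IsLocalRing.ResidueField A) :=
  open Classical in if h : x ∈ gaussRing A then gaussRes A ⟨x, h⟩ else 0

/-- `gres` is the residue map on the Gauss ring. -/
theorem gres_of_mem {x : LaurentSeries Qbar} (h : x ∈ gaussRing A) :
    gres A x = gaussRes A ⟨x, h⟩ := dif_pos h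

theorem gres_add {x y : LaurentSeries Qbar} (hx : x ∈ gaussRing A) (hy : y ∈ gaussRing A) :
    gres A (x + y) = gres A x + gres A y := by
  rw [gres_of_mem hx, gres_of_mem hy, gres_of_mem (add_mem hx hy), ← map_add]; rfl

theorem gres_sub {x y : LaurentSeries Qbar} (hx : x ∈ gaussRing A) (hy : y ∈ gaussRing A) :
    gres A (x - y) = gres A x - gres A y := by
  rw [gres_of_mem hx, gres_of_mem hy, gres_of_mem (sub_mem hx hy), ← map_sub]; rfl

/-- Gauss residues are multiplicative. -/
theorem gres_mul {x y : LaurentSeries Qbar} (hx : x ∈ gaussRing A) (hy : y ∈ gaussRing A) :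
    gres A (x * y) = gres A x * gres A y := by
  rw [gres_of_mem hx, gres_of_mem hy, gres_of_mem (mul_mem hx hy), ← map_mul]; rfl

theorem gres_zero : gres A 0 = 0 := by
  rw [gres_of_mem (zero_mem _)]; exact map_zero (gaussRes A)

theorem gres_one : gres A 1 = 1 := by
  rw [gres_of_mem (one_mem _)]; exact map_one (gaussRes A)

/-- Gauss residues commute with powers. -/
theorem gres_pow {x : LaurentSeries Qbar} (hx : x ∈ gaussRing A) (n : ℕ) :
    gres A (x ^ n) = gres A x ^ n := by
  induction n with
  | zero => rw [pow_zero, pow_zero, gres_one]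
  | succ n ih => rw [pow_succ, pow_succ, gres_mul (pow_mem hx n) hx, ih]

theorem gres_eq {x : LaurentSeries Qbar} {a b : LaurentSeries A} (hb : intRed A b ≠ 0)
    (hx : x * intIncl A b = intIncl A a) :
    x ∈ gaussRing A ∧ gres A x = intRed A a / intRed A b := by
  have h : x ∈ gaussRing A := (mem_gaussRing_iff A).mpr ⟨a, b, hb, hx⟩
  exact ⟨h, by rw [gres_of_mem h, gaussRes_mk A h hb hx]⟩

theorem gres_algebraMap (c : A) :
    algebraMap Qbar (LaurentSeries Qbar) (c : Qbar) ∈ gaussRing A ∧
      gres A (algebraMap Qbar (LaurentSeries Qbar) (c : Qbar)) =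
        HahnSeries.C (IsLocalRing.residue A c) := by
  rw [algebraMap_intIncl, gres_of_mem (intIncl_mem A _)]
  refine ⟨intIncl_mem A _, (gaussRes_intIncl A _).trans ?_⟩
  rw [intRed, ModularFunctionField.coeffMap_C]

/-- The residue of an integral constant. -/
theorem gres_C {c : Qbar} (hc : c ∈ A) :
    HahnSeries.C c ∈ gaussRing A ∧
      gres A (HahnSeries.C c) = HahnSeries.C (IsLocalRing.residue A ⟨c, hc⟩) := by
  have h := gres_algebraMap (A := A) ⟨c, hc⟩
  rwa [algebraMap_laurentSeries_eq_single, ← HahnSeries.C_apply] at h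

/-- Comparison with the residue data. -/
theorem gres_of_intSeries {x : LaurentSeries Qbar} {a b : (resData A).intSeries}
    (hb : (resData A).redSeries b ≠ 0) (h : x * b = a) :
    x ∈ gaussRing A ∧ gres A x = (resData A).redSeries a / (resData A).redSeries b := by
  obtain ⟨_, a', rfl⟩ := a
  obtain ⟨_, b', rfl⟩ := b
  have e : ∀ (y : LaurentSeries A) (hy : intIncl A y ∈ (resData A).intSeries),
      (resData A).redSeries ⟨_, hy⟩ = intRed A y := fun y hy => by
    ext n
    rw [ResidueData.redSeries_coeff]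
    rfl
  have ea := e a' ⟨a', rfl⟩
  have eb := e b' ⟨b', rfl⟩
  obtain ⟨h1, h2⟩ := gres_eq (x := x) (a := a') (b := b') (eb ▸ hb) h
  exact ⟨h1, h2.trans (congrArg₂ (· / ·) ea.symm eb.symm)⟩

theorem exists_intSeries {x : LaurentSeries Qbar} (hx : x ∈ gaussRing A) :
    ∃ a b : (resData A).intSeries, (resData A).redSeries b ≠ 0 ∧ x * b = a := by
  obtain ⟨a, b, hb, h⟩ := (mem_gaussRing_iff A).mp hx
  refine ⟨⟨intIncl A a, a, rfl⟩, ⟨intIncl A b, b, rfl⟩, fun h0 => hb ?_, h⟩
  rw [← h0]
  ext n
  rw [ResidueData.redSeries_coeff]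
  rfl

/-- Gauss residues commute with `t ↦ t ^ n`. -/
theorem gres_qExpand (n : ℕ) [NeZero n] {x : LaurentSeries Qbar} (hx : x ∈ gaussRing A) :
    qExpand Qbar n x ∈ gaussRing A ∧
      gres A (qExpand Qbar n x) = qExpand (IsLocalRing.ResidueField A) n (gres A x) := by
  obtain ⟨h, e⟩ := gaussRes_map (qExpand Qbar n) (qExpand A n)
    (qExpand (IsLocalRing.ResidueField A) n)
    (fun a => (coeffMap_qExpand' A.subtype n a).symm)
    (fun a => coeffMap_qExpand' (IsLocalRing.residue A) n a) hx
  exact ⟨h, by rw [gres_of_mem h, gres_of_mem hx]; exact e⟩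

/-- The residue of `j(q^d)` is `j(q^d)` in characteristic `q`. -/
theorem gres_jd (d : ℕ) [NeZero d] :
    qExpand Qbar d (jqModC Qbar) ∈ gaussRing A ∧
      gres A (qExpand Qbar d (jqModC Qbar)) = qExpand k d (jqModC k) := by
  have e : qExpand Qbar d (jqModC Qbar) = intIncl A (qExpand A d (jqModC A)) := by
    rw [intIncl, coeffMap_qExpand', coeffMap_jqC]
  rw [e, gres_of_mem (intIncl_mem A _)]
  refine ⟨intIncl_mem A _, (gaussRes_intIncl A _).trans ?_⟩
  rw [intRed, coeffMap_qExpand', coeffMap_jqC]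

/-- The residue of `j` is `j` in characteristic `q`. -/
theorem gres_jqModC : jqModC Qbar ∈ gaussRing A ∧ gres A (jqModC Qbar) = jqModC k := by
  simpa [qExpand_one_apply] using gres_jd (A := A) 1

variable {q : ℕ}

/-- Frobenius on the expansions of `j`. -/
theorem qExpand_jd_eq_pow [NeZero q] (hq : q.Prime) (hA : A.LiesOverPrime q) (d : ℕ) [NeZero d] :
    qExpand k q (qExpand k d (jqModC k)) = qExpand k d (jqModC k) ^ q := by
  have := Fact.mk hq
  have := residueField_charP hA hq
  let f : ZMod q →+* k := ZMod.castHom (dvd_refl q) k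
  have e : qExpand k d (jqModC k) = coeffMap f (qExpand (ZMod q) d (jqModC (ZMod q))) := by
    rw [coeffMap_qExpand', coeffMap_jqC]
  rw [e, ← coeffMap_qExpand', ToricChar.qExpand_eq_pow, map_pow]

/-- Powers of an element of positive valuation absorb any constant. -/
theorem exists_mul_pow_mem (hq : q.Prime) (hA : A.LiesOverPrime q) {c : Qbar}
    (hc : c ∈ A.nonunits) (d : Qbar) : ∃ m : ℕ, d * c ^ m ∈ A := by
  classical
  rcases eq_or_ne c 0 with rfl | hc0
  · exact ⟨1, by rw [pow_one, mul_zero]; exact zero_mem _⟩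
  obtain ⟨L, ϖ, hd, hL⟩ := exists_discrete hq hA {c}
  obtain ⟨i, hi⟩ := hd.exists_zpow c (hL c (Finset.mem_singleton_self c)) hc0
  obtain ⟨j, hj⟩ := hd.archimedean d
  have h0 : A.valuation ϖ ≠ 0 := (map_ne_zero _).mpr hd.ne_zero
  have hϖ : A.valuation ϖ < 1 := hd.val_lt_one
  have hi1 : 1 ≤ i := by
    by_contra hlt
    have hcv : A.valuation c < 1 := A.mem_nonunits_iff.mp hc
    rw [show A.valuation c = A.valuation ϖ ^ i from hi, ← zpow_zero (A.valuation ϖ)] at hcv
    exact absurd ((zpow_lt_zpow_iff_right_of_lt_one₀ (zero_lt_iff.mpr h0) hϖ).mp hcv) (by omega)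
  refine ⟨j, (A.valuation_le_one_iff _).mp ?_⟩
  rw [map_mul, map_pow]
  refine le_trans (mul_le_mul_right ?_ _) (by
    have := (A.valuation_le_one_iff _).mpr (show d * ϖ ^ j ∈ A from hj)
    rwa [map_mul, map_pow] at this)
  refine pow_le_pow_left' ?_ j
  rw [show A.valuation c = A.valuation ϖ ^ i from hi]
  conv_rhs => rw [← zpow_one (A.valuation ϖ)]
  exact (zpow_le_zpow_iff_right_of_lt_one₀ (zero_lt_iff.mpr h0) hϖ).mpr hi1

/-- Every nonzero function is a scalar times a Gauss unit. -/
theorem exists_smul_unit_level (M : ℕ) {f : modularFunctionFieldBar M} (hf : f ≠ 0) :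
    ∃ (c : Qbar) (x : LaurentSeries Qbar), c ≠ 0 ∧ IsGaussUnit A x ∧
      (f : LaurentSeries Qbar) = algebraMap Qbar (LaurentSeries Qbar) c * x := by
  have : IsNoetherianRing (cycSubring (1 : Qbarˣ)) := isNoetherianRing_cycSubring 1
  refine exists_smul_unit A (cycSubring (1 : Qbarˣ)) (cycSubring_le (q := 2) (one_pow 2)) ?_
    ((laurentBaseChange_full Qbar M).le f.2) (fun h => hf (Subtype.ext h))
  rintro _ ⟨e, he, -, rfl⟩
  exact qExpand_jqModC_mem_coeffsIn _ e

/-- Every function is a quotient of bounded series. -/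
theorem exists_bounded_quotient (M : ℕ) (f : modularFunctionFieldBar M) :
    ∃ a b : LaurentSeries Qbar, a ∈ GoodReductionModular.boundedSeries Qbar ∧
      b ∈ GoodReductionModular.boundedSeries Qbar ∧ b ≠ 0 ∧ (f : LaurentSeries Qbar) * b = a := by
  set S : Set (LaurentSeries Qbar) :=
    {x | ∃ (e : ℕ) (_ : NeZero e), e ∣ M ∧ x = qExpand Qbar e (jqModC Qbar)}
  let B : Subalgebra Qbar (LaurentSeries Qbar) :=
    { (GoodReductionModular.boundedSeries Qbar).toSubsemiring with
      algebraMap_mem' := GoodReductionModular.algebraMap_mem_boundedSeries }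
  have hB : Algebra.adjoin Qbar S ≤ B := by
    refine Algebra.adjoin_le ?_
    rintro _ ⟨e, he, -, rfl⟩
    show qExpand Qbar e (jqModC Qbar) ∈ GoodReductionModular.boundedSeries Qbar
    rw [← coeffMap_jqC (Int.castRingHom Qbar), ← coeffMap_qExpand']
    exact GoodReductionModular.coeffMap_intCast_mem_boundedSeries _
  obtain ⟨a, ha, b, hb, hab⟩ :=
    IntermediateField.mem_adjoin_iff_div.mp ((laurentBaseChange_full Qbar M).le f.2)
  rcases eq_or_ne b 0 with rfl | hb0
  · exact ⟨0, 1, zero_mem _, one_mem _, one_ne_zero, by rw [hab]; simp⟩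
  · exact ⟨a, b, hB ha, hB hb, hb0, by rw [hab, div_mul_cancel₀ _ hb0]⟩

/-- The residues of integral functions of a level with a Gauss input lie in its fibre. -/
theorem gres_mem_of_input {N : ℕ} [NeZero N]
    (HN : GoodReductionModular.GaussInput (modularFunctionFieldBar N)
      (modularFunctionFieldFullC k N) (IsLocalRing.residue A))
    (f : modularFunctionFieldBar N) (hf : (f : LaurentSeries Qbar) ∈ gaussRing A) :
    gres A (f : LaurentSeries Qbar) ∈ modularFunctionFieldFullC k N := by
  rcases eq_or_ne f 0 with rfl | hf0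
  · rw [ZeroMemClass.coe_zero, gres_zero]; exact zero_mem _
  rcases GoodReductionModular.isGaussInt_or_inv HN f with ⟨y₁, y₂, h1, h2, h3, e⟩ |
    ⟨y₁, y₂, h1, h2, h3, e⟩
  · rw [(gres_eq h3 e).2]
    exact div_mem (HN.coeffMap_mem _ h1) (HN.coeffMap_mem _ h2)
  · have hne : (f : LaurentSeries Qbar) ≠ 0 := fun h => hf0 (Subtype.ext h)
    have e' : (f : LaurentSeries Qbar) * intIncl A y₁ = intIncl A y₂ := by
      show _ * GoodReductionModular.liftK A y₁ = GoodReductionModular.liftK A y₂
      rw [← e, IntermediateField.coe_inv, mul_inv_cancel_left₀ hne]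
    have hy : intRed A y₁ ≠ 0 := by
      intro h0
      apply h3
      have := gres_mul hf (intIncl_mem A y₁)
      rw [e', gres_of_mem (intIncl_mem A y₁), gaussRes_intIncl, h0, mul_zero,
        gres_of_mem (intIncl_mem A y₂), gaussRes_intIncl] at this
      exact this
    rw [(gres_eq hy e').2]
    exact div_mem (HN.coeffMap_mem _ h2) (HN.coeffMap_mem _ h1)

end Fermat.Agent.TwoComp
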